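import Mathlib
import Fermat.Agent.S30.Model.Main
import Fermat.Agent.S30.Model.GlueChart

/-!
# PROGRAM U (S34 / S35): the `K`-level NODAL CONTRACT — definitions

Vocabulary of `S30/Model/Main.lean`: `O` a DVR with uniformiser `π`, `E = Frac O`, `L` a field
over `E`, `u : L` transcendental over `E`, `L / E(u)` finite.  Chart rings are the integral
closures of `O[u]`, `O[u⁻¹]`, `O[u, u⁻¹]` in `L` (as in `Model/GlueChart.lean`).

The contract describes a model whose special fibre has exactly TWO components, both normal,
crossing transversally ("nodal"):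

* `IsNodalChart π t p₁ p₂` : on the chart `t`, `p₁`, `p₂` are incomparable primes with `p₁ ⊓ p₂ = (π)`
  (so `B/π` is reduced with exactly two minimal primes, `e = 1`), `B/p₁`, `B/p₂` are Dedekind
  domains (the components are normal), and `p₁ ⊔ p₂` is a radical ideal (the crossing points are
  ordinary double points: the colength of `B/π` in `B/p₁ × B/p₂` is `1` at each of them).
* `NodalDatum π u` : two primes `P₁`, `P₂` of the overlap chart whose contractions to the charts
  `u` and `u⁻¹` satisfy `IsNodalChart`.
* `CongrOneAt P h`, `NodalDatum.Toric h` : `h ≡ 1` at `P`; at both primes.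
* `IsModelAut u σ` : a SEMILINEAR automorphism `σ` of `L` preserving `O` and fixing `u`.
* `NodalDatum.IsAut σ` : moreover `σ` fixes every crossing point (on both charts).
* `NodalDatum.Preserves σ`, `NodalDatum.Swaps σ` : `σ` fixes, resp. exchanges, the components.
* `TrivialMod P σ` : `σ` acts trivially on the residue ring at `P` (the inertia case).

No Atkin–Lehner involution appears here: on the modular side `P₂ = W P₁`, but the algebra never
uses it.  WARNING (the trap): "`h` toric and `m ∣ div h` ⇒ `h` is an `m`-th power" is FALSE;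
only the relative statements of `Nodal/Main.lean` are true.
-/

set_option autoImplicit false

open Fermat.Agent.S30.Model Fermat.Agent.S30.Model.GlueChart

namespace Fermat.Agent.S34.Nodal

section Charts

variable (O : Type*) {L : Type*} [CommRing O] [Field L] [Algebra O L]

/-- The chart ring: the integral closure of `O[t]` in `L`. -/
abbrev Chart (t : L) : Type _ := integralClosure (Algebra.adjoin O ({t} : Set L)) L

/-- The overlap chart ring: the integral closure of `O[u, u⁻¹]` in `L`. -/
abbrev Overlap (u : L) : Type _ := integralClosure (Algebra.adjoin O ({u, u⁻¹} : Set L)) L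

theorem adjoin_le_overlap (u : L) :
    Algebra.adjoin O ({u} : Set L) ≤ Algebra.adjoin O ({u, u⁻¹} : Set L) :=
  Algebra.adjoin_mono (by simp)

theorem adjoin_inv_le_overlap (u : L) :
    Algebra.adjoin O ({u⁻¹} : Set L) ≤ Algebra.adjoin O ({u, u⁻¹} : Set L) :=
  Algebra.adjoin_mono (by simp)

/-- The inclusion of the chart `u` into the overlap. -/
noncomputable abbrev toOverlapZero (u : L) : Chart O u →+* Overlap O u :=
  inclHom (adjoin_le_overlap O u)

/-- The inclusion of the chart `u⁻¹` into the overlap. -/
noncomputable abbrev toOverlapInf (u : L) : Chart O u⁻¹ →+* Overlap O u :=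
  inclHom (adjoin_inv_le_overlap O u)

end Charts

section Defs

variable {O L : Type*} [CommRing O] [Field L] [Algebra O L]

/-- **Nodal chart.**  On the chart `t`, the special fibre is the union of the two normal
components `V(p₁)`, `V(p₂)`, meeting transversally. -/
structure IsNodalChart (π : O) (t : L) (p₁ p₂ : Ideal (Chart O t)) : Prop where
  /-- (N1) two distinct primes ... -/
  isPrime₁ : p₁.IsPrime
  isPrime₂ : p₂.IsPrime
  ne : p₁ ≠ p₂
  /-- (N1) ... incomparable (both are minimal over `π`, i.e. both are components) ... -/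
  not_le₁₂ : ¬ p₁ ≤ p₂
  not_le₂₁ : ¬ p₂ ≤ p₁
  /-- (N1) ... with `p₁ ∩ p₂ = (π)`: the special fibre is reduced, `e = 1`, no other component. -/
  inf_eq : p₁ ⊓ p₂ = Ideal.span {piElt (Algebra.adjoin O ({t} : Set L)) π}
  /-- (N2) the components are normal. -/
  dedekind₁ : IsDedekindDomain (Chart O t ⧸ p₁)
  dedekind₂ : IsDedekindDomain (Chart O t ⧸ p₂)
  /-- (N4) the crossing points are ordinary double points. -/
  radical : (p₁ ⊔ p₂).IsRadical

/-- **Nodal datum**: the two components, given by two primes of the overlap chart, with nodal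
special fibre on both charts. -/
structure NodalDatum (π : O) (u : L) where
  P₁ : Ideal (Overlap O u)
  P₂ : Ideal (Overlap O u)
  isPrime₁ : P₁.IsPrime
  isPrime₂ : P₂.IsPrime
  chartZero : IsNodalChart π u (P₁.comap (toOverlapZero O u)) (P₂.comap (toOverlapZero O u))
  chartInf : IsNodalChart π u⁻¹ (P₁.comap (toOverlapInf O u)) (P₂.comap (toOverlapInf O u))

/-- `h ≡ 1` at the prime `P` of the overlap chart: `h = (b + a) / b` with `a ∈ P`, `b ∉ P`. -/
def CongrOneAt {u : L} (P : Ideal (Overlap O u)) (h : L) : Prop :=
  ∃ a b : Overlap O u, a ∈ P ∧ b ∉ P ∧ h * (b : L) = (b : L) + (a : L)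

/-- `σ` maps the ideal `P` of the overlap chart into `Q` (elementwise in `L`). -/
def MapsInto {u : L} (P Q : Ideal (Overlap O u)) (σ : L ≃+* L) : Prop :=
  ∀ x : Overlap O u, x ∈ P → ∃ y : Overlap O u, y ∈ Q ∧ (y : L) = σ (x : L)

/-- `σ` acts trivially on the residue ring of the overlap chart at `P`. -/
def TrivialMod {u : L} (P : Ideal (Overlap O u)) (σ : L ≃+* L) : Prop :=
  ∀ x : Overlap O u, ∃ y : Overlap O u, y ∈ P ∧ (y : L) = σ (x : L) - (x : L)

/-- `σ` fixes the crossing points of the chart `t`: every maximal ideal containing `p₁` and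
`p₂` is mapped into itself. -/
def FixesNodes (t : L) (p₁ p₂ : Ideal (Chart O t)) (σ : L ≃+* L) : Prop :=
  ∀ M : Ideal (Chart O t), M.IsMaximal → p₁ ≤ M → p₂ ≤ M →
    ∀ x : Chart O t, x ∈ M → ∃ y : Chart O t, y ∈ M ∧ (y : L) = σ (x : L)

/-- A semilinear automorphism of the model: a ring automorphism of `L` preserving `O` and
fixing the parameter `u`. -/
structure IsModelAut (O : Type*) {L : Type*} [CommRing O] [Field L] [Algebra O L] (u : L)
    (σ : L ≃+* L) : Prop where
  map_base : ∀ a : O, ∃ a' : O, σ (algebraMap O L a) = algebraMap O L a'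
  symm_map_base : ∀ a : O, ∃ a' : O, σ.symm (algebraMap O L a) = algebraMap O L a'
  map_u : σ u = u

namespace NodalDatum

variable {π : O} {u : L} (D : NodalDatum π u)

/-- `h` is **toric**: `h ≡ 1` on both components. -/
def Toric (h : L) : Prop := CongrOneAt D.P₁ h ∧ CongrOneAt D.P₂ h

/-- `σ` is a semilinear automorphism of the nodal model fixing every crossing point. -/
structure IsAut (σ : L ≃+* L) : Prop where
  model : IsModelAut O u σ
  fixZero : FixesNodes u (D.P₁.comap (toOverlapZero O u)) (D.P₂.comap (toOverlapZero O u)) σ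
  fixInf : FixesNodes u⁻¹ (D.P₁.comap (toOverlapInf O u)) (D.P₂.comap (toOverlapInf O u)) σ

/-- `σ` maps each component to itself. -/
def Preserves (σ : L ≃+* L) : Prop := MapsInto D.P₁ D.P₁ σ ∧ MapsInto D.P₂ D.P₂ σ

/-- `σ` exchanges the two components. -/
def Swaps (σ : L ≃+* L) : Prop := MapsInto D.P₁ D.P₂ σ ∧ MapsInto D.P₂ D.P₁ σ

end NodalDatum

end Defs

end Fermat.Agent.S34.Nodal
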