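import Mathlib
import Fermat.Agent.S34.Nodal.Defs
import Fermat.Agent.S30.Model.ChartInf
import Fermat.Agent.S30.Model.ChartProv

/-!
# PROGRAM U: the chart at infinity of a nodal datum, from the chart `u` and the points over `∞`

`IsNodalChart π u⁻¹ ..` (the field `chartInf` of a `NodalDatum`) follows from `IsNodalChart π u ..`
(the field `chartZero`) and POINTWISE conditions at the maximal ideals `M` of the chart ring of
`u⁻¹` containing `u⁻¹` (the points over `u = ∞`) only:

* `hsep`  : not both components pass through `M`;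
* `hregᵢ` : if the `i`-th component passes through `M`, then `M = pᵢ + (θ)` locally at `M`
  (the component is regular at `M`).

This is the `IsNodalChart` twin of `Model.ChartInf.ldAt_inf_of_ldAt_zero`: the finite points of the
chart `u⁻¹` also lie on the chart `u`.

## Contents
* abstract (Mathlib only) local-to-global lemmas: `exists_algebraMap_eq_of_forall_maximal`,
  `mem_of_forall_maximal`, `exists_not_mem_mul_eq_of_principal`,
  `isIntegrallyClosed_quotient_of_forall_maximal`, `isRadical_of_forall_maximal`,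
  `dimensionLEOne_of_isIntegral`;
* abstract two-chart lemmas (`S = B[1/t] = B₀[1/s]`): `isIntegrallyClosed_of_two_charts`,
  `isIntegrallyClosed_quotient_of_two_charts`, `isRadical_of_two_charts`,
  `isRadical_sup_of_two_charts`, `not_comap_le_of_two_charts`, `map_comap_of_two_charts`;
* chart level: `inf_eq_inf`, `dimensionLEOne_quotient`, `isNoetherianRing_chart`,
  `isDedekindDomain_quotient_chart` (one chart, all points), `isDedekindDomain_quotient_inf`;
* `isNodalChart_inf` and `nodalDatum`.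
-/

set_option autoImplicit false
set_option linter.style.haveILetI false

open Fermat.Agent.S30.Model Fermat.Agent.S30.Model.GlueChart

namespace Fermat.Agent.S34.Nodal.InfGlue

section Abstract

/-- An element `z` of an `R`-algebra which, for every maximal ideal `M`, has a denominator outside
`M`, comes from `R`. -/
theorem exists_algebraMap_eq_of_forall_maximal {R K : Type*} [CommRing R] [CommRing K]
    [Algebra R K] (z : K)
    (h : ∀ M : Ideal R, M.IsMaximal →
      ∃ c, c ∉ M ∧ ∃ r, algebraMap R K c * z = algebraMap R K r) :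
    ∃ r, algebraMap R K r = z := by
  let D : Ideal R :=
    { carrier := {d | ∃ r, algebraMap R K d * z = algebraMap R K r}
      add_mem' := by
        rintro a b ⟨ra, ha⟩ ⟨rb, hb⟩
        exact ⟨ra + rb, by rw [map_add, add_mul, ha, hb, map_add]⟩
      zero_mem' := ⟨0, by rw [map_zero, zero_mul]⟩
      smul_mem' := by
        rintro c a ⟨ra, ha⟩
        exact ⟨c * ra, by rw [smul_eq_mul, map_mul, mul_assoc, ha, map_mul]⟩ }
  by_cases hD : D = ⊤
  · have h1 : (1 : R) ∈ D := hD ▸ Submodule.mem_top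
    obtain ⟨r, hr⟩ := h1
    exact ⟨r, by rw [← hr, map_one, one_mul]⟩
  · obtain ⟨M, hM, hDM⟩ := Ideal.exists_le_maximal D hD
    obtain ⟨c, hc, r, hr⟩ := h M hM
    exact absurd (hDM ⟨r, hr⟩) hc

/-- An element `x` which, for every maximal ideal `M`, is multiplied into `I` by an element
outside `M`, lies in `I`. -/
theorem mem_of_forall_maximal {B : Type*} [CommRing B] (I : Ideal B) (x : B)
    (h : ∀ M : Ideal B, M.IsMaximal → ∃ c, c ∉ M ∧ c * x ∈ I) : x ∈ I := by
  let D : Ideal B :=
    { carrier := {d | d * x ∈ I}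
      add_mem' := by
        intro a b ha hb
        show (a + b) * x ∈ I
        rw [add_mul]; exact I.add_mem ha hb
      zero_mem' := by show (0 : B) * x ∈ I; rw [zero_mul]; exact I.zero_mem
      smul_mem' := by
        intro c a ha
        show c • a * x ∈ I
        rw [smul_eq_mul, mul_assoc]; exact I.mul_mem_left c ha }
  by_cases hD : D = ⊤
  · have h1 : (1 : B) ∈ D := hD ▸ Submodule.mem_top
    have h2 : (1 : B) * x ∈ I := h1
    rwa [one_mul] at h2
  · obtain ⟨M, hM, hDM⟩ := Ideal.exists_le_maximal D hD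
    obtain ⟨c, hc, hcx⟩ := h M hM
    exact absurd (hDM hcx) hc

/-- If a maximal ideal `M` of a noetherian domain is locally principal (`M = (θ)` locally at
`M`), then the domain is integrally closed at `M`: an integral element of the fraction field has a
denominator outside `M`. -/
theorem exists_not_mem_mul_eq_of_principal {R : Type*} [CommRing R] [IsDomain R]
    [IsNoetherianRing R] (K : Type*) [Field K] [Algebra R K] [IsFractionRing R K]
    (M : Ideal R) [hM : M.IsMaximal] (θ : R) (hθ : θ ∈ M)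
    (h : ∀ y ∈ M, ∃ c, c ∉ M ∧ c * y ∈ Ideal.span {θ})
    (z : K) (hz : IsIntegral R z) :
    ∃ c, c ∉ M ∧ ∃ r, algebraMap R K c * z = algebraMap R K r := by
  classical
  let Rm := Localization.AtPrime M
  have hprinc : (IsLocalRing.maximalIdeal Rm).IsPrincipal := by
    refine ⟨⟨algebraMap R Rm θ, ?_⟩⟩
    apply le_antisymm
    · intro x hx
      obtain ⟨y, s, rfl⟩ := IsLocalization.exists_mk'_eq M.primeCompl x
      have hy : y ∈ M := (IsLocalization.AtPrime.mk'_mem_maximal_iff Rm M y s).mp hx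
      obtain ⟨c, hc, hcy⟩ := h y hy
      obtain ⟨a, ha⟩ := Ideal.mem_span_singleton'.mp hcy
      rw [Ideal.submodule_span_eq, Ideal.mem_span_singleton']
      refine ⟨IsLocalization.mk' Rm a ((⟨c, hc⟩ : M.primeCompl) * s), ?_⟩
      rw [← IsLocalization.mk'_one (M := M.primeCompl) Rm θ, ← IsLocalization.mk'_mul]
      apply IsLocalization.mk'_eq_of_eq
      simp only [Submonoid.coe_mul, mul_one]
      rw [ha]; ring
    · rw [Ideal.submodule_span_eq, Ideal.span_le, Set.singleton_subset_iff]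
      exact (IsLocalization.AtPrime.to_map_mem_maximal_iff Rm M θ).mpr hθ
  have hic : IsIntegrallyClosed Rm := by
    have h43 := ((tfae_of_isNoetherianRing_of_isLocalRing_of_isDomain Rm).out 4 3).mp hprinc
    exact h43.1
  have hg : ∀ y : M.primeCompl, IsUnit (algebraMap R K (y : R)) := fun y =>
    IsUnit.mk0 _ ((map_ne_zero_iff _ (IsFractionRing.injective R K)).mpr
      (fun h0 => y.2 (h0 ▸ M.zero_mem)))
  let g : Rm →+* K := IsLocalization.lift hg
  letI : Algebra Rm K := g.toAlgebra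
  have : IsScalarTower R Rm K :=
    IsScalarTower.of_algebraMap_eq (fun x => (IsLocalization.lift_eq hg x).symm)
  have : IsFractionRing Rm K :=
    IsFractionRing.isFractionRing_of_isDomain_of_isLocalization M.primeCompl Rm K
  have hzm : IsIntegral Rm z := hz.tower_top
  obtain ⟨w, hw⟩ := IsIntegrallyClosed.isIntegral_iff.mp hzm
  obtain ⟨r, c, rfl⟩ := IsLocalization.exists_mk'_eq M.primeCompl w
  refine ⟨c, c.2, r, ?_⟩
  rw [← hw, IsScalarTower.algebraMap_apply R Rm K, IsScalarTower.algebraMap_apply R Rm K,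
    ← map_mul, mul_comm, IsLocalization.mk'_spec]

/-- `S` is the localisation of `R` at the powers of `t`, in elementwise form. -/
theorem isLocalization_powers {R S : Type*} [CommRing R] [CommRing S] [Algebra R S]
    (hi : Function.Injective (algebraMap R S)) (t : R) (ht : IsUnit (algebraMap R S t))
    (hS : ∀ x : S, ∃ (n : ℕ) (r : R), algebraMap R S t ^ n * x = algebraMap R S r) :
    IsLocalization (Submonoid.powers t) S := by
  rw [isLocalization_iff]
  refine ⟨?_, fun x => ?_, fun h => ⟨1, by rw [hi h]⟩⟩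
  · rintro ⟨_, n, rfl⟩
    rw [map_pow]
    exact ht.pow n
  · obtain ⟨n, r, h⟩ := hS x
    exact ⟨(r, ⟨t ^ n, n, rfl⟩), by rw [mul_comm, map_pow]; exact h⟩

/-- **Integrally closed from two charts.**  `R` and `R₀` are domains with a common localisation
`S = R[1/t] = R₀[1/s]` (`t s = 1` in `S`).  If `R₀` is integrally closed and `R` is integrally
closed at every maximal ideal containing `t`, then `R` is integrally closed. -/
theorem isIntegrallyClosed_of_two_charts {R R₀ S : Type*} [CommRing R] [IsDomain R]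
    [CommRing R₀] [IsDomain R₀] [IsIntegrallyClosed R₀] [CommRing S] [IsDomain S]
    (i : R →+* S) (i₀ : R₀ →+* S) (hi : Function.Injective i) (hi₀ : Function.Injective i₀)
    (t : R) (s : R₀) (hts : i t * i₀ s = 1)
    (hS : ∀ x : S, ∃ (n : ℕ) (r : R), i t ^ n * x = i r)
    (hS₀ : ∀ x : S, ∃ (n : ℕ) (r : R₀), i₀ s ^ n * x = i₀ r)
    (hloc : ∀ M : Ideal R, M.IsMaximal → t ∈ M → ∀ z : FractionRing R, IsIntegral R z →
      ∃ c, c ∉ M ∧ ∃ r, algebraMap R (FractionRing R) c * z = algebraMap R (FractionRing R) r) :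
    IsIntegrallyClosed R := by
  classical
  letI : Algebra R S := i.toAlgebra
  letI : Algebra R₀ S := i₀.toAlgebra
  have hloc_t : IsLocalization (Submonoid.powers t) S :=
    isLocalization_powers hi t (IsUnit.of_mul_eq_one _ hts) hS
  have hloc_s : IsLocalization (Submonoid.powers s) S :=
    isLocalization_powers hi₀ s (IsUnit.of_mul_eq_one _ (by rw [mul_comm]; exact hts)) hS₀
  have hs0 : s ≠ 0 := by
    rintro rfl
    rw [map_zero, mul_zero] at hts
    exact zero_ne_one hts
  have ht0 : t ≠ 0 := by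
    rintro rfl
    rw [map_zero, zero_mul] at hts
    exact zero_ne_one hts
  have hSic : IsIntegrallyClosed S :=
    isIntegrallyClosed_of_isLocalization S (Submonoid.powers s)
      (powers_le_nonZeroDivisors_of_noZeroDivisors hs0)
  let K := FractionRing R
  have hg : ∀ y : Submonoid.powers t, IsUnit (algebraMap R K (y : R)) := fun y =>
    IsUnit.mk0 _ ((map_ne_zero_iff _ (IsFractionRing.injective R K)).mpr (by
      obtain ⟨_, n, rfl⟩ := y
      exact pow_ne_zero n ht0))
  let g : S →+* K := IsLocalization.lift hg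
  letI : Algebra S K := g.toAlgebra
  have : IsScalarTower R S K :=
    IsScalarTower.of_algebraMap_eq (fun x => (IsLocalization.lift_eq hg x).symm)
  have : IsFractionRing S K :=
    IsFractionRing.isFractionRing_of_isDomain_of_isLocalization (Submonoid.powers t) S K
  refine (isIntegrallyClosed_iff K).mpr fun {z} hz => ?_
  apply exists_algebraMap_eq_of_forall_maximal
  intro M hM
  by_cases htM : t ∈ M
  · exact hloc M hM htM z hz
  · have hzS : IsIntegral S z := hz.tower_top
    obtain ⟨w, hw⟩ := IsIntegrallyClosed.isIntegral_iff.mp hzS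
    obtain ⟨n, r, hr⟩ := hS w
    refine ⟨t ^ n, fun h => htM (hM.isPrime.mem_of_pow_mem n h), r, ?_⟩
    rw [← hw, IsScalarTower.algebraMap_apply R S K, IsScalarTower.algebraMap_apply R S K,
      ← map_mul]
    congr 1
    rw [map_pow]
    exact hr

/-- **Radical from two charts.**  `B` and `B₀` have a common localisation `S = B[1/t] = B₀[1/s]`.
If the ideals `I ⊆ B`, `I₀ ⊆ B₀` generate the same ideal of `S`, `I₀` is radical, and no maximal
ideal of `B` containing `t` contains `I`, then `I` is radical. -/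
theorem isRadical_of_two_charts {B B₀ S : Type*} [CommRing B] [CommRing B₀] [CommRing S]
    (i : B →+* S) (i₀ : B₀ →+* S) (hi : Function.Injective i) (hi₀ : Function.Injective i₀)
    (t : B) (s : B₀) (hts : i t * i₀ s = 1)
    (hS : ∀ x : S, ∃ (n : ℕ) (r : B), i t ^ n * x = i r)
    (hS₀ : ∀ x : S, ∃ (n : ℕ) (r : B₀), i₀ s ^ n * x = i₀ r)
    (I : Ideal B) (I₀ : Ideal B₀) (hI₀ : I₀.IsRadical) (hII : I.map i = I₀.map i₀)
    (hcusp : ∀ M : Ideal B, M.IsMaximal → t ∈ M → ¬ I ≤ M) : I.IsRadical := by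
  classical
  letI : Algebra B S := i.toAlgebra
  letI : Algebra B₀ S := i₀.toAlgebra
  have hloc_t : IsLocalization (Submonoid.powers t) S :=
    isLocalization_powers hi t (IsUnit.of_mul_eq_one _ hts) hS
  have hloc_s : IsLocalization (Submonoid.powers s) S :=
    isLocalization_powers hi₀ s (IsUnit.of_mul_eq_one _ (by rw [mul_comm]; exact hts)) hS₀
  rintro x ⟨n, hxn⟩
  apply mem_of_forall_maximal
  intro M hM
  by_cases htM : t ∈ M
  · obtain ⟨c, hcI, hcM⟩ := SetLike.not_le_iff_exists.mp (hcusp M hM htM)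
    exact ⟨c, hcM, I.mul_mem_right x hcI⟩
  · -- the finite points: transfer from the chart `B₀`
    have h1 : i x ^ n ∈ I₀.map i₀ := by
      rw [← hII, ← map_pow]
      exact Ideal.mem_map_of_mem i hxn
    obtain ⟨k, r₀, hr₀⟩ := hS₀ (i x)
    have h2 : i₀ (r₀ ^ n) ∈ I₀.map i₀ := by
      rw [map_pow, ← hr₀, mul_pow]
      exact Ideal.mul_mem_left _ _ h1
    obtain ⟨⟨⟨a, haI⟩, ⟨_, m, rfl⟩⟩, ham⟩ :=
      (IsLocalization.mem_map_algebraMap_iff (Submonoid.powers s) S).mp h2
    have h3 : r₀ ^ n * s ^ m = a := hi₀ (by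
      rw [map_mul]; exact ham)
    have h4 : r₀ * s ∈ I₀ := by
      apply hI₀
      refine ⟨n + m, ?_⟩
      have e : (r₀ * s) ^ (n + m) = (r₀ ^ n * s ^ m) * (r₀ ^ m * s ^ n) := by ring
      rw [e, h3]
      exact I₀.mul_mem_right _ haI
    have h5 : i x ∈ I.map i := by
      have e : i x = i t ^ (k + 1) * i₀ (r₀ * s) := by
        rw [map_mul, ← hr₀]
        have : i t ^ (k + 1) * (i₀ s ^ k * i x * i₀ s) = (i t * i₀ s) ^ (k + 1) * i x := by ring
        rw [this, hts, one_pow, one_mul]
      rw [e, hII]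
      exact Ideal.mul_mem_left _ _ (Ideal.mem_map_of_mem i₀ h4)
    obtain ⟨⟨⟨b, hbI⟩, ⟨_, m', rfl⟩⟩, hbm⟩ :=
      (IsLocalization.mem_map_algebraMap_iff (Submonoid.powers t) S).mp h5
    have h6 : x * t ^ m' = b := hi (by rw [map_mul]; exact hbm)
    refine ⟨t ^ m', fun h => htM (hM.isPrime.mem_of_pow_mem m' h), ?_⟩
    rw [mul_comm, h6]
    exact hbI

/-- A domain integral over a domain of dimension `≤ 1` has dimension `≤ 1`. -/
theorem dimensionLEOne_of_isIntegral (A R : Type*) [CommRing A] [IsDomain A]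
    [Ring.DimensionLEOne A] [CommRing R] [IsDomain R] [Algebra A R] [Algebra.IsIntegral A R] :
    Ring.DimensionLEOne R :=
  ⟨fun {p} hp hpp => by
    obtain ⟨x, hx, hx0⟩ := Submodule.exists_mem_ne_zero_of_ne_bot hp
    have h1 : p.comap (algebraMap A R) ≠ ⊥ :=
      Ideal.comap_ne_bot_of_integral_mem hx0 hx (Algebra.IsIntegral.isIntegral x)
    have h2 : (p.comap (algebraMap A R)).IsMaximal :=
      Ring.DimensionLEOne.maximalOfPrime h1 (Ideal.comap_isPrime _ _)
    exact Ideal.isMaximal_of_isIntegral_of_isMaximal_comap p h2⟩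

/-- Ideals of a localisation `S = B[1/t]` are extended from `B`, in elementwise form. -/
theorem map_comap_of_two_charts {B B₀ S : Type*} [CommRing B] [CommRing B₀] [CommRing S]
    (i : B →+* S) (i₀ : B₀ →+* S) (t : B) (s : B₀) (hts : i t * i₀ s = 1)
    (hS : ∀ x : S, ∃ (n : ℕ) (r : B), i t ^ n * x = i r) (P : Ideal S) :
    (P.comap i).map i = P := by
  refine le_antisymm Ideal.map_comap_le (fun x hx => ?_)
  obtain ⟨n, r, hr⟩ := hS x
  have hrP : r ∈ P.comap i := Ideal.mem_comap.mpr (hr ▸ P.mul_mem_left _ hx)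
  have e : x = i₀ s ^ n * i r := by
    rw [← hr, ← mul_assoc, ← mul_pow, mul_comm (i₀ s), hts, one_pow, one_mul]
  rw [e]
  exact Ideal.mul_mem_left _ _ (Ideal.mem_map_of_mem _ hrP)

/-- Incomparability of contractions transfers between two charts. -/
theorem not_comap_le_of_two_charts {B B₀ S : Type*} [CommRing B] [CommRing B₀] [CommRing S]
    (i : B →+* S) (i₀ : B₀ →+* S) (t : B) (s : B₀) (hts : i t * i₀ s = 1)
    (hS : ∀ x : S, ∃ (n : ℕ) (r : B), i t ^ n * x = i r) (P Q : Ideal S) [hQ : Q.IsPrime]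
    (h : ¬ P.comap i₀ ≤ Q.comap i₀) : ¬ P.comap i ≤ Q.comap i := by
  obtain ⟨x, hxP, hxQ⟩ := SetLike.not_le_iff_exists.mp h
  have hxP' : i₀ x ∈ P := Ideal.mem_comap.mp hxP
  have hxQ' : i₀ x ∉ Q := fun h' => hxQ (Ideal.mem_comap.mpr h')
  obtain ⟨n, r, hr⟩ := hS (i₀ x)
  intro hle
  have hrP : r ∈ P.comap i := Ideal.mem_comap.mpr (hr ▸ P.mul_mem_left _ hxP')
  have hrQ : i r ∈ Q := Ideal.mem_comap.mp (hle hrP)
  rw [← hr] at hrQ
  rcases hQ.mem_or_mem hrQ with h1 | h1
  · exact hQ.ne_top (Ideal.eq_top_of_isUnit_mem _ (hQ.mem_of_pow_mem n h1)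
      (IsUnit.of_mul_eq_one _ hts))
  · exact hxQ' h1

/-- Local form: if the maximal ideal `M ⊇ p` of the noetherian ring `B` is `p + (θ)` locally at
`M`, then the domain `B / p` is integrally closed at `M / p`. -/
theorem exists_not_mem_mul_eq_quotient {B : Type*} [CommRing B] [IsNoetherianRing B]
    (p : Ideal B) [p.IsPrime] (Mb : Ideal (B ⧸ p)) (hMb : Mb.IsMaximal)
    (hreg : ∃ θ ∈ Mb.comap (Ideal.Quotient.mk p), ∀ y ∈ Mb.comap (Ideal.Quotient.mk p),
      ∃ c, c ∉ Mb.comap (Ideal.Quotient.mk p) ∧ c * y ∈ p ⊔ Ideal.span {θ})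
    (z : FractionRing (B ⧸ p)) (hz : IsIntegral (B ⧸ p) z) :
    ∃ c, c ∉ Mb ∧ ∃ r, algebraMap (B ⧸ p) (FractionRing (B ⧸ p)) c * z =
      algebraMap (B ⧸ p) (FractionRing (B ⧸ p)) r := by
  obtain ⟨θ, hθ, h⟩ := hreg
  refine exists_not_mem_mul_eq_of_principal _ Mb
    (Ideal.Quotient.mk p θ) (Ideal.mem_comap.mp hθ) ?_ z hz
  intro yb hyb
  obtain ⟨y, rfl⟩ := Ideal.Quotient.mk_surjective yb
  obtain ⟨c, hc, hcy⟩ := h y (Ideal.mem_comap.mpr hyb)
  refine ⟨Ideal.Quotient.mk _ c, fun hc' => hc (Ideal.mem_comap.mpr hc'), ?_⟩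
  obtain ⟨a, ha, b, hb, hab⟩ := Submodule.mem_sup.mp hcy
  obtain ⟨d, rfl⟩ := Ideal.mem_span_singleton'.mp hb
  rw [← map_mul, ← hab, map_add, Ideal.Quotient.eq_zero_iff_mem.mpr ha, zero_add, map_mul]
  exact Ideal.mem_span_singleton'.mpr ⟨_, rfl⟩

/-- **Local-to-global: `B / p` is integrally closed** if every maximal ideal `M ⊇ p` of the
noetherian ring `B` is `p + (θ)` locally at `M`. -/
theorem isIntegrallyClosed_quotient_of_forall_maximal {B : Type*} [CommRing B]
    [IsNoetherianRing B] (p : Ideal B) [p.IsPrime]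
    (hreg : ∀ M : Ideal B, M.IsMaximal → p ≤ M →
      ∃ θ ∈ M, ∀ y ∈ M, ∃ c, c ∉ M ∧ c * y ∈ p ⊔ Ideal.span {θ}) :
    IsIntegrallyClosed (B ⧸ p) := by
  refine (isIntegrallyClosed_iff (FractionRing (B ⧸ p))).mpr fun {z} hz => ?_
  apply exists_algebraMap_eq_of_forall_maximal
  intro Mb hMb
  have hM : (Mb.comap (Ideal.Quotient.mk p)).IsMaximal :=
    Ideal.comap_isMaximal_of_surjective _ Ideal.Quotient.mk_surjective
  have hpM : p ≤ Mb.comap (Ideal.Quotient.mk p) := by
    intro x hx
    rw [Ideal.mem_comap, Ideal.Quotient.eq_zero_iff_mem.mpr hx]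
    exact Mb.zero_mem
  exact exists_not_mem_mul_eq_quotient p Mb hMb (hreg _ hM hpM) z hz

/-- **Local-to-global: `I` is radical** if every maximal ideal `M ⊇ I` is `I` locally at `M`. -/
theorem isRadical_of_forall_maximal {B : Type*} [CommRing B] (I : Ideal B)
    (h : ∀ M : Ideal B, M.IsMaximal → I ≤ M → ∀ y ∈ M, ∃ c, c ∉ M ∧ c * y ∈ I) :
    I.IsRadical := by
  rintro x ⟨n, hxn⟩
  apply mem_of_forall_maximal
  intro M hM
  by_cases hIM : I ≤ M
  · exact h M hM hIM x (hM.isPrime.mem_of_pow_mem n (hIM hxn))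
  · obtain ⟨c, hcI, hcM⟩ := SetLike.not_le_iff_exists.mp hIM
    exact ⟨c, hcM, I.mul_mem_right x hcI⟩

/-- **The quotient by a contracted prime is integrally closed, from two charts.**  `S = B[1/t] =
B₀[1/s]`, `P` a prime of `S`.  If `B₀ / (P ∩ B₀)` is integrally closed and, at every maximal ideal
`M ⊇ P ∩ B` of `B` containing `t`, `M = (P ∩ B) + (θ)` locally, then `B / (P ∩ B)` is integrally
closed. -/
theorem isIntegrallyClosed_quotient_of_two_charts {B B₀ S : Type*} [CommRing B]
    [IsNoetherianRing B] [CommRing B₀] [CommRing S]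
    (i : B →+* S) (i₀ : B₀ →+* S) (t : B) (s : B₀) (hts : i t * i₀ s = 1)
    (hS : ∀ x : S, ∃ (n : ℕ) (r : B), i t ^ n * x = i r)
    (hS₀ : ∀ x : S, ∃ (n : ℕ) (r : B₀), i₀ s ^ n * x = i₀ r)
    (P : Ideal S) [P.IsPrime] [IsIntegrallyClosed (B₀ ⧸ P.comap i₀)]
    (hreg : ∀ M : Ideal B, M.IsMaximal → t ∈ M → P.comap i ≤ M →
      ∃ θ ∈ M, ∀ y ∈ M, ∃ c, c ∉ M ∧ c * y ∈ P.comap i ⊔ Ideal.span {θ}) :
    IsIntegrallyClosed (B ⧸ P.comap i) := by
  classical
  let j : (B ⧸ P.comap i) →+* (S ⧸ P) := Ideal.quotientMap P i (le_refl (P.comap i))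
  let j₀ : (B₀ ⧸ P.comap i₀) →+* (S ⧸ P) := Ideal.quotientMap P i₀ (le_refl (P.comap i₀))
  have hj : Function.Injective j := Ideal.quotientMap_injective
  have hj₀ : Function.Injective j₀ := Ideal.quotientMap_injective
  have hts' : j (Ideal.Quotient.mk _ t) * j₀ (Ideal.Quotient.mk _ s) = 1 := by
    show Ideal.quotientMap P i _ (Ideal.Quotient.mk _ t) *
      Ideal.quotientMap P i₀ _ (Ideal.Quotient.mk _ s) = 1
    rw [Ideal.quotientMap_mk, Ideal.quotientMap_mk, ← map_mul, hts, map_one]
  have hS' : ∀ x : S ⧸ P, ∃ (n : ℕ) (r : B ⧸ P.comap i),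
      j (Ideal.Quotient.mk _ t) ^ n * x = j r := by
    intro x
    obtain ⟨x, rfl⟩ := Ideal.Quotient.mk_surjective x
    obtain ⟨n, r, hr⟩ := hS x
    refine ⟨n, Ideal.Quotient.mk _ r, ?_⟩
    show Ideal.quotientMap P i _ (Ideal.Quotient.mk _ t) ^ n * Ideal.Quotient.mk P x =
      Ideal.quotientMap P i _ (Ideal.Quotient.mk _ r)
    rw [Ideal.quotientMap_mk, Ideal.quotientMap_mk, ← map_pow, ← map_mul, hr]
  have hS₀' : ∀ x : S ⧸ P, ∃ (n : ℕ) (r : B₀ ⧸ P.comap i₀),
      j₀ (Ideal.Quotient.mk _ s) ^ n * x = j₀ r := by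
    intro x
    obtain ⟨x, rfl⟩ := Ideal.Quotient.mk_surjective x
    obtain ⟨n, r, hr⟩ := hS₀ x
    refine ⟨n, Ideal.Quotient.mk _ r, ?_⟩
    show Ideal.quotientMap P i₀ _ (Ideal.Quotient.mk _ s) ^ n * Ideal.Quotient.mk P x =
      Ideal.quotientMap P i₀ _ (Ideal.Quotient.mk _ r)
    rw [Ideal.quotientMap_mk, Ideal.quotientMap_mk, ← map_pow, ← map_mul, hr]
  refine isIntegrallyClosed_of_two_charts j j₀ hj hj₀ (Ideal.Quotient.mk _ t)
    (Ideal.Quotient.mk _ s) hts' hS' hS₀' ?_
  intro Mb hMb htMb z hz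
  have hM : (Mb.comap (Ideal.Quotient.mk (P.comap i))).IsMaximal :=
    Ideal.comap_isMaximal_of_surjective _ Ideal.Quotient.mk_surjective
  have htM : t ∈ Mb.comap (Ideal.Quotient.mk (P.comap i)) := Ideal.mem_comap.mpr htMb
  have hpM : P.comap i ≤ Mb.comap (Ideal.Quotient.mk (P.comap i)) := by
    intro x hx
    rw [Ideal.mem_comap, Ideal.Quotient.eq_zero_iff_mem.mpr hx]
    exact Mb.zero_mem
  exact exists_not_mem_mul_eq_quotient (P.comap i) Mb hMb (hreg _ hM htM hpM) z hz

/-- **The sum of two contracted ideals is radical, from two charts.** -/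
theorem isRadical_sup_of_two_charts {B B₀ S : Type*} [CommRing B] [CommRing B₀] [CommRing S]
    (i : B →+* S) (i₀ : B₀ →+* S) (hi : Function.Injective i) (hi₀ : Function.Injective i₀)
    (t : B) (s : B₀) (hts : i t * i₀ s = 1)
    (hS : ∀ x : S, ∃ (n : ℕ) (r : B), i t ^ n * x = i r)
    (hS₀ : ∀ x : S, ∃ (n : ℕ) (r : B₀), i₀ s ^ n * x = i₀ r)
    (P₁ P₂ : Ideal S) (hrad : (P₁.comap i₀ ⊔ P₂.comap i₀).IsRadical)
    (hsep : ∀ M : Ideal B, M.IsMaximal → t ∈ M → P₁.comap i ≤ M → P₂.comap i ≤ M → False) :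
    (P₁.comap i ⊔ P₂.comap i).IsRadical := by
  have hts₀ : i₀ s * i t = 1 := by rw [mul_comm]; exact hts
  refine isRadical_of_two_charts i i₀ hi hi₀ t s hts hS hS₀ _ _ hrad ?_ ?_
  · rw [Ideal.map_sup, Ideal.map_sup, map_comap_of_two_charts i i₀ t s hts hS P₁,
      map_comap_of_two_charts i i₀ t s hts hS P₂, map_comap_of_two_charts i₀ i s t hts₀ hS₀ P₁,
      map_comap_of_two_charts i₀ i s t hts₀ hS₀ P₂]
  · intro M hM htM hle
    exact hsep M hM htM (le_sup_left.trans hle) (le_sup_right.trans hle)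

end Abstract

section Charts

variable {O L : Type*} [CommRing O] [Field L] [Algebra O L]

/-- The element `u` of the chart `u`. -/
noncomputable def uZero (u : L) : Chart O u :=
  ⟨u, CechP1.isIntegral_adjoin_of_mem (Algebra.subset_adjoin (Set.mem_singleton _))⟩

@[simp]
theorem coe_uZero (u : L) : ((uZero (O := O) u : Chart O u) : L) = u := rfl

theorem inclHom_injective {S T : Subalgebra O L} (h : S ≤ T) : Function.Injective (inclHom h) :=
  fun _ _ hab => Subtype.ext (congrArg (fun z : integralClosure T L => (z : L)) hab)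

theorem toOverlapInf_injective (u : L) : Function.Injective (toOverlapInf O u) :=
  inclHom_injective _

theorem toOverlapZero_injective (u : L) : Function.Injective (toOverlapZero O u) :=
  inclHom_injective _

theorem inf_mul_zero (u : L) (hu : u ≠ 0) :
    toOverlapInf O u (ChartInf.tInf u) * toOverlapZero O u (uZero u) = 1 :=
  Subtype.ext (inv_mul_cancel₀ hu)

theorem isUnit_toOverlapInf_tInf (u : L) (hu : u ≠ 0) :
    IsUnit (toOverlapInf O u (ChartInf.tInf u)) :=
  IsUnit.of_mul_eq_one _ (inf_mul_zero u hu)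

/-- The overlap is the localisation of the chart `u⁻¹` at `u⁻¹`. -/
theorem exists_pow_mul_inf (u : L) (hu : u ≠ 0) (x : Overlap O u) :
    ∃ (n : ℕ) (r : Chart O u⁻¹),
      toOverlapInf O u (ChartInf.tInf u) ^ n * x = toOverlapInf O u r :=
  exists_pow_mul_inclHom u hu (ChartInf.tInf u) rfl (adjoin_inv_le_overlap O u) x

/-- The overlap is the localisation of the chart `u` at `u`. -/
theorem exists_pow_mul_zero (u : L) (hu : u ≠ 0) (x : Overlap O u) :
    ∃ (n : ℕ) (r : Chart O u), toOverlapZero O u (uZero u) ^ n * x = toOverlapZero O u r := by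
  obtain ⟨n, hn⟩ := CechP1.exists_pow_mul_isIntegral u hu (x : L) x.2
  exact ⟨n, ⟨u ^ n * x, hn⟩, Subtype.ext rfl⟩

end Charts

section Main

variable {O E L : Type*} [CommRing O] [IsDomain O] [IsDiscreteValuationRing O]
  [Field E] [CharZero E] [Algebra O E] [IsFractionRing O E]
  [Field L] [Algebra E L] [Algebra O L] [IsScalarTower O E L]

omit [IsDomain O] [IsDiscreteValuationRing O] [CharZero E] [IsFractionRing O E] in
theorem transcendental_inv (u : L) (hu : Transcendental E u) : Transcendental E u⁻¹ :=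
  fun h => hu (by simpa using h.inv)

omit [IsDomain O] [IsDiscreteValuationRing O] [CharZero E] [IsFractionRing O E] in
theorem ne_zero_of_transcendental (u : L) (hu : Transcendental E u) : u ≠ 0 :=
  fun h => hu (h ▸ isAlgebraic_zero)

omit [CharZero E] in
/-- `p₁ ∩ p₂ = (π)` transfers from the chart `u` to the chart `u⁻¹`. -/
theorem inf_eq_inf (π : O) (hπ : Irreducible π) (u : L) (hu : Transcendental E u)
    (P₁ P₂ : Ideal (Overlap O u))
    (h : P₁.comap (toOverlapZero O u) ⊓ P₂.comap (toOverlapZero O u) =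
      Ideal.span {piElt (Algebra.adjoin O ({u} : Set L)) π}) :
    P₁.comap (toOverlapInf O u) ⊓ P₂.comap (toOverlapInf O u) =
      Ideal.span {piElt (Algebra.adjoin O ({u⁻¹} : Set L)) π} := by
  have hu0 : u ≠ 0 := ne_zero_of_transcendental (E := E) u hu
  have hu' : Transcendental E u⁻¹ := transcendental_inv u hu
  have hπL : algebraMap O L π ≠ 0 := fun h0 =>
    hπ.ne_zero (ChartProv.algebraMap_injective_base O E L (h0.trans (map_zero _).symm))
  have e1 : toOverlapInf O u (piElt (Algebra.adjoin O ({u⁻¹} : Set L)) π) =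
      toOverlapZero O u (piElt (Algebra.adjoin O ({u} : Set L)) π) := by
    apply Subtype.ext
    rw [coe_inclHom, coe_inclHom, coe_piElt, coe_piElt]
  have hmem : piElt (Algebra.adjoin O ({u} : Set L)) π ∈
      P₁.comap (toOverlapZero O u) ⊓ P₂.comap (toOverlapZero O u) := by
    rw [h]; exact Ideal.mem_span_singleton_self _
  apply le_antisymm
  · intro y hy
    rw [Ideal.mem_span_singleton]
    rw [Ideal.mem_inf] at hy
    have hy1 : toOverlapInf O u y ∈ P₁ := Ideal.mem_comap.mp hy.1
    have hy2 : toOverlapInf O u y ∈ P₂ := Ideal.mem_comap.mp hy.2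
    apply piElt_dvd_of_dvd_inclHom π hπL u hu0 (adjoin_inv_le_overlap O u)
      (fun x hx h => ChartProv.chart_nzd (E := E) π hπ u⁻¹ hu' x hx h) y
    obtain ⟨n, r, hr⟩ := exists_pow_mul_zero u hu0 (toOverlapInf O u y)
    have hr' : r ∈ P₁.comap (toOverlapZero O u) ⊓ P₂.comap (toOverlapZero O u) := by
      rw [Ideal.mem_inf]
      exact ⟨Ideal.mem_comap.mpr (hr ▸ P₁.mul_mem_left _ hy1),
        Ideal.mem_comap.mpr (hr ▸ P₂.mul_mem_left _ hy2)⟩
    rw [h, Ideal.mem_span_singleton] at hr'
    obtain ⟨w, hw⟩ := hr'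
    rw [hw] at hr
    refine ⟨toOverlapInf O u (ChartInf.tInf u) ^ n * toOverlapZero O u w, ?_⟩
    calc toOverlapInf O u y
        = (toOverlapInf O u (ChartInf.tInf u) * toOverlapZero O u (uZero u)) ^ n *
            toOverlapInf O u y := by rw [inf_mul_zero u hu0, one_pow, one_mul]
      _ = toOverlapInf O u (ChartInf.tInf u) ^ n *
            (toOverlapZero O u (uZero u) ^ n * toOverlapInf O u y) := by ring
      _ = toOverlapInf O u (ChartInf.tInf u) ^ n *
            toOverlapZero O u (piElt (Algebra.adjoin O ({u} : Set L)) π * w) := by rw [hr]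
      _ = _ := by rw [map_mul, e1]; ring
  · rw [Ideal.span_le, Set.singleton_subset_iff, SetLike.mem_coe, Ideal.mem_inf]
    rw [Ideal.mem_inf] at hmem
    have h1 : toOverlapInf O u (piElt (Algebra.adjoin O ({u⁻¹} : Set L)) π) ∈ P₁ := by
      rw [e1]; exact Ideal.mem_comap.mp hmem.1
    have h2 : toOverlapInf O u (piElt (Algebra.adjoin O ({u⁻¹} : Set L)) π) ∈ P₂ := by
      rw [e1]; exact Ideal.mem_comap.mp hmem.2
    exact ⟨Ideal.mem_comap.mpr h1, Ideal.mem_comap.mpr h2⟩

omit [CharZero E] in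
/-- `B / p` has dimension `≤ 1` for a prime `p ∋ π` of the chart ring `B` of `t`. -/
theorem dimensionLEOne_quotient (π : O) (hπ : Irreducible π) (t : L) (ht : Transcendental E t)
    (p : Ideal (Chart O t)) [hp : p.IsPrime]
    (hπp : piElt (Algebra.adjoin O ({t} : Set L)) π ∈ p) :
    Ring.DimensionLEOne (Chart O t ⧸ p) := by
  have htO : Transcendental O t := ChartProv.transcendental_base t ht
  have hmax : (Ideal.span {π}).IsMaximal := by
    rw [← (IsDiscreteValuationRing.irreducible_iff_uniformizer π).mp hπ]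
    exact IsLocalRing.maximalIdeal.isMaximal O
  have hPIR := ChartInst.isPrincipalIdealRing_quotient_adjoin O t htO π
  let q : Ideal (Algebra.adjoin O ({t} : Set L)) :=
    p.comap (algebraMap (Algebra.adjoin O ({t} : Set L)) (Chart O t))
  have hq : q.IsPrime := Ideal.comap_isPrime _ _
  have hle : Ideal.span {algebraMap O (Algebra.adjoin O ({t} : Set L)) π} ≤ q := by
    rw [Ideal.span_le, Set.singleton_subset_iff, SetLike.mem_coe]
    exact Ideal.mem_comap.mpr hπp
  have hPIR' : IsPrincipalIdealRing (Algebra.adjoin O ({t} : Set L) ⧸ q) :=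
    IsPrincipalIdealRing.of_surjective (Ideal.Quotient.factor hle)
      (Ideal.Quotient.factor_surjective hle)
  have hdim : Ring.DimensionLEOne (Algebra.adjoin O ({t} : Set L) ⧸ q) :=
    Ring.DimensionLEOne.principal_ideal_ring _
  exact dimensionLEOne_of_isIntegral (Algebra.adjoin O ({t} : Set L) ⧸ q) (Chart O t ⧸ p)

/-- The chart ring is noetherian. -/
theorem isNoetherianRing_chart (t : L) (ht : Transcendental E t)
    [FiniteDimensional (IntermediateField.adjoin E {t}) L] : IsNoetherianRing (Chart O t) := by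
  have hfin := ChartProv.chart_finite (O := O) (E := E) t ht
  have hNA : IsNoetherianRing (Algebra.adjoin O ({t} : Set L)) :=
    GlueChart.isNoetherianRing_adjoin_singleton t
  exact IsNoetherianRing.of_finite (Algebra.adjoin O ({t} : Set L)) (Chart O t)

omit [IsDomain O] [IsDiscreteValuationRing O] [CharZero E] [IsFractionRing O E] in
theorem finiteDimensional_inv (u : L) [FiniteDimensional (IntermediateField.adjoin E {u}) L] :
    FiniteDimensional (IntermediateField.adjoin E {u⁻¹}) L := by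
  have hK : IntermediateField.adjoin E {u⁻¹} = IntermediateField.adjoin E {u} := by
    apply le_antisymm
    · rw [IntermediateField.adjoin_simple_le_iff]
      exact inv_mem (IntermediateField.mem_adjoin_simple_self E u)
    · rw [IntermediateField.adjoin_simple_le_iff]
      have := inv_mem (IntermediateField.mem_adjoin_simple_self E u⁻¹)
      simpa using this
  rw [hK]; infer_instance

/-- **Local-to-global on one chart: `B / p` is a Dedekind domain** for a prime `p ∋ π` of the
chart ring `B` of `t` such that every maximal ideal `M ⊇ p` is `p + (θ)` locally at `M`. -/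
theorem isDedekindDomain_quotient_chart (π : O) (hπ : Irreducible π) (t : L)
    (ht : Transcendental E t) [FiniteDimensional (IntermediateField.adjoin E {t}) L]
    (p : Ideal (Chart O t)) [hp : p.IsPrime]
    (hπp : piElt (Algebra.adjoin O ({t} : Set L)) π ∈ p)
    (hreg : ∀ M : Ideal (Chart O t), M.IsMaximal → p ≤ M →
      ∃ θ ∈ M, ∀ y ∈ M, ∃ c, c ∉ M ∧ c * y ∈ p ⊔ Ideal.span {θ}) :
    IsDedekindDomain (Chart O t ⧸ p) := by
  have hN : IsNoetherianRing (Chart O t) := isNoetherianRing_chart (E := E) t ht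
  have hdim : Ring.DimensionLEOne (Chart O t ⧸ p) :=
    dimensionLEOne_quotient (E := E) π hπ t ht p hπp
  have hic : IsIntegrallyClosed (Chart O t ⧸ p) :=
    isIntegrallyClosed_quotient_of_forall_maximal p hreg
  exact { toIsNoetherian := inferInstance
          toDimensionLEOne := hdim
          toIsIntegralClosure := hic }

/-- **The component `B_∞ / p` of the chart at infinity is a Dedekind domain**, if the component
`B₀ / p` of the chart `u` is one and `p` is locally principal modulo `p` at the points over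
`u = ∞`. -/
theorem isDedekindDomain_quotient_inf (π : O) (hπ : Irreducible π) (u : L)
    (hu : Transcendental E u) [FiniteDimensional (IntermediateField.adjoin E {u}) L]
    (P : Ideal (Overlap O u)) [hP : P.IsPrime]
    (hπP : piElt (Algebra.adjoin O ({u⁻¹} : Set L)) π ∈ P.comap (toOverlapInf O u))
    (hD : IsDedekindDomain (Chart O u ⧸ P.comap (toOverlapZero O u)))
    (hreg : ∀ M : Ideal (Chart O u⁻¹), M.IsMaximal → ChartInf.tInf u ∈ M →
      P.comap (toOverlapInf O u) ≤ M →
      ∃ θ ∈ M, ∀ y ∈ M, ∃ c, c ∉ M ∧ c * y ∈ P.comap (toOverlapInf O u) ⊔ Ideal.span {θ}) :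
    IsDedekindDomain (Chart O u⁻¹ ⧸ P.comap (toOverlapInf O u)) := by
  have hu0 : u ≠ 0 := ne_zero_of_transcendental (E := E) u hu
  have hu' : Transcendental E u⁻¹ := transcendental_inv u hu
  have := finiteDimensional_inv (E := E) u
  have hN : IsNoetherianRing (Chart O u⁻¹) := isNoetherianRing_chart (E := E) u⁻¹ hu'
  have hp : (P.comap (toOverlapInf O u)).IsPrime := Ideal.comap_isPrime _ _
  have hdim : Ring.DimensionLEOne (Chart O u⁻¹ ⧸ P.comap (toOverlapInf O u)) :=
    dimensionLEOne_quotient (E := E) π hπ u⁻¹ hu' _ hπP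
  have hIC₀ : IsIntegrallyClosed (Chart O u ⧸ P.comap (toOverlapZero O u)) := inferInstance
  have hic : IsIntegrallyClosed (Chart O u⁻¹ ⧸ P.comap (toOverlapInf O u)) :=
    isIntegrallyClosed_quotient_of_two_charts (toOverlapInf O u) (toOverlapZero O u)
      (ChartInf.tInf u) (uZero u) (inf_mul_zero u hu0) (exists_pow_mul_inf u hu0)
      (exists_pow_mul_zero u hu0) P hreg
  exact { toIsNoetherian := inferInstance
          toDimensionLEOne := hdim
          toIsIntegralClosure := hic }

/-- **The chart at infinity of a nodal datum.**  `IsNodalChart` on the chart `u⁻¹` follows from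
`IsNodalChart` on the chart `u` and pointwise conditions at the maximal ideals `M` of the chart
ring of `u⁻¹` containing `u⁻¹` (the points over `u = ∞`): not both components pass through `M`
(`hsep`), and a component passing through `M` is regular there (`hregᵢ`: `M = pᵢ + (θ)` locally
at `M`). -/
theorem isNodalChart_inf (π : O) (hπ : Irreducible π) (u : L) (hu : Transcendental E u)
    [FiniteDimensional (IntermediateField.adjoin E {u}) L]
    (P₁ P₂ : Ideal (Overlap O u)) [P₁.IsPrime] [P₂.IsPrime]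
    (h0 : IsNodalChart π u (P₁.comap (toOverlapZero O u)) (P₂.comap (toOverlapZero O u)))
    (hsep : ∀ M : Ideal (Chart O u⁻¹), M.IsMaximal → ChartInf.tInf u ∈ M →
      P₁.comap (toOverlapInf O u) ≤ M → P₂.comap (toOverlapInf O u) ≤ M → False)
    (hreg₁ : ∀ M : Ideal (Chart O u⁻¹), M.IsMaximal → ChartInf.tInf u ∈ M →
      P₁.comap (toOverlapInf O u) ≤ M →
      ∃ θ ∈ M, ∀ y ∈ M, ∃ c, c ∉ M ∧ c * y ∈ P₁.comap (toOverlapInf O u) ⊔ Ideal.span {θ})
    (hreg₂ : ∀ M : Ideal (Chart O u⁻¹), M.IsMaximal → ChartInf.tInf u ∈ M →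
      P₂.comap (toOverlapInf O u) ≤ M →
      ∃ θ ∈ M, ∀ y ∈ M, ∃ c, c ∉ M ∧ c * y ∈ P₂.comap (toOverlapInf O u) ⊔ Ideal.span {θ}) :
    IsNodalChart π u⁻¹ (P₁.comap (toOverlapInf O u)) (P₂.comap (toOverlapInf O u)) := by
  have hu0 : u ≠ 0 := ne_zero_of_transcendental (E := E) u hu
  have hinf := inf_eq_inf (E := E) π hπ u hu P₁ P₂ h0.inf_eq
  have hπmem : piElt (Algebra.adjoin O ({u⁻¹} : Set L)) π ∈
      P₁.comap (toOverlapInf O u) ⊓ P₂.comap (toOverlapInf O u) := by
    rw [hinf]; exact Ideal.mem_span_singleton_self _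
  rw [Ideal.mem_inf] at hπmem
  have hnle₁₂ : ¬ P₁.comap (toOverlapInf O u) ≤ P₂.comap (toOverlapInf O u) :=
    not_comap_le_of_two_charts (toOverlapInf O u) (toOverlapZero O u) (ChartInf.tInf u)
      (uZero u) (inf_mul_zero u hu0) (exists_pow_mul_inf u hu0) P₁ P₂ h0.not_le₁₂
  have hnle₂₁ : ¬ P₂.comap (toOverlapInf O u) ≤ P₁.comap (toOverlapInf O u) :=
    not_comap_le_of_two_charts (toOverlapInf O u) (toOverlapZero O u) (ChartInf.tInf u)
      (uZero u) (inf_mul_zero u hu0) (exists_pow_mul_inf u hu0) P₂ P₁ h0.not_le₂₁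
  exact
    { isPrime₁ := Ideal.comap_isPrime _ _
      isPrime₂ := Ideal.comap_isPrime _ _
      ne := fun h => hnle₁₂ (le_of_eq h)
      not_le₁₂ := hnle₁₂
      not_le₂₁ := hnle₂₁
      inf_eq := hinf
      dedekind₁ := isDedekindDomain_quotient_inf (E := E) π hπ u hu P₁ hπmem.1 h0.dedekind₁ hreg₁
      dedekind₂ := isDedekindDomain_quotient_inf (E := E) π hπ u hu P₂ hπmem.2 h0.dedekind₂ hreg₂
      radical := isRadical_sup_of_two_charts (toOverlapInf O u) (toOverlapZero O u)
        (toOverlapInf_injective u) (toOverlapZero_injective u) (ChartInf.tInf u) (uZero u)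
        (inf_mul_zero u hu0) (exists_pow_mul_inf u hu0) (exists_pow_mul_zero u hu0) P₁ P₂
        h0.radical hsep }

/-- **The nodal datum from the chart `u` and the points over `u = ∞`.** -/
noncomputable def nodalDatum (π : O) (hπ : Irreducible π) (u : L) (hu : Transcendental E u)
    [FiniteDimensional (IntermediateField.adjoin E {u}) L]
    (P₁ P₂ : Ideal (Overlap O u)) [h₁ : P₁.IsPrime] [h₂ : P₂.IsPrime]
    (h0 : IsNodalChart π u (P₁.comap (toOverlapZero O u)) (P₂.comap (toOverlapZero O u)))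
    (hsep : ∀ M : Ideal (Chart O u⁻¹), M.IsMaximal → ChartInf.tInf u ∈ M →
      P₁.comap (toOverlapInf O u) ≤ M → P₂.comap (toOverlapInf O u) ≤ M → False)
    (hreg₁ : ∀ M : Ideal (Chart O u⁻¹), M.IsMaximal → ChartInf.tInf u ∈ M →
      P₁.comap (toOverlapInf O u) ≤ M →
      ∃ θ ∈ M, ∀ y ∈ M, ∃ c, c ∉ M ∧ c * y ∈ P₁.comap (toOverlapInf O u) ⊔ Ideal.span {θ})
    (hreg₂ : ∀ M : Ideal (Chart O u⁻¹), M.IsMaximal → ChartInf.tInf u ∈ M →
      P₂.comap (toOverlapInf O u) ≤ M →
      ∃ θ ∈ M, ∀ y ∈ M, ∃ c, c ∉ M ∧ c * y ∈ P₂.comap (toOverlapInf O u) ⊔ Ideal.span {θ}) :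
    NodalDatum π u where
  P₁ := P₁
  P₂ := P₂
  isPrime₁ := h₁
  isPrime₂ := h₂
  chartZero := h0
  chartInf := isNodalChart_inf π hπ u hu P₁ P₂ h0 hsep hreg₁ hreg₂

end Main

end Fermat.Agent.S34.Nodal.InfGlue
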