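import Fermat.Agent.S34.Nodal.Defs
import Fermat.Agent.S30.Model.ChartInf

/-!
# PROGRAM U: transfers between the overlap chart and the two charts

* `CongrOneAtChart p h` : `h ≡ 1` at the prime `p` of a chart ring.
* `congrOneAtChart_zero`, `congrOneAtChart_inf` : `h ≡ 1` at a prime `P` of the overlap chart
  implies `h ≡ 1` at the contraction of `P` to the chart of `u`, resp. of `u⁻¹`.
* `NodalDatum.toric_zero`, `NodalDatum.toric_inf` : a toric `h` is `≡ 1` at both primes of each
  chart.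
* `transcendental_inv`, `adjoin_inv_eq`, `finiteDimensional_adjoin_inv` : the chart `u⁻¹`
  satisfies the standing hypotheses of the chart `u`.
-/

set_option autoImplicit false

open Fermat.Agent.S30.Model Fermat.Agent.S30.Model.GlueChart

namespace Fermat.Agent.S34.Nodal

/-- `h ≡ 1` at the prime `p` of the chart ring of `t`: `h = (b + a) / b`, `a ∈ p`, `b ∉ p`. -/
def CongrOneAtChart {O L : Type*} [CommRing O] [Field L] [Algebra O L] {t : L}
    (p : Ideal (Chart O t)) (h : L) : Prop :=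
  ∃ a b : Chart O t, a ∈ p ∧ b ∉ p ∧ h * (b : L) = (b : L) + (a : L)

section Transfer

variable {O L : Type*} [CommRing O] [Field L] [Algebra O L]

/-- The element `u` of the overlap chart. -/
noncomputable def uOverlap (u : L) : Overlap O u :=
  ⟨u, CechP1.isIntegral_adjoin_of_mem (Algebra.subset_adjoin (by simp))⟩

/-- The element `u⁻¹` of the overlap chart. -/
noncomputable def uInvOverlap (u : L) : Overlap O u :=
  ⟨u⁻¹, CechP1.isIntegral_adjoin_of_mem (Algebra.subset_adjoin (by simp))⟩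

theorem uOverlap_mul_uInvOverlap {u : L} (hu : u ≠ 0) :
    uOverlap (O := O) u * uInvOverlap (O := O) u = 1 :=
  Subtype.ext (mul_inv_cancel₀ hu)

theorem uOverlap_pow_not_mem {u : L} (hu : u ≠ 0) (P : Ideal (Overlap O u)) [hP : P.IsPrime]
    (n : ℕ) : uOverlap (O := O) u ^ n ∉ P := by
  intro h
  have h1 : uOverlap (O := O) u ∈ P := hP.mem_of_pow_mem n h
  have h2 : (1 : Overlap O u) ∈ P := by
    rw [← uOverlap_mul_uInvOverlap (O := O) hu]
    exact P.mul_mem_right _ h1
  exact hP.ne_top ((Ideal.eq_top_iff_one P).mpr h2)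

theorem uInvOverlap_pow_not_mem {u : L} (hu : u ≠ 0) (P : Ideal (Overlap O u)) [hP : P.IsPrime]
    (n : ℕ) : uInvOverlap (O := O) u ^ n ∉ P := by
  intro h
  have h1 : uInvOverlap (O := O) u ∈ P := hP.mem_of_pow_mem n h
  have h2 : (1 : Overlap O u) ∈ P := by
    rw [← uOverlap_mul_uInvOverlap (O := O) hu]
    exact P.mul_mem_left _ h1
  exact hP.ne_top ((Ideal.eq_top_iff_one P).mpr h2)

/-- `h ≡ 1` at `P` (overlap) ⟹ `h ≡ 1` at the contraction of `P` to the chart of `u`. -/
theorem congrOneAtChart_zero {u : L} (hu : u ≠ 0) (P : Ideal (Overlap O u)) [hP : P.IsPrime]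
    {h : L} (hc : CongrOneAt P h) : CongrOneAtChart (P.comap (toOverlapZero O u)) h := by
  obtain ⟨a, b, ha, hb, hab⟩ := hc
  obtain ⟨m₁, hm₁⟩ := ChartInf.exists_forall_ge_isIntegral (O := O) u hu (a : L) a.2
  obtain ⟨m₂, hm₂⟩ := ChartInf.exists_forall_ge_isIntegral (O := O) u hu (b : L) b.2
  set n := max m₁ m₂ with hn
  refine ⟨⟨u ^ n * (a : L), hm₁ n (le_max_left _ _)⟩, ⟨u ^ n * (b : L), hm₂ n (le_max_right _ _)⟩,
    ?_, ?_, ?_⟩
  · rw [Ideal.mem_comap]
    have e : toOverlapZero O u ⟨u ^ n * (a : L), hm₁ n (le_max_left _ _)⟩ =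
        uOverlap (O := O) u ^ n * a := Subtype.ext rfl
    rw [e]
    exact P.mul_mem_left _ ha
  · rw [Ideal.mem_comap]
    have e : toOverlapZero O u ⟨u ^ n * (b : L), hm₂ n (le_max_right _ _)⟩ =
        uOverlap (O := O) u ^ n * b := Subtype.ext rfl
    rw [e]
    intro hmem
    rcases hP.mem_or_mem hmem with h1 | h1
    · exact uOverlap_pow_not_mem hu P n h1
    · exact hb h1
  · change h * (u ^ n * (b : L)) = u ^ n * (b : L) + u ^ n * (a : L)
    rw [← mul_add, ← hab]
    ring

/-- `h ≡ 1` at `P` (overlap) ⟹ `h ≡ 1` at the contraction of `P` to the chart of `u⁻¹`. -/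
theorem congrOneAtChart_inf {u : L} (hu : u ≠ 0) (P : Ideal (Overlap O u)) [hP : P.IsPrime]
    {h : L} (hc : CongrOneAt P h) : CongrOneAtChart (P.comap (toOverlapInf O u)) h := by
  obtain ⟨a, b, ha, hb, hab⟩ := hc
  obtain ⟨m₁, hm₁⟩ := ChartInf.exists_forall_ge_isIntegral_inv (O := O) u hu (a : L) a.2
  obtain ⟨m₂, hm₂⟩ := ChartInf.exists_forall_ge_isIntegral_inv (O := O) u hu (b : L) b.2
  set n := max m₁ m₂ with hn
  refine ⟨⟨u⁻¹ ^ n * (a : L), hm₁ n (le_max_left _ _)⟩,
    ⟨u⁻¹ ^ n * (b : L), hm₂ n (le_max_right _ _)⟩, ?_, ?_, ?_⟩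
  · rw [Ideal.mem_comap]
    have e : toOverlapInf O u ⟨u⁻¹ ^ n * (a : L), hm₁ n (le_max_left _ _)⟩ =
        uInvOverlap (O := O) u ^ n * a := Subtype.ext rfl
    rw [e]
    exact P.mul_mem_left _ ha
  · rw [Ideal.mem_comap]
    have e : toOverlapInf O u ⟨u⁻¹ ^ n * (b : L), hm₂ n (le_max_right _ _)⟩ =
        uInvOverlap (O := O) u ^ n * b := Subtype.ext rfl
    rw [e]
    intro hmem
    rcases hP.mem_or_mem hmem with h1 | h1
    · exact uInvOverlap_pow_not_mem hu P n h1
    · exact hb h1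
  · change h * (u⁻¹ ^ n * (b : L)) = u⁻¹ ^ n * (b : L) + u⁻¹ ^ n * (a : L)
    rw [← mul_add, ← hab]
    ring

/-- A toric element is `≡ 1` at both primes of the chart of `u`. -/
theorem NodalDatum.toric_zero {π : O} {u : L} (D : NodalDatum π u) (hu : u ≠ 0) {h : L}
    (hh : D.Toric h) :
    CongrOneAtChart (D.P₁.comap (toOverlapZero O u)) h ∧
      CongrOneAtChart (D.P₂.comap (toOverlapZero O u)) h :=
  ⟨@congrOneAtChart_zero _ _ _ _ _ _ hu D.P₁ D.isPrime₁ _ hh.1,
    @congrOneAtChart_zero _ _ _ _ _ _ hu D.P₂ D.isPrime₂ _ hh.2⟩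

/-- A toric element is `≡ 1` at both primes of the chart of `u⁻¹`. -/
theorem NodalDatum.toric_inf {π : O} {u : L} (D : NodalDatum π u) (hu : u ≠ 0) {h : L}
    (hh : D.Toric h) :
    CongrOneAtChart (D.P₁.comap (toOverlapInf O u)) h ∧
      CongrOneAtChart (D.P₂.comap (toOverlapInf O u)) h :=
  ⟨@congrOneAtChart_inf _ _ _ _ _ _ hu D.P₁ D.isPrime₁ _ hh.1,
    @congrOneAtChart_inf _ _ _ _ _ _ hu D.P₂ D.isPrime₂ _ hh.2⟩

/-- A toric element is nonzero. -/
theorem NodalDatum.Toric.ne_zero {π : O} {u : L} {D : NodalDatum π u} {h : L}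
    (hh : D.Toric h) : h ≠ 0 := by
  rintro rfl
  obtain ⟨a, b, ha, hb, hab⟩ := hh.1
  apply hb
  have : b = -a := Subtype.ext (by
    rw [zero_mul] at hab
    change (b : L) = -(a : L)
    linear_combination -hab)
  rw [this]
  exact D.P₁.neg_mem ha

end Transfer

section Inv

variable {E L : Type*} [Field E] [Field L] [Algebra E L]

theorem transcendental_inv {u : L} (hu : Transcendental E u) : Transcendental E u⁻¹ := by
  intro h
  apply hu
  have := h.inv
  rwa [inv_inv] at this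

theorem adjoin_inv_eq (u : L) :
    IntermediateField.adjoin E {u⁻¹} = IntermediateField.adjoin E {u} := by
  apply le_antisymm
  · rw [IntermediateField.adjoin_simple_le_iff]
    exact inv_mem (IntermediateField.mem_adjoin_simple_self E u)
  · rw [IntermediateField.adjoin_simple_le_iff]
    have := inv_mem (IntermediateField.mem_adjoin_simple_self E u⁻¹)
    rwa [inv_inv] at this

theorem finiteDimensional_adjoin_inv (u : L)
    [h : FiniteDimensional (IntermediateField.adjoin E {u}) L] :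
    FiniteDimensional (IntermediateField.adjoin E {u⁻¹}) L := by
  rw [adjoin_inv_eq]
  exact h

end Inv

end Fermat.Agent.S34.Nodal
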