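import Mathlib
import Fermat.Agent.S34.Nodal.Defs
import Fermat.Agent.S30.Model.ChartInf
import Fermat.Agent.S30.Model.ChartProv

/-!
# PROGRAM U, brick U.SSb.ChartTransfer: the chart at infinity of a nodal datum

`NodalDatum.chartInf` follows from `NodalDatum.chartZero` plus LOCAL conditions at the maximal
ideals of the chart `u⁻¹` lying over `u⁻¹ = 0` (the cusps); no global analysis of the chart at
infinity is needed.

* `isNodalChart_inf` (setting of `Model/Assembly`, `Nodal/Exit`): from `chartZero`,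
  `hsep` (no maximal ideal over `u⁻¹ = 0` contains both components) and `hreg₁`, `hreg₂`
  (at a maximal ideal `M` over `u⁻¹ = 0` on the `i`-th component, `M = pᵢ + (θ)` locally at `M`).
* `isNodalChart_inf_of_hloc` : the same with the hypotheses in the "`M B_M = (π, θ)`" shape.
* `isNodalChart_inf_of_nzd` : the ring-theoretic core, for any `O`, `L` (chart ring noetherian,
  `u⁻¹` a non-zero-divisor modulo `π` on the chart `u⁻¹`, `O ⧸ π` a field).
* `isNodalChart_inf_of_dedekind`, `isNodalChart_inf_of_dedekind_left` / `_right`,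
  `isDedekindDomain_inf` : fieldwise variants (a component at infinity already known to be
  Dedekind needs no condition `hregᵢ`).
* `hsep_of_exists` : `hsep` from a relation `a + b + c * u⁻¹ = 1`.
* `nodalDatum` : the resulting `NodalDatum`.

The abstract lemmas (`Dedekind`, `OneChart`, `TwoCharts` sections) only use Mathlib:
* `isDedekindDomain_of_local_generator` / `exists_local_generator` : a noetherian domain is
  Dedekind iff every nonzero prime `q` is locally principal in the elementwise form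
  `∃ θ ∈ q, ∀ y ∈ q, ∃ c ∉ q, ∃ z, c * y = z * θ`;
* `inf_eq_transfer`, `sup_isRadical_transfer`, `isDedekindDomain_transfer` : transfer of the three
  non-formal fields of `IsNodalChart` between two charts `B0`, `B1` of `B01 = B0[1/u] = B1[1/s]`,
  `u * s = 1`.
-/

set_option autoImplicit false

open Fermat.Agent.S30.Model Fermat.Agent.S30.Model.GlueChart

namespace Fermat.Agent.S34.Nodal.ChartTransfer

/-! ### The "locally principal" criterion for Dedekind domains -/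

section Dedekind

/-- In a Dedekind domain every nonzero prime is locally principal, elementwise. -/
theorem exists_local_generator {D : Type*} [CommRing D] [IsDedekindDomain D]
    (q : Ideal D) [hq : q.IsPrime] (hq0 : q ≠ ⊥) :
    ∃ θ ∈ q, ∀ y ∈ q, ∃ c, c ∉ q ∧ ∃ z, c * y = z * θ := by
  obtain ⟨θ, hθ1, hθ2⟩ := Ideal.exists_mem_pow_notMem_pow_succ q hq0 hq.ne_top 1
  rw [pow_one] at hθ1
  have hle : Ideal.span {θ} ≤ q := (Ideal.span_singleton_le_iff_mem _).2 hθ1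
  obtain ⟨a, ha⟩ := Ideal.dvd_iff_le.2 hle
  have hna : ¬ a ≤ q := by
    intro h
    apply hθ2
    have h1 : θ ∈ q * a := ha ▸ Ideal.mem_span_singleton_self θ
    have h2 : q * a ≤ q ^ (1 + 1) := by
      rw [pow_succ, pow_one]
      exact Ideal.mul_mono_right h
    exact h2 h1
  obtain ⟨c, hca, hcq⟩ := SetLike.not_le_iff_exists.1 hna
  refine ⟨θ, hθ1, fun y hy => ⟨c, hcq, ?_⟩⟩
  have h3 : y * c ∈ Ideal.span {θ} := ha ▸ Ideal.mul_mem_mul hy hca
  obtain ⟨z, hz⟩ := Ideal.mem_span_singleton'.1 h3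
  exact ⟨z, by rw [hz, mul_comm]⟩

/-- A noetherian domain all of whose nonzero primes are locally principal (elementwise) is a
Dedekind domain. -/
theorem isDedekindDomain_of_local_generator {D : Type*} [CommRing D] [IsDomain D]
    [IsNoetherianRing D]
    (h : ∀ q : Ideal D, q.IsPrime → q ≠ ⊥ →
      ∃ θ ∈ q, ∀ y ∈ q, ∃ c, c ∉ q ∧ ∃ z, c * y = z * θ) :
    IsDedekindDomain D := by
  have hD : IsDedekindDomainDvr D := by
    refine ⟨fun q hq0 hq => ?_⟩
    have := hq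
    obtain ⟨θ, hθ, hgen⟩ := h q hq hq0
    have hnf : ¬ IsField (Localization.AtPrime q) :=
      IsLocalization.AtPrime.not_isField D hq0 (Localization.AtPrime q)
    refine ((IsDiscreteValuationRing.TFAE (Localization.AtPrime q) hnf).out 0 4).2 ?_
    refine ⟨⟨algebraMap D (Localization.AtPrime q) θ, ?_⟩⟩
    apply le_antisymm
    · intro r hr
      obtain ⟨y, t, rfl⟩ := IsLocalization.exists_mk'_eq q.primeCompl r
      have hy : y ∈ q :=
        (IsLocalization.AtPrime.mk'_mem_maximal_iff (Localization.AtPrime q) q y t).1 hr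
      obtain ⟨c, hc, z, hz⟩ := hgen y hy
      rw [Ideal.submodule_span_eq, Ideal.mem_span_singleton']
      refine ⟨IsLocalization.mk' _ z ((⟨c, hc⟩ : q.primeCompl) * t), ?_⟩
      rw [mul_comm, IsLocalization.mul_mk'_eq_mk'_of_mul, IsLocalization.mk'_eq_iff_eq]
      refine congrArg _ ?_
      rw [Submonoid.coe_mul]
      change t.1 * (θ * z) = c * t.1 * y
      linear_combination (-(t.1 : D)) * hz
    · rw [Ideal.submodule_span_eq, Ideal.span_singleton_le_iff_mem]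
      exact (IsLocalization.AtPrime.to_map_mem_maximal_iff (Localization.AtPrime q) q θ).2 hθ
  exact IsDedekindDomainDvr.isDedekindDomain D

/-- If `B ⧸ p` is a Dedekind domain, every prime `Q ⊇ p` is principal modulo `p`, locally at
`Q` (elementwise). -/
theorem exists_generator_mod {B : Type*} [CommRing B] (p : Ideal B) [p.IsPrime]
    [IsDedekindDomain (B ⧸ p)] (Q : Ideal B) [hQ : Q.IsPrime] (hpQ : p ≤ Q) :
    ∃ θ ∈ Q, ∀ y ∈ Q, ∃ c, c ∉ Q ∧ c * y ∈ p ⊔ Ideal.span {θ} := by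
  by_cases hQp : Q ≤ p
  · refine ⟨0, Q.zero_mem, fun y hy =>
      ⟨1, fun h1 => hQ.ne_top ((Ideal.eq_top_iff_one Q).2 h1), ?_⟩⟩
    rw [one_mul]
    exact Ideal.mem_sup_left (hQp hy)
  · set q : Ideal (B ⧸ p) := Q.map (Ideal.Quotient.mk p) with hq
    have hqprime : q.IsPrime :=
      Ideal.map_isPrime_of_surjective Ideal.Quotient.mk_surjective (by rwa [Ideal.mk_ker])
    have hq0 : q ≠ ⊥ := by
      obtain ⟨x, hxQ, hxp⟩ := SetLike.not_le_iff_exists.1 hQp
      intro h0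
      have h1 : Ideal.Quotient.mk p x ∈ q := Ideal.mem_map_of_mem _ hxQ
      rw [h0, Ideal.mem_bot, Ideal.Quotient.eq_zero_iff_mem] at h1
      exact hxp h1
    obtain ⟨θ', hθ', hgen⟩ := exists_local_generator q hq0
    obtain ⟨θ, rfl⟩ := Ideal.Quotient.mk_surjective θ'
    have hθ : θ ∈ Q := (Ideal.mem_quotient_iff_mem hpQ).1 hθ'
    refine ⟨θ, hθ, fun y hy => ?_⟩
    obtain ⟨c', hc', z', hz'⟩ := hgen (Ideal.Quotient.mk p y) (Ideal.mem_map_of_mem _ hy)
    obtain ⟨c, rfl⟩ := Ideal.Quotient.mk_surjective c'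
    obtain ⟨z, rfl⟩ := Ideal.Quotient.mk_surjective z'
    refine ⟨c, fun hc => hc' (Ideal.mem_map_of_mem _ hc), ?_⟩
    have h1 : c * y - z * θ ∈ p := by
      rw [← Ideal.Quotient.eq_zero_iff_mem, map_sub, map_mul, map_mul, hz', sub_self]
    have h2 : c * y = (c * y - z * θ) + z * θ := by ring
    rw [h2]
    exact Ideal.add_mem _ (Ideal.mem_sup_left h1)
      (Ideal.mem_sup_right (Ideal.mul_mem_left _ _ (Ideal.mem_span_singleton_self θ)))

/-- `B` noetherian, `p` prime; if every prime `Q ⊋ p` is principal modulo `p` locally at `Q`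
(elementwise), then `B ⧸ p` is a Dedekind domain. -/
theorem isDedekindDomain_quotient_of_generator_mod {B : Type*} [CommRing B]
    [IsNoetherianRing B] (p : Ideal B) [hp : p.IsPrime]
    (h : ∀ Q : Ideal B, Q.IsPrime → p ≤ Q → ¬ Q ≤ p →
      ∃ θ ∈ Q, ∀ y ∈ Q, ∃ c, c ∉ Q ∧ c * y ∈ p ⊔ Ideal.span {θ}) :
    IsDedekindDomain (B ⧸ p) := by
  apply isDedekindDomain_of_local_generator
  intro q hq hq0
  have := hq
  have hQ : (q.comap (Ideal.Quotient.mk p)).IsPrime := Ideal.comap_isPrime _ _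
  have hpQ : p ≤ q.comap (Ideal.Quotient.mk p) := by
    intro x hx
    rw [Ideal.mem_comap, Ideal.Quotient.eq_zero_iff_mem.2 hx]
    exact q.zero_mem
  have hQp : ¬ q.comap (Ideal.Quotient.mk p) ≤ p := by
    intro hle
    apply hq0
    rw [eq_bot_iff]
    intro x' hx'
    obtain ⟨x, rfl⟩ := Ideal.Quotient.mk_surjective x'
    rw [Ideal.mem_bot, Ideal.Quotient.eq_zero_iff_mem]
    exact hle hx'
  obtain ⟨θ, hθ, hgen⟩ := h _ hQ hpQ hQp
  refine ⟨Ideal.Quotient.mk p θ, hθ, fun y' hy' => ?_⟩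
  obtain ⟨y, rfl⟩ := Ideal.Quotient.mk_surjective y'
  obtain ⟨c, hc, hcy⟩ := hgen y hy'
  obtain ⟨a, ha, b, hb, hab⟩ := Submodule.mem_sup.1 hcy
  obtain ⟨z, rfl⟩ := Ideal.mem_span_singleton'.1 hb
  refine ⟨Ideal.Quotient.mk p c, hc, Ideal.Quotient.mk p z, ?_⟩
  rw [← map_mul, ← map_mul, ← hab, map_add, Ideal.Quotient.eq_zero_iff_mem.2 ha, zero_add]

end Dedekind

/-! ### One chart: `B01 = B[1/t]` -/

section OneChart

variable {B B01 : Type*} [CommRing B] [CommRing B01] (ι : B →+* B01) (t : B) (v : B01)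

theorem mem_of_pow_mul_mem (htv : ι t * v = 1) (P : Ideal B01) (n : ℕ) (w : B01)
    (h : ι t ^ n * w ∈ P) : w ∈ P := by
  have h1 : w = v ^ n * (ι t ^ n * w) := by
    rw [← mul_assoc, ← mul_pow, mul_comm v, htv, one_pow, one_mul]
  rw [h1]
  exact P.mul_mem_left _ h

theorem le_of_comap_le (htv : ι t * v = 1)
    (hloc : ∀ w : B01, ∃ (n : ℕ) (b : B), ι t ^ n * w = ι b)
    (P P' : Ideal B01) (h : P.comap ι ≤ P'.comap ι) : P ≤ P' := by
  intro w hw
  obtain ⟨n, b, hb⟩ := hloc w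
  have h1 : b ∈ P.comap ι := by
    rw [Ideal.mem_comap, ← hb]
    exact P.mul_mem_left _ hw
  have h2 : ι b ∈ P' := h h1
  rw [← hb] at h2
  exact mem_of_pow_mul_mem ι t v htv P' n w h2

/-- Elements of the sum `P₁ + P₂` coming from the chart lie, after multiplication by a power
of `t`, in the sum of the contractions. -/
theorem exists_pow_mul_mem_sup_comap (hinj : Function.Injective ι)
    (hloc : ∀ w : B01, ∃ (n : ℕ) (b : B), ι t ^ n * w = ι b)
    (P₁ P₂ : Ideal B01) (x : B) (hx : ι x ∈ P₁ ⊔ P₂) :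
    ∃ j : ℕ, t ^ j * x ∈ P₁.comap ι ⊔ P₂.comap ι := by
  obtain ⟨w₁, hw₁, w₂, hw₂, hw⟩ := Submodule.mem_sup.1 hx
  obtain ⟨k₁, b₁, hb₁⟩ := hloc w₁
  obtain ⟨k₂, b₂, hb₂⟩ := hloc w₂
  have h1 : b₁ ∈ P₁.comap ι := by
    rw [Ideal.mem_comap, ← hb₁]
    exact P₁.mul_mem_left _ hw₁
  have h2 : b₂ ∈ P₂.comap ι := by
    rw [Ideal.mem_comap, ← hb₂]
    exact P₂.mul_mem_left _ hw₂
  refine ⟨k₁ + k₂, ?_⟩
  have key : t ^ (k₁ + k₂) * x = t ^ k₂ * b₁ + t ^ k₁ * b₂ := by
    apply hinj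
    rw [map_mul, map_add, map_mul, map_mul, map_pow, map_pow, map_pow, ← hw, ← hb₁, ← hb₂]
    ring
  rw [key]
  exact Ideal.add_mem _ (Ideal.mem_sup_left (Ideal.mul_mem_left _ _ h1))
    (Ideal.mem_sup_right (Ideal.mul_mem_left _ _ h2))

/-- If the sum of the contractions is radical on the chart, `P₁ + P₂` is radical. -/
theorem sup_isRadical_of_comap (htv : ι t * v = 1) (hinj : Function.Injective ι)
    (hloc : ∀ w : B01, ∃ (n : ℕ) (b : B), ι t ^ n * w = ι b)
    (P₁ P₂ : Ideal B01) (hrad : (P₁.comap ι ⊔ P₂.comap ι).IsRadical) :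
    (P₁ ⊔ P₂).IsRadical := by
  have hmap : ∀ b : B, b ∈ P₁.comap ι ⊔ P₂.comap ι → ι b ∈ P₁ ⊔ P₂ := by
    intro b hb
    obtain ⟨a₁, ha₁, a₂, ha₂, hab⟩ := Submodule.mem_sup.1 hb
    rw [← hab, map_add]
    exact Ideal.add_mem _ (Ideal.mem_sup_left ha₁) (Ideal.mem_sup_right ha₂)
  intro w hw
  obtain ⟨n, hn⟩ := hw
  obtain ⟨k, b, hb⟩ := hloc w
  have h1 : ι (b ^ n) ∈ P₁ ⊔ P₂ := by
    rw [map_pow, ← hb, mul_pow]
    exact Ideal.mul_mem_left _ _ hn
  obtain ⟨j, hj⟩ := exists_pow_mul_mem_sup_comap ι t hinj hloc P₁ P₂ (b ^ n) h1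
  have h2 : (t ^ j * b) ^ (n + 1) ∈ P₁.comap ι ⊔ P₂.comap ι := by
    have e : (t ^ j * b) ^ (n + 1) = (t ^ (j * n) * b) * (t ^ j * b ^ n) := by ring
    rw [e]
    exact Ideal.mul_mem_left _ _ hj
  have h3 : t ^ j * b ∈ P₁.comap ι ⊔ P₂.comap ι := hrad ⟨n + 1, h2⟩
  have h4 : ι t ^ (j + k) * w ∈ P₁ ⊔ P₂ := by
    have e : ι t ^ (j + k) * w = ι (t ^ j * b) := by
      rw [map_mul, map_pow, ← hb, pow_add, mul_assoc]
    rw [e]
    exact hmap _ h3
  exact mem_of_pow_mul_mem ι t v htv _ _ w h4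

/-- `B01` is the localisation of the chart ring at the powers of `t`. -/
theorem isLocalization_powers (htv : ι t * v = 1) (hinj : Function.Injective ι)
    (hloc : ∀ w : B01, ∃ (n : ℕ) (b : B), ι t ^ n * w = ι b) :
    @IsLocalization B _ (Submonoid.powers t) B01 _ ι.toAlgebra := by
  let _ := ι.toAlgebra
  refine (isLocalization_iff _ _).2 ⟨?_, ?_, ?_⟩
  · rintro ⟨_, n, rfl⟩
    change IsUnit (ι (t ^ n))
    rw [map_pow]
    exact (IsUnit.of_mul_eq_one v htv).pow n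
  · intro w
    obtain ⟨n, b, hb⟩ := hloc w
    refine ⟨(b, ⟨t ^ n, n, rfl⟩), ?_⟩
    change w * ι (t ^ n) = ι b
    rw [map_pow, mul_comm, hb]
  · intro x y hxy
    exact ⟨1, by rw [hinj hxy]⟩

/-- A prime of the chart not containing `t` extends to a prime of `B01` with the same
contraction. -/
theorem map_isPrime_and_comap_map (htv : ι t * v = 1) (hinj : Function.Injective ι)
    (hloc : ∀ w : B01, ∃ (n : ℕ) (b : B), ι t ^ n * w = ι b)
    (Q : Ideal B) (hQ : Q.IsPrime) (ht : t ∉ Q) :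
    (Q.map ι).IsPrime ∧ (Q.map ι).comap ι = Q := by
  let _ := ι.toAlgebra
  have := isLocalization_powers ι t v htv hinj hloc
  have hdisj : Disjoint (Submonoid.powers t : Set B) (Q : Set B) := by
    rw [Set.disjoint_left]
    rintro x ⟨n, rfl⟩ hxQ
    exact ht (hQ.mem_of_pow_mem n hxQ)
  exact ⟨IsLocalization.isPrime_of_isPrime_disjoint (Submonoid.powers t) B01 Q hQ hdisj,
    IsLocalization.under_map_of_isPrime_disjoint (Submonoid.powers t) B01 hQ hdisj⟩

end OneChart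

/-! ### Two charts glued along `B01 = B0[1/u0] = B1[1/s1]`, `u0 * s1 = 1` -/

section TwoCharts

variable {B0 B1 B01 : Type*} [CommRing B0] [CommRing B1] [CommRing B01]
  (ι0 : B0 →+* B01) (ι1 : B1 →+* B01) (u0 : B0) (s1 : B1)

/-- Transfer of `p₁ ∩ p₂ = (π)`. -/
theorem inf_eq_transfer (h01 : ι0 u0 * ι1 s1 = 1)
    (hloc0 : ∀ w : B01, ∃ (n : ℕ) (b : B0), ι0 u0 ^ n * w = ι0 b)
    (π0 : B0) (π1 : B1) (hπ : ι0 π0 = ι1 π1)
    (hdiv : ∀ y : B1, ι1 π1 ∣ ι1 y → π1 ∣ y)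
    (P₁ P₂ : Ideal B01)
    (h0 : P₁.comap ι0 ⊓ P₂.comap ι0 = Ideal.span {π0}) :
    P₁.comap ι1 ⊓ P₂.comap ι1 = Ideal.span {π1} := by
  have hπ0 : π0 ∈ P₁.comap ι0 ⊓ P₂.comap ι0 := h0 ▸ Ideal.mem_span_singleton_self π0
  apply le_antisymm
  · intro x hx
    obtain ⟨n, b, hb⟩ := hloc0 (ι1 x)
    have hb1 : b ∈ P₁.comap ι0 ⊓ P₂.comap ι0 := by
      refine ⟨?_, ?_⟩
      · change ι0 b ∈ P₁
        rw [← hb]
        exact P₁.mul_mem_left _ hx.1
      · change ι0 b ∈ P₂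
        rw [← hb]
        exact P₂.mul_mem_left _ hx.2
    rw [h0] at hb1
    obtain ⟨c, rfl⟩ := Ideal.mem_span_singleton'.1 hb1
    rw [Ideal.mem_span_singleton]
    apply hdiv
    refine ⟨ι1 s1 ^ n * ι0 c, ?_⟩
    have e : ι1 x = ι1 s1 ^ n * (ι0 u0 ^ n * ι1 x) := by
      rw [← mul_assoc, ← mul_pow, mul_comm (ι1 s1), h01, one_pow, one_mul]
    rw [e, hb, map_mul, hπ]
    ring
  · rw [Ideal.span_singleton_le_iff_mem]
    refine ⟨?_, ?_⟩
    · change ι1 π1 ∈ P₁
      rw [← hπ]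
      exact hπ0.1
    · change ι1 π1 ∈ P₂
      rw [← hπ]
      exact hπ0.2

/-- Transfer of "`p₁ + p₂` is radical", given that the two components do not meet on `s1 = 0`. -/
theorem sup_isRadical_transfer (h01 : ι0 u0 * ι1 s1 = 1)
    (hinj0 : Function.Injective ι0) (hinj1 : Function.Injective ι1)
    (hloc0 : ∀ w : B01, ∃ (n : ℕ) (b : B0), ι0 u0 ^ n * w = ι0 b)
    (hloc1 : ∀ w : B01, ∃ (n : ℕ) (b : B1), ι1 s1 ^ n * w = ι1 b)
    (P₁ P₂ : Ideal B01) (hrad : (P₁.comap ι0 ⊔ P₂.comap ι0).IsRadical)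
    (hsep : ∀ M : Ideal B1, M.IsMaximal → s1 ∈ M → P₁.comap ι1 ≤ M → P₂.comap ι1 ≤ M → False) :
    (P₁.comap ι1 ⊔ P₂.comap ι1).IsRadical := by
  have hrad01 : (P₁ ⊔ P₂).IsRadical :=
    sup_isRadical_of_comap ι0 u0 (ι1 s1) h01 hinj0 hloc0 P₁ P₂ hrad
  intro x hx
  obtain ⟨n, hn⟩ := hx
  have h1 : ι1 x ∈ P₁ ⊔ P₂ := by
    apply hrad01
    refine ⟨n, ?_⟩
    obtain ⟨a₁, ha₁, a₂, ha₂, hab⟩ := Submodule.mem_sup.1 hn
    rw [← map_pow, ← hab, map_add]
    exact Ideal.add_mem _ (Ideal.mem_sup_left ha₁) (Ideal.mem_sup_right ha₂)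
  obtain ⟨j, hj⟩ := exists_pow_mul_mem_sup_comap ι1 s1 hinj1 hloc1 P₁ P₂ x h1
  have htop : (P₁.comap ι1 ⊔ P₂.comap ι1) ⊔ Ideal.span {s1 ^ j} = ⊤ := by
    by_contra hne
    obtain ⟨M, hM, hle⟩ := Ideal.exists_le_maximal _ hne
    have hs : s1 ∈ M := hM.isPrime.mem_of_pow_mem j
      (hle (Ideal.mem_sup_right (Ideal.mem_span_singleton_self _)))
    exact hsep M hM hs (le_trans le_sup_left (le_trans le_sup_left hle))
      (le_trans le_sup_right (le_trans le_sup_left hle))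
  have h1 : (1 : B1) ∈ (P₁.comap ι1 ⊔ P₂.comap ι1) ⊔ Ideal.span {s1 ^ j} := by
    rw [htop]; exact Submodule.mem_top
  obtain ⟨a, ha, b, hb, hab⟩ := Submodule.mem_sup.1 h1
  obtain ⟨c, rfl⟩ := Ideal.mem_span_singleton'.1 hb
  have e : x = a * x + c * (s1 ^ j * x) := by linear_combination (-x) * hab
  rw [e]
  exact Ideal.add_mem _ (Ideal.mul_mem_right _ _ ha) (Ideal.mul_mem_left _ _ hj)

/-- Transfer of "locally principal modulo `p`" to the primes of the second chart not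
containing `s1`. -/
theorem exists_generator_mod_transfer (h01 : ι0 u0 * ι1 s1 = 1)
    (hinj1 : Function.Injective ι1)
    (hloc0 : ∀ w : B01, ∃ (n : ℕ) (b : B0), ι0 u0 ^ n * w = ι0 b)
    (hloc1 : ∀ w : B01, ∃ (n : ℕ) (b : B1), ι1 s1 ^ n * w = ι1 b)
    (P : Ideal B01) [P.IsPrime] (hded : IsDedekindDomain (B0 ⧸ P.comap ι0))
    (Q : Ideal B1) (hQ : Q.IsPrime) (hPQ : P.comap ι1 ≤ Q) (hs : s1 ∉ Q) :
    ∃ θ ∈ Q, ∀ y ∈ Q, ∃ c, c ∉ Q ∧ c * y ∈ P.comap ι1 ⊔ Ideal.span {θ} := by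
  have h10 : ι1 s1 * ι0 u0 = 1 := by rw [mul_comm]; exact h01
  obtain ⟨hQ01, hQc⟩ := map_isPrime_and_comap_map ι1 s1 (ι0 u0) h10 hinj1 hloc1 Q hQ hs
  have hmemQ : ∀ b : B1, ι1 b ∈ Q.map ι1 → b ∈ Q := fun b hb => by
    rw [← hQc]; exact hb
  have hPQ01 : P ≤ Q.map ι1 := by
    apply le_of_comap_le ι1 s1 (ι0 u0) h10 hloc1
    rw [hQc]
    exact hPQ
  have hQ0 : ((Q.map ι1).comap ι0).IsPrime := Ideal.comap_isPrime _ _
  obtain ⟨θ0, hθ0, hgen⟩ := exists_generator_mod (P.comap ι0) ((Q.map ι1).comap ι0)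
    (Ideal.comap_mono hPQ01)
  obtain ⟨m, θ1, hθ1⟩ := hloc1 (ι0 θ0)
  have hθ1Q : θ1 ∈ Q := by
    apply hmemQ
    rw [← hθ1]
    exact Ideal.mul_mem_left _ _ hθ0
  refine ⟨θ1, hθ1Q, fun y hy => ?_⟩
  obtain ⟨k, y0, hy0⟩ := hloc0 (ι1 y)
  have hy0Q : y0 ∈ (Q.map ι1).comap ι0 := by
    change ι0 y0 ∈ Q.map ι1
    rw [← hy0]
    exact Ideal.mul_mem_left _ _ (Ideal.mem_map_of_mem ι1 hy)
  obtain ⟨c0, hc0, hc0y⟩ := hgen y0 hy0Q
  obtain ⟨a, ha, b, hb, hab⟩ := Submodule.mem_sup.1 hc0y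
  obtain ⟨z, rfl⟩ := Ideal.mem_span_singleton'.1 hb
  obtain ⟨mc, c1, hc1⟩ := hloc1 (ι0 c0)
  obtain ⟨ma, a1, ha1⟩ := hloc1 (ι0 a)
  obtain ⟨mz, z1, hz1⟩ := hloc1 (ι0 z)
  have ha1P : a1 ∈ P.comap ι1 := by
    change ι1 a1 ∈ P
    rw [← ha1]
    exact P.mul_mem_left _ ha
  have hc1Q : c1 ∉ Q := by
    intro h
    apply hc0
    change ι0 c0 ∈ Q.map ι1
    apply mem_of_pow_mul_mem ι1 s1 (ι0 u0) h10 _ mc
    rw [hc1]
    exact Ideal.mem_map_of_mem ι1 h
  have hy' : ι1 y = ι1 s1 ^ k * ι0 y0 := by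
    rw [← hy0, ← mul_assoc, ← mul_pow, h10, one_pow, one_mul]
  have hab' : ι0 c0 * ι0 y0 = ι0 a + ι0 z * ι0 θ0 := by
    rw [← map_mul, ← hab, map_add, map_mul]
  have key : s1 ^ (ma + mz + m) * c1 * y =
      s1 ^ (mc + k) * s1 ^ (mz + m) * a1 + (s1 ^ (mc + k) * s1 ^ ma * z1) * θ1 := by
    apply hinj1
    simp only [map_mul, map_add, map_pow]
    rw [← hc1, ← ha1, ← hz1, ← hθ1, hy']
    linear_combination (ι1 s1 ^ (ma + mz + m + mc + k)) * hab'
  refine ⟨s1 ^ (ma + mz + m) * c1, ?_, ?_⟩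
  · intro h
    rcases hQ.mem_or_mem h with h' | h'
    · exact hs (hQ.mem_of_pow_mem _ h')
    · exact hc1Q h'
  · rw [key]
    exact Ideal.add_mem _ (Ideal.mem_sup_left (Ideal.mul_mem_left _ _ ha1P))
      (Ideal.mem_sup_right (Ideal.mul_mem_left _ _ (Ideal.mem_span_singleton_self θ1)))

/-- Transfer of "`B ⧸ p` is a Dedekind domain", given local principality at the primes
containing `s1`. -/
theorem isDedekindDomain_transfer (h01 : ι0 u0 * ι1 s1 = 1)
    (hinj1 : Function.Injective ι1)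
    (hloc0 : ∀ w : B01, ∃ (n : ℕ) (b : B0), ι0 u0 ^ n * w = ι0 b)
    (hloc1 : ∀ w : B01, ∃ (n : ℕ) (b : B1), ι1 s1 ^ n * w = ι1 b)
    [IsNoetherianRing B1]
    (P : Ideal B01) [P.IsPrime] (hded : IsDedekindDomain (B0 ⧸ P.comap ι0))
    (hreg : ∀ Q : Ideal B1, Q.IsPrime → s1 ∈ Q → P.comap ι1 ≤ Q →
      ∃ θ ∈ Q, ∀ y ∈ Q, ∃ c, c ∉ Q ∧ c * y ∈ P.comap ι1 ⊔ Ideal.span {θ}) :
    IsDedekindDomain (B1 ⧸ P.comap ι1) := by
  apply isDedekindDomain_quotient_of_generator_mod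
  intro Q hQ hPQ _
  by_cases hs : s1 ∈ Q
  · exact hreg Q hQ hs hPQ
  · exact exists_generator_mod_transfer ι0 ι1 u0 s1 h01 hinj1 hloc0 hloc1 P hded Q hQ hPQ hs

end TwoCharts

/-! ### The charts of `Nodal/Defs` -/

section Concrete

variable {O L : Type*} [CommRing O] [Field L] [Algebra O L]

/-- The coordinate `t` as an element of the chart `t`.  (`ChartInf.tInf u = tZero u⁻¹`.) -/
noncomputable def tZero (t : L) : Chart O t :=
  ⟨t, CechP1.isIntegral_adjoin_of_mem (Algebra.subset_adjoin (Set.mem_singleton _))⟩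

@[simp]
theorem coe_tZero (t : L) : ((tZero (O := O) t : Chart O t) : L) = t := rfl

theorem tInf_eq_tZero (u : L) : (ChartInf.tInf u : Chart O u⁻¹) = tZero u⁻¹ := rfl

theorem inclHom_injective {S T : Subalgebra O L} (h : S ≤ T) :
    Function.Injective (inclHom h) := by
  intro x y hxy
  apply Subtype.ext
  have h1 := congrArg Subtype.val hxy
  rwa [coe_inclHom, coe_inclHom] at h1

theorem toOverlapZero_tZero_mul (u : L) (hu : u ≠ 0) :
    toOverlapZero O u (tZero u) * toOverlapInf O u (ChartInf.tInf u) = 1 := by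
  apply Subtype.ext
  rw [Subalgebra.coe_mul, coe_inclHom, coe_inclHom, Subalgebra.coe_one, coe_tZero,
    ChartInf.coe_tInf]
  exact mul_inv_cancel₀ hu

theorem exists_pow_mul_toOverlapZero (u : L) (hu : u ≠ 0) (w : Overlap O u) :
    ∃ (n : ℕ) (b : Chart O u), toOverlapZero O u (tZero u) ^ n * w = toOverlapZero O u b := by
  obtain ⟨n, hn⟩ := CechP1.exists_pow_mul_isIntegral u hu (w : L) w.2
  refine ⟨n, ⟨u ^ n * w, hn⟩, Subtype.ext ?_⟩
  rw [Subalgebra.coe_mul, Subalgebra.coe_pow, coe_inclHom, coe_inclHom, coe_tZero]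

theorem exists_pow_mul_toOverlapInf (u : L) (hu : u ≠ 0) (w : Overlap O u) :
    ∃ (n : ℕ) (b : Chart O u⁻¹),
      toOverlapInf O u (ChartInf.tInf u) ^ n * w = toOverlapInf O u b :=
  exists_pow_mul_inclHom u hu (ChartInf.tInf u) rfl (adjoin_inv_le_overlap O u) w

/-- Every element of `O[t]` is a constant plus a multiple of `t`. -/
theorem exists_eq_const_add_mul (t : L) (x : Algebra.adjoin O ({t} : Set L)) :
    ∃ (a : O) (y : Algebra.adjoin O ({t} : Set L)),
      x = algebraMap O _ a + ⟨t, Algebra.self_mem_adjoin_singleton O t⟩ * y := by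
  have hx : (x : L) ∈ (Polynomial.aeval (R := O) t).range := by
    rw [← Algebra.adjoin_singleton_eq_range_aeval]
    exact x.2
  obtain ⟨f, hf⟩ := hx
  refine ⟨f.coeff 0, ⟨Polynomial.aeval t f.divX, Polynomial.aeval_mem_adjoin_singleton O t⟩,
    Subtype.ext ?_⟩
  have h1 := congrArg (Polynomial.aeval t) (Polynomial.divX_mul_X_add f)
  rw [map_add, map_mul, Polynomial.aeval_X, Polynomial.aeval_C] at h1
  change (x : L) = algebraMap O L (f.coeff 0) + t * Polynomial.aeval t f.divX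
  have hf' : Polynomial.aeval t f = (x : L) := hf
  rw [← hf', ← h1]
  ring

/-- If `O ⧸ π` is a field, a prime of the chart `t` containing `π` and `t` is maximal. -/
theorem isMaximal_of_piElt_mem_of_tZero_mem (π : O) (hπmax : (Ideal.span {π}).IsMaximal)
    (t : L) (Q : Ideal (Chart O t)) (hQ : Q.IsPrime)
    (hπQ : piElt (Algebra.adjoin O ({t} : Set L)) π ∈ Q) (htQ : tZero t ∈ Q) :
    Q.IsMaximal := by
  have := hQ
  apply Ideal.isMaximal_of_isIntegral_of_isMaximal_comap (R := Algebra.adjoin O ({t} : Set L)) Q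
  set q : Ideal (Algebra.adjoin O ({t} : Set L)) :=
    Q.comap (algebraMap (Algebra.adjoin O ({t} : Set L)) (Chart O t)) with hq
  have hqprime : q.IsPrime := Ideal.comap_isPrime _ _
  have hπq : algebraMap O (Algebra.adjoin O ({t} : Set L)) π ∈ q := hπQ
  have htq : (⟨t, Algebra.self_mem_adjoin_singleton O t⟩ : Algebra.adjoin O ({t} : Set L)) ∈ q :=
    htQ
  rw [Ideal.isMaximal_iff]
  refine ⟨(Ideal.ne_top_iff_one q).1 hqprime.ne_top, fun J x hqJ hxq hxJ => ?_⟩
  obtain ⟨a, y, hxy⟩ := exists_eq_const_add_mul t x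
  have ha : a ∉ Ideal.span {π} := by
    intro ha'
    apply hxq
    obtain ⟨c, rfl⟩ := Ideal.mem_span_singleton'.1 ha'
    rw [hxy, map_mul]
    exact q.add_mem (q.mul_mem_left _ hπq) (q.mul_mem_right _ htq)
  obtain ⟨b, i, hi, hbi⟩ := hπmax.exists_inv ha
  obtain ⟨c, rfl⟩ := Ideal.mem_span_singleton'.1 hi
  have h1 := congrArg (algebraMap O (Algebra.adjoin O ({t} : Set L))) hbi
  rw [map_add, map_mul, map_mul, map_one] at h1
  have e : (1 : Algebra.adjoin O ({t} : Set L)) =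
      algebraMap O _ b * x
        - (algebraMap O _ b * y) * ⟨t, Algebra.self_mem_adjoin_singleton O t⟩
        + algebraMap O _ c * algebraMap O _ π := by
    rw [hxy]
    linear_combination -h1
  rw [e]
  exact J.add_mem (J.sub_mem (J.mul_mem_left _ hxJ) (J.mul_mem_left _ (hqJ htq)))
    (J.mul_mem_left _ (hqJ hπq))

theorem toOverlapZero_piElt (π : O) (u : L) :
    toOverlapZero O u (piElt (Algebra.adjoin O ({u} : Set L)) π) =
      toOverlapInf O u (piElt (Algebra.adjoin O ({u⁻¹} : Set L)) π) :=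
  Subtype.ext (by rw [coe_inclHom, coe_inclHom, coe_piElt, coe_piElt])

/-- `π` lies in the contraction to the chart `u⁻¹` of both components. -/
theorem piElt_mem_comap_toOverlapInf (π : O) (u : L) (P₁ P₂ : Ideal (Overlap O u))
    (hzero : IsNodalChart π u (P₁.comap (toOverlapZero O u)) (P₂.comap (toOverlapZero O u))) :
    piElt (Algebra.adjoin O ({u⁻¹} : Set L)) π ∈ P₁.comap (toOverlapInf O u) ∧
      piElt (Algebra.adjoin O ({u⁻¹} : Set L)) π ∈ P₂.comap (toOverlapInf O u) := by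
  have h0 : piElt (Algebra.adjoin O ({u} : Set L)) π ∈
      P₁.comap (toOverlapZero O u) ⊓ P₂.comap (toOverlapZero O u) :=
    hzero.inf_eq ▸ Ideal.mem_span_singleton_self _
  have hπ01 := toOverlapZero_piElt (O := O) π u
  refine ⟨?_, ?_⟩
  · rw [Ideal.mem_comap, ← hπ01]
    exact Ideal.mem_comap.1 h0.1
  · rw [Ideal.mem_comap, ← hπ01]
    exact Ideal.mem_comap.1 h0.2

/-- **Chart transfer, ring-theoretic core.**  `chartZero` plus the local conditions at the
maximal ideals over `u⁻¹ = 0` give `chartInf`, provided the chart ring at infinity is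
noetherian, `u⁻¹` is a non-zero-divisor modulo `π` on it (`hnzd`, in the shape of
`ChartProv.chart_nzd`) and `O ⧸ π` is a field. -/
theorem isNodalChart_inf_of_nzd (π : O) (hπmax : (Ideal.span {π}).IsMaximal)
    (hπL : algebraMap O L π ≠ 0) (u : L) (hu : u ≠ 0)
    [IsNoetherianRing (Chart O u⁻¹)]
    (hnzd : ∀ x : L, IsIntegral (Algebra.adjoin O ({u⁻¹} : Set L)) x →
      IsIntegral (Algebra.adjoin O ({u⁻¹} : Set L)) (u⁻¹ * x / algebraMap O L π) →
      IsIntegral (Algebra.adjoin O ({u⁻¹} : Set L)) (x / algebraMap O L π))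
    (P₁ P₂ : Ideal (Overlap O u)) [P₁.IsPrime] [P₂.IsPrime]
    (hzero : IsNodalChart π u (P₁.comap (toOverlapZero O u)) (P₂.comap (toOverlapZero O u)))
    (hsep : ∀ M : Ideal (Chart O u⁻¹), M.IsMaximal → ChartInf.tInf u ∈ M →
      P₁.comap (toOverlapInf O u) ≤ M → P₂.comap (toOverlapInf O u) ≤ M → False)
    (hreg₁ : ∀ M : Ideal (Chart O u⁻¹), M.IsMaximal → ChartInf.tInf u ∈ M →
      P₁.comap (toOverlapInf O u) ≤ M →
      ∃ θ ∈ M, ∀ y ∈ M, ∃ c, c ∉ M ∧ c * y ∈ P₁.comap (toOverlapInf O u) ⊔ Ideal.span {θ})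
    (hreg₂ : ∀ M : Ideal (Chart O u⁻¹), M.IsMaximal → ChartInf.tInf u ∈ M →
      P₂.comap (toOverlapInf O u) ≤ M →
      ∃ θ ∈ M, ∀ y ∈ M, ∃ c, c ∉ M ∧ c * y ∈ P₂.comap (toOverlapInf O u) ⊔ Ideal.span {θ}) :
    IsNodalChart π u⁻¹ (P₁.comap (toOverlapInf O u)) (P₂.comap (toOverlapInf O u)) := by
  have h01 : toOverlapZero O u (tZero u) * toOverlapInf O u (ChartInf.tInf u) = 1 :=
    toOverlapZero_tZero_mul u hu
  have h10 : toOverlapInf O u (ChartInf.tInf u) * toOverlapZero O u (tZero u) = 1 := by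
    rw [mul_comm]; exact h01
  have hinj0 : Function.Injective (toOverlapZero O u) := inclHom_injective _
  have hinj1 : Function.Injective (toOverlapInf O u) := inclHom_injective _
  have hloc0 := exists_pow_mul_toOverlapZero (O := O) u hu
  have hloc1 := exists_pow_mul_toOverlapInf (O := O) u hu
  have hπ01 : toOverlapZero O u (piElt (Algebra.adjoin O ({u} : Set L)) π) =
      toOverlapInf O u (piElt (Algebra.adjoin O ({u⁻¹} : Set L)) π) := toOverlapZero_piElt π u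
  have hdiv : ∀ y : Chart O u⁻¹,
      toOverlapInf O u (piElt (Algebra.adjoin O ({u⁻¹} : Set L)) π) ∣ toOverlapInf O u y →
      piElt (Algebra.adjoin O ({u⁻¹} : Set L)) π ∣ y :=
    piElt_dvd_of_dvd_inclHom π hπL u hu (adjoin_inv_le_overlap O u) hnzd
  obtain ⟨hπ1, hπ2⟩ := piElt_mem_comap_toOverlapInf π u P₁ P₂ hzero
  have hle₁₂ : ¬ P₁.comap (toOverlapInf O u) ≤ P₂.comap (toOverlapInf O u) := fun h =>
    hzero.not_le₁₂ (Ideal.comap_mono
      (le_of_comap_le (toOverlapInf O u) (ChartInf.tInf u) _ h10 hloc1 P₁ P₂ h))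
  have hle₂₁ : ¬ P₂.comap (toOverlapInf O u) ≤ P₁.comap (toOverlapInf O u) := fun h =>
    hzero.not_le₂₁ (Ideal.comap_mono
      (le_of_comap_le (toOverlapInf O u) (ChartInf.tInf u) _ h10 hloc1 P₂ P₁ h))
  exact
    { isPrime₁ := Ideal.comap_isPrime _ _
      isPrime₂ := Ideal.comap_isPrime _ _
      ne := fun h => hle₁₂ h.le
      not_le₁₂ := hle₁₂
      not_le₂₁ := hle₂₁
      inf_eq := inf_eq_transfer (toOverlapZero O u) (toOverlapInf O u) (tZero u)
        (ChartInf.tInf u) h01 hloc0 _ _ hπ01 hdiv P₁ P₂ hzero.inf_eq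
      dedekind₁ := isDedekindDomain_transfer (toOverlapZero O u) (toOverlapInf O u) (tZero u)
        (ChartInf.tInf u) h01 hinj1 hloc0 hloc1 P₁ hzero.dedekind₁ (fun Q hQ hs hPQ =>
          hreg₁ Q (isMaximal_of_piElt_mem_of_tZero_mem π hπmax u⁻¹ Q hQ (hPQ hπ1) hs) hs hPQ)
      dedekind₂ := isDedekindDomain_transfer (toOverlapZero O u) (toOverlapInf O u) (tZero u)
        (ChartInf.tInf u) h01 hinj1 hloc0 hloc1 P₂ hzero.dedekind₂ (fun Q hQ hs hPQ =>
          hreg₂ Q (isMaximal_of_piElt_mem_of_tZero_mem π hπmax u⁻¹ Q hQ (hPQ hπ2) hs) hs hPQ)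
      radical := sup_isRadical_transfer (toOverlapZero O u) (toOverlapInf O u) (tZero u)
        (ChartInf.tInf u) h01 hinj0 hinj1 hloc0 hloc1 P₁ P₂ hzero.radical hsep }

/-- **Chart transfer of the Dedekind property of one component** (ring-theoretic core): from
the chart `u` and local principality at the maximal ideals over `u⁻¹ = 0`. -/
theorem isDedekindDomain_inf_of_noetherian (π : O) (hπmax : (Ideal.span {π}).IsMaximal)
    (u : L) (hu : u ≠ 0) [IsNoetherianRing (Chart O u⁻¹)]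
    (P : Ideal (Overlap O u)) [P.IsPrime]
    (hded : IsDedekindDomain (Chart O u ⧸ P.comap (toOverlapZero O u)))
    (hπP : piElt (Algebra.adjoin O ({u⁻¹} : Set L)) π ∈ P.comap (toOverlapInf O u))
    (hreg : ∀ M : Ideal (Chart O u⁻¹), M.IsMaximal → ChartInf.tInf u ∈ M →
      P.comap (toOverlapInf O u) ≤ M →
      ∃ θ ∈ M, ∀ y ∈ M, ∃ c, c ∉ M ∧ c * y ∈ P.comap (toOverlapInf O u) ⊔ Ideal.span {θ}) :
    IsDedekindDomain (Chart O u⁻¹ ⧸ P.comap (toOverlapInf O u)) :=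
  isDedekindDomain_transfer (toOverlapZero O u) (toOverlapInf O u) (tZero u)
    (ChartInf.tInf u) (toOverlapZero_tZero_mul u hu) (inclHom_injective _)
    (exists_pow_mul_toOverlapZero u hu) (exists_pow_mul_toOverlapInf u hu) P hded
    (fun Q hQ hs hPQ =>
      hreg Q (isMaximal_of_piElt_mem_of_tZero_mem π hπmax u⁻¹ Q hQ (hPQ hπP) hs) hs hPQ)

/-- **Chart transfer, ring-theoretic core, with the Dedekind property of the components at
infinity as hypotheses**: only `hsep` is needed at the points over `u⁻¹ = 0`. -/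
theorem isNodalChart_inf_of_nzd_of_dedekind (π : O) (hπL : algebraMap O L π ≠ 0) (u : L)
    (hu : u ≠ 0)
    (hnzd : ∀ x : L, IsIntegral (Algebra.adjoin O ({u⁻¹} : Set L)) x →
      IsIntegral (Algebra.adjoin O ({u⁻¹} : Set L)) (u⁻¹ * x / algebraMap O L π) →
      IsIntegral (Algebra.adjoin O ({u⁻¹} : Set L)) (x / algebraMap O L π))
    (P₁ P₂ : Ideal (Overlap O u)) [P₁.IsPrime] [P₂.IsPrime]
    (hzero : IsNodalChart π u (P₁.comap (toOverlapZero O u)) (P₂.comap (toOverlapZero O u)))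
    (hsep : ∀ M : Ideal (Chart O u⁻¹), M.IsMaximal → ChartInf.tInf u ∈ M →
      P₁.comap (toOverlapInf O u) ≤ M → P₂.comap (toOverlapInf O u) ≤ M → False)
    (hded₁ : IsDedekindDomain (Chart O u⁻¹ ⧸ P₁.comap (toOverlapInf O u)))
    (hded₂ : IsDedekindDomain (Chart O u⁻¹ ⧸ P₂.comap (toOverlapInf O u))) :
    IsNodalChart π u⁻¹ (P₁.comap (toOverlapInf O u)) (P₂.comap (toOverlapInf O u)) := by
  have h01 : toOverlapZero O u (tZero u) * toOverlapInf O u (ChartInf.tInf u) = 1 :=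
    toOverlapZero_tZero_mul u hu
  have h10 : toOverlapInf O u (ChartInf.tInf u) * toOverlapZero O u (tZero u) = 1 := by
    rw [mul_comm]; exact h01
  have hinj0 : Function.Injective (toOverlapZero O u) := inclHom_injective _
  have hinj1 : Function.Injective (toOverlapInf O u) := inclHom_injective _
  have hloc0 := exists_pow_mul_toOverlapZero (O := O) u hu
  have hloc1 := exists_pow_mul_toOverlapInf (O := O) u hu
  have hπ01 : toOverlapZero O u (piElt (Algebra.adjoin O ({u} : Set L)) π) =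
      toOverlapInf O u (piElt (Algebra.adjoin O ({u⁻¹} : Set L)) π) := toOverlapZero_piElt π u
  have hdiv : ∀ y : Chart O u⁻¹,
      toOverlapInf O u (piElt (Algebra.adjoin O ({u⁻¹} : Set L)) π) ∣ toOverlapInf O u y →
      piElt (Algebra.adjoin O ({u⁻¹} : Set L)) π ∣ y :=
    piElt_dvd_of_dvd_inclHom π hπL u hu (adjoin_inv_le_overlap O u) hnzd
  have hle₁₂ : ¬ P₁.comap (toOverlapInf O u) ≤ P₂.comap (toOverlapInf O u) := fun h =>
    hzero.not_le₁₂ (Ideal.comap_mono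
      (le_of_comap_le (toOverlapInf O u) (ChartInf.tInf u) _ h10 hloc1 P₁ P₂ h))
  have hle₂₁ : ¬ P₂.comap (toOverlapInf O u) ≤ P₁.comap (toOverlapInf O u) := fun h =>
    hzero.not_le₂₁ (Ideal.comap_mono
      (le_of_comap_le (toOverlapInf O u) (ChartInf.tInf u) _ h10 hloc1 P₂ P₁ h))
  exact
    { isPrime₁ := Ideal.comap_isPrime _ _
      isPrime₂ := Ideal.comap_isPrime _ _
      ne := fun h => hle₁₂ h.le
      not_le₁₂ := hle₁₂
      not_le₂₁ := hle₂₁
      inf_eq := inf_eq_transfer (toOverlapZero O u) (toOverlapInf O u) (tZero u)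
        (ChartInf.tInf u) h01 hloc0 _ _ hπ01 hdiv P₁ P₂ hzero.inf_eq
      dedekind₁ := hded₁
      dedekind₂ := hded₂
      radical := sup_isRadical_transfer (toOverlapZero O u) (toOverlapInf O u) (tZero u)
        (ChartInf.tInf u) h01 hinj0 hinj1 hloc0 hloc1 P₁ P₂ hzero.radical hsep }

/-- `hsep` from a global relation `a + b + c * u⁻¹ = 1` with `a ∈ p₁`, `b ∈ p₂`. -/
theorem hsep_of_exists (u : L) (p₁ p₂ : Ideal (Chart O u⁻¹))
    (h : ∃ a b c : Chart O u⁻¹, a ∈ p₁ ∧ b ∈ p₂ ∧ a + b + c * ChartInf.tInf u = 1)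
    (M : Ideal (Chart O u⁻¹)) (hM : M.IsMaximal) (hs : ChartInf.tInf u ∈ M)
    (h₁ : p₁ ≤ M) (h₂ : p₂ ≤ M) : False := by
  obtain ⟨a, b, c, ha, hb, habc⟩ := h
  apply hM.ne_top
  rw [Ideal.eq_top_iff_one, ← habc]
  exact M.add_mem (M.add_mem (h₁ ha) (h₂ hb)) (M.mul_mem_left _ hs)

end Concrete

/-! ### The setting of `Model/Assembly` and `Nodal/Exit` -/

section Model

variable {O E L : Type*} [CommRing O] [IsDomain O] [IsDiscreteValuationRing O]
  [Field E] [CharZero E] [Algebra O E] [IsFractionRing O E]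
  [Field L] [Algebra E L] [Algebra O L] [IsScalarTower O E L]

/-- **Chart transfer.**  The chart at infinity of a nodal datum from the chart `u` and local
conditions at the maximal ideals `M` of the chart `u⁻¹` containing `u⁻¹`:
* `hsep` : `M` does not contain both components;
* `hreg₁`, `hreg₂` : if `M` contains the `i`-th component `pᵢ`, then `M = pᵢ + (θ)` locally at
  `M` (the component is regular at `M`). -/
theorem isNodalChart_inf (π : O) (hπ : Irreducible π) (u : L) (hu : Transcendental E u)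
    [FiniteDimensional (IntermediateField.adjoin E {u}) L]
    (P₁ P₂ : Ideal (Overlap O u)) [P₁.IsPrime] [P₂.IsPrime]
    (hzero : IsNodalChart π u (P₁.comap (toOverlapZero O u)) (P₂.comap (toOverlapZero O u)))
    (hsep : ∀ M : Ideal (Chart O u⁻¹), M.IsMaximal → ChartInf.tInf u ∈ M →
      P₁.comap (toOverlapInf O u) ≤ M → P₂.comap (toOverlapInf O u) ≤ M → False)
    (hreg₁ : ∀ M : Ideal (Chart O u⁻¹), M.IsMaximal → ChartInf.tInf u ∈ M →
      P₁.comap (toOverlapInf O u) ≤ M →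
      ∃ θ ∈ M, ∀ y ∈ M, ∃ c, c ∉ M ∧ c * y ∈ P₁.comap (toOverlapInf O u) ⊔ Ideal.span {θ})
    (hreg₂ : ∀ M : Ideal (Chart O u⁻¹), M.IsMaximal → ChartInf.tInf u ∈ M →
      P₂.comap (toOverlapInf O u) ≤ M →
      ∃ θ ∈ M, ∀ y ∈ M, ∃ c, c ∉ M ∧ c * y ∈ P₂.comap (toOverlapInf O u) ⊔ Ideal.span {θ}) :
    IsNodalChart π u⁻¹ (P₁.comap (toOverlapInf O u)) (P₂.comap (toOverlapInf O u)) := by
  have hu0 : u ≠ 0 := fun h0 => hu (h0 ▸ isAlgebraic_zero)
  have hu' : Transcendental E u⁻¹ := fun h => hu (by simpa using h.inv)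
  have hK : IntermediateField.adjoin E {u⁻¹} = IntermediateField.adjoin E {u} := by
    apply le_antisymm
    · rw [IntermediateField.adjoin_simple_le_iff]
      exact inv_mem (IntermediateField.mem_adjoin_simple_self E u)
    · rw [IntermediateField.adjoin_simple_le_iff]
      have := inv_mem (IntermediateField.mem_adjoin_simple_self E u⁻¹)
      simpa using this
  have : FiniteDimensional (IntermediateField.adjoin E {u⁻¹}) L := by
    rw [hK]; infer_instance
  have := ChartProv.chart_finite (O := O) (E := E) u⁻¹ hu'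
  have : IsNoetherianRing (Algebra.adjoin O ({u⁻¹} : Set L)) :=
    isNoetherianRing_adjoin_singleton u⁻¹
  have : IsNoetherianRing (Chart O u⁻¹) :=
    IsNoetherianRing.of_finite (Algebra.adjoin O ({u⁻¹} : Set L)) _
  have hπL : algebraMap O L π ≠ 0 := fun h0 =>
    hπ.ne_zero (ChartProv.algebraMap_injective_base O E L (h0.trans (map_zero _).symm))
  have hπmax : (Ideal.span {π}).IsMaximal := by
    rw [← hπ.maximalIdeal_eq]
    exact IsLocalRing.maximalIdeal.isMaximal O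
  exact isNodalChart_inf_of_nzd π hπmax hπL u hu0
    (fun x hx h => ChartProv.chart_nzd (E := E) π hπ u⁻¹ hu' x hx h) P₁ P₂ hzero hsep hreg₁ hreg₂

/-- The standing facts on the chart `u⁻¹` in the setting of `Model/Assembly`. -/
theorem chart_inf_facts (π : O) (hπ : Irreducible π) (u : L) (hu : Transcendental E u)
    [FiniteDimensional (IntermediateField.adjoin E {u}) L] :
    u ≠ 0 ∧ algebraMap O L π ≠ 0 ∧ (Ideal.span {π}).IsMaximal ∧
      IsNoetherianRing (Chart O u⁻¹) ∧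
      ∀ x : L, IsIntegral (Algebra.adjoin O ({u⁻¹} : Set L)) x →
        IsIntegral (Algebra.adjoin O ({u⁻¹} : Set L)) (u⁻¹ * x / algebraMap O L π) →
        IsIntegral (Algebra.adjoin O ({u⁻¹} : Set L)) (x / algebraMap O L π) := by
  have hu0 : u ≠ 0 := fun h0 => hu (h0 ▸ isAlgebraic_zero)
  have hu' : Transcendental E u⁻¹ := fun h => hu (by simpa using h.inv)
  have hK : IntermediateField.adjoin E {u⁻¹} = IntermediateField.adjoin E {u} := by
    apply le_antisymm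
    · rw [IntermediateField.adjoin_simple_le_iff]
      exact inv_mem (IntermediateField.mem_adjoin_simple_self E u)
    · rw [IntermediateField.adjoin_simple_le_iff]
      have := inv_mem (IntermediateField.mem_adjoin_simple_self E u⁻¹)
      simpa using this
  have : FiniteDimensional (IntermediateField.adjoin E {u⁻¹}) L := by
    rw [hK]; infer_instance
  have := ChartProv.chart_finite (O := O) (E := E) u⁻¹ hu'
  have : IsNoetherianRing (Algebra.adjoin O ({u⁻¹} : Set L)) :=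
    isNoetherianRing_adjoin_singleton u⁻¹
  have hN : IsNoetherianRing (Chart O u⁻¹) :=
    IsNoetherianRing.of_finite (Algebra.adjoin O ({u⁻¹} : Set L)) _
  have hπL : algebraMap O L π ≠ 0 := fun h0 =>
    hπ.ne_zero (ChartProv.algebraMap_injective_base O E L (h0.trans (map_zero _).symm))
  have hπmax : (Ideal.span {π}).IsMaximal := by
    rw [← hπ.maximalIdeal_eq]
    exact IsLocalRing.maximalIdeal.isMaximal O
  exact ⟨hu0, hπL, hπmax, hN,
    fun x hx h => ChartProv.chart_nzd (E := E) π hπ u⁻¹ hu' x hx h⟩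

/-- **Chart transfer of the Dedekind property of one component**: `B_∞ ⧸ p^∞` is a Dedekind
domain if `B_0 ⧸ p^0` is and `p^∞` is locally principal at the maximal ideals over
`u⁻¹ = 0`. -/
theorem isDedekindDomain_inf (π : O) (hπ : Irreducible π) (u : L) (hu : Transcendental E u)
    [FiniteDimensional (IntermediateField.adjoin E {u}) L]
    (P : Ideal (Overlap O u)) [P.IsPrime]
    (hded : IsDedekindDomain (Chart O u ⧸ P.comap (toOverlapZero O u)))
    (hπP : piElt (Algebra.adjoin O ({u⁻¹} : Set L)) π ∈ P.comap (toOverlapInf O u))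
    (hreg : ∀ M : Ideal (Chart O u⁻¹), M.IsMaximal → ChartInf.tInf u ∈ M →
      P.comap (toOverlapInf O u) ≤ M →
      ∃ θ ∈ M, ∀ y ∈ M, ∃ c, c ∉ M ∧ c * y ∈ P.comap (toOverlapInf O u) ⊔ Ideal.span {θ}) :
    IsDedekindDomain (Chart O u⁻¹ ⧸ P.comap (toOverlapInf O u)) := by
  obtain ⟨hu0, -, hπmax, hN, -⟩ := chart_inf_facts (E := E) π hπ u hu
  exact isDedekindDomain_inf_of_noetherian π hπmax u hu0 P hded hπP hreg

/-- **Chart transfer, with the Dedekind property of both components at infinity as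
hypotheses**: only `hsep` is needed at the points over `u⁻¹ = 0`. -/
theorem isNodalChart_inf_of_dedekind (π : O) (hπ : Irreducible π) (u : L)
    (hu : Transcendental E u) [FiniteDimensional (IntermediateField.adjoin E {u}) L]
    (P₁ P₂ : Ideal (Overlap O u)) [P₁.IsPrime] [P₂.IsPrime]
    (hzero : IsNodalChart π u (P₁.comap (toOverlapZero O u)) (P₂.comap (toOverlapZero O u)))
    (hsep : ∀ M : Ideal (Chart O u⁻¹), M.IsMaximal → ChartInf.tInf u ∈ M →
      P₁.comap (toOverlapInf O u) ≤ M → P₂.comap (toOverlapInf O u) ≤ M → False)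
    (hded₁ : IsDedekindDomain (Chart O u⁻¹ ⧸ P₁.comap (toOverlapInf O u)))
    (hded₂ : IsDedekindDomain (Chart O u⁻¹ ⧸ P₂.comap (toOverlapInf O u))) :
    IsNodalChart π u⁻¹ (P₁.comap (toOverlapInf O u)) (P₂.comap (toOverlapInf O u)) := by
  obtain ⟨hu0, hπL, -, -, hnzd⟩ := chart_inf_facts (E := E) π hπ u hu
  exact isNodalChart_inf_of_nzd_of_dedekind π hπL u hu0 hnzd P₁ P₂ hzero hsep hded₁ hded₂

/-- **Chart transfer, mixed form** (RULING #6): the first component at infinity is known to be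
Dedekind (globally), the second one is regular at its points over `u⁻¹ = 0`. -/
theorem isNodalChart_inf_of_dedekind_left (π : O) (hπ : Irreducible π) (u : L)
    (hu : Transcendental E u) [FiniteDimensional (IntermediateField.adjoin E {u}) L]
    (P₁ P₂ : Ideal (Overlap O u)) [P₁.IsPrime] [P₂.IsPrime]
    (hzero : IsNodalChart π u (P₁.comap (toOverlapZero O u)) (P₂.comap (toOverlapZero O u)))
    (hsep : ∀ M : Ideal (Chart O u⁻¹), M.IsMaximal → ChartInf.tInf u ∈ M →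
      P₁.comap (toOverlapInf O u) ≤ M → P₂.comap (toOverlapInf O u) ≤ M → False)
    (hded₁ : IsDedekindDomain (Chart O u⁻¹ ⧸ P₁.comap (toOverlapInf O u)))
    (hreg₂ : ∀ M : Ideal (Chart O u⁻¹), M.IsMaximal → ChartInf.tInf u ∈ M →
      P₂.comap (toOverlapInf O u) ≤ M →
      ∃ θ ∈ M, ∀ y ∈ M, ∃ c, c ∉ M ∧ c * y ∈ P₂.comap (toOverlapInf O u) ⊔ Ideal.span {θ}) :
    IsNodalChart π u⁻¹ (P₁.comap (toOverlapInf O u)) (P₂.comap (toOverlapInf O u)) :=
  isNodalChart_inf_of_dedekind π hπ u hu P₁ P₂ hzero hsep hded₁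
    (isDedekindDomain_inf π hπ u hu P₂ hzero.dedekind₂
      (piElt_mem_comap_toOverlapInf π u P₁ P₂ hzero).2 hreg₂)

/-- **Chart transfer, mixed form**: the second component at infinity is known to be Dedekind,
the first one is regular at its points over `u⁻¹ = 0`. -/
theorem isNodalChart_inf_of_dedekind_right (π : O) (hπ : Irreducible π) (u : L)
    (hu : Transcendental E u) [FiniteDimensional (IntermediateField.adjoin E {u}) L]
    (P₁ P₂ : Ideal (Overlap O u)) [P₁.IsPrime] [P₂.IsPrime]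
    (hzero : IsNodalChart π u (P₁.comap (toOverlapZero O u)) (P₂.comap (toOverlapZero O u)))
    (hsep : ∀ M : Ideal (Chart O u⁻¹), M.IsMaximal → ChartInf.tInf u ∈ M →
      P₁.comap (toOverlapInf O u) ≤ M → P₂.comap (toOverlapInf O u) ≤ M → False)
    (hreg₁ : ∀ M : Ideal (Chart O u⁻¹), M.IsMaximal → ChartInf.tInf u ∈ M →
      P₁.comap (toOverlapInf O u) ≤ M →
      ∃ θ ∈ M, ∀ y ∈ M, ∃ c, c ∉ M ∧ c * y ∈ P₁.comap (toOverlapInf O u) ⊔ Ideal.span {θ})
    (hded₂ : IsDedekindDomain (Chart O u⁻¹ ⧸ P₂.comap (toOverlapInf O u))) :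
    IsNodalChart π u⁻¹ (P₁.comap (toOverlapInf O u)) (P₂.comap (toOverlapInf O u)) :=
  isNodalChart_inf_of_dedekind π hπ u hu P₁ P₂ hzero hsep
    (isDedekindDomain_inf π hπ u hu P₁ hzero.dedekind₁
      (piElt_mem_comap_toOverlapInf π u P₁ P₂ hzero).1 hreg₁) hded₂

/-- **Chart transfer, `M B_M = (π, θ)` shape.**  For every maximal ideal `M` of the chart `u⁻¹`
containing `π` and `u⁻¹`: `M` does not contain both components, and `M = (π, θ)` locally at
`M`. -/
theorem isNodalChart_inf_of_hloc (π : O) (hπ : Irreducible π) (u : L) (hu : Transcendental E u)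
    [FiniteDimensional (IntermediateField.adjoin E {u}) L]
    (P₁ P₂ : Ideal (Overlap O u)) [P₁.IsPrime] [P₂.IsPrime]
    (hzero : IsNodalChart π u (P₁.comap (toOverlapZero O u)) (P₂.comap (toOverlapZero O u)))
    (hloc : ∀ M : Ideal (Chart O u⁻¹), M.IsMaximal →
      piElt (Algebra.adjoin O ({u⁻¹} : Set L)) π ∈ M → ChartInf.tInf u ∈ M →
      ¬ (P₁.comap (toOverlapInf O u) ≤ M ∧ P₂.comap (toOverlapInf O u) ≤ M) ∧
      ∃ θ ∈ M, ∃ c, c ∉ M ∧
        ∀ y ∈ M, c * y ∈ Ideal.span {piElt (Algebra.adjoin O ({u⁻¹} : Set L)) π, θ}) :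
    IsNodalChart π u⁻¹ (P₁.comap (toOverlapInf O u)) (P₂.comap (toOverlapInf O u)) := by
  obtain ⟨hπ1, hπ2⟩ := piElt_mem_comap_toOverlapInf π u P₁ P₂ hzero
  have hreg : ∀ p : Ideal (Chart O u⁻¹), piElt (Algebra.adjoin O ({u⁻¹} : Set L)) π ∈ p →
      ∀ M : Ideal (Chart O u⁻¹), M.IsMaximal → ChartInf.tInf u ∈ M → p ≤ M →
      ∃ θ ∈ M, ∀ y ∈ M, ∃ c, c ∉ M ∧ c * y ∈ p ⊔ Ideal.span {θ} := by
    intro p hπp M hM hs hpM
    obtain ⟨θ, hθ, c, hc, hgen⟩ := (hloc M hM (hpM hπp) hs).2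
    refine ⟨θ, hθ, fun y hy => ⟨c, hc, ?_⟩⟩
    have h1 := hgen y hy
    rw [Ideal.span_insert] at h1
    exact (sup_le_sup_right ((Ideal.span_singleton_le_iff_mem _).2 hπp) _) h1
  exact isNodalChart_inf π hπ u hu P₁ P₂ hzero
    (fun M hM hs h₁ h₂ => (hloc M hM (h₁ hπ1) hs).1 ⟨h₁, h₂⟩)
    (hreg _ hπ1) (hreg _ hπ2)

/-- The nodal datum with components `P₁`, `P₂`, from the chart `u` and the local conditions at
the maximal ideals over `u⁻¹ = 0`. -/
noncomputable def nodalDatum (π : O) (hπ : Irreducible π) (u : L) (hu : Transcendental E u)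
    [FiniteDimensional (IntermediateField.adjoin E {u}) L]
    (P₁ P₂ : Ideal (Overlap O u)) [h₁ : P₁.IsPrime] [h₂ : P₂.IsPrime]
    (hzero : IsNodalChart π u (P₁.comap (toOverlapZero O u)) (P₂.comap (toOverlapZero O u)))
    (hsep : ∀ M : Ideal (Chart O u⁻¹), M.IsMaximal → ChartInf.tInf u ∈ M →
      P₁.comap (toOverlapInf O u) ≤ M → P₂.comap (toOverlapInf O u) ≤ M → False)
    (hreg₁ : ∀ M : Ideal (Chart O u⁻¹), M.IsMaximal → ChartInf.tInf u ∈ M →
      P₁.comap (toOverlapInf O u) ≤ M →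
      ∃ θ ∈ M, ∀ y ∈ M, ∃ c, c ∉ M ∧ c * y ∈ P₁.comap (toOverlapInf O u) ⊔ Ideal.span {θ})
    (hreg₂ : ∀ M : Ideal (Chart O u⁻¹), M.IsMaximal → ChartInf.tInf u ∈ M →
      P₂.comap (toOverlapInf O u) ≤ M →
      ∃ θ ∈ M, ∀ y ∈ M, ∃ c, c ∉ M ∧ c * y ∈ P₂.comap (toOverlapInf O u) ⊔ Ideal.span {θ}) :
    NodalDatum π u where
  P₁ := P₁
  P₂ := P₂
  isPrime₁ := h₁
  isPrime₂ := h₂
  chartZero := hzero
  chartInf := isNodalChart_inf π hπ u hu P₁ P₂ hzero hsep hreg₁ hreg₂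

end Model

end Fermat.Agent.S34.Nodal.ChartTransfer
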