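import Fermat.Agent.S34.Nodal.Defs

/-!
# PROGRAM U: semilinear automorphisms of a nodal model act trivially on the special fibre

`σ` a semilinear automorphism of the model (`IsModelAut O u σ`).

* `IsModelAut.map_adjoin`, `IsModelAut.isIntegral` : `σ` preserves `O[t]` and its integral
  closure in `L` whenever `σ t = t` (in particular for `t = u`, `u⁻¹`).
* `NodalDatum.trivMod_zero`, `NodalDatum.trivMod_inf` : if `σ` acts trivially on the residue
  rings at BOTH components `P₁`, `P₂` (inertia), then `σ b - b ∈ π · B` for every `b` in the chart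
  ring `B` of `u`, resp. of `u⁻¹` — elementwise, the hypothesis (T) of step (ii).
-/

set_option autoImplicit false

open Fermat.Agent.S30.Model Fermat.Agent.S30.Model.GlueChart

namespace Fermat.Agent.S34.Nodal

variable {O L : Type*} [CommRing O] [Field L] [Algebra O L]

namespace IsModelAut

variable {u : L} {σ : L ≃+* L}

/-- A semilinear automorphism of the model preserves `O[t]` if it fixes `t`. -/
theorem map_adjoin (hσ : IsModelAut O u σ) {t : L} (ht : σ t = t) {s : L}
    (hs : s ∈ Algebra.adjoin O ({t} : Set L)) : σ s ∈ Algebra.adjoin O ({t} : Set L) := by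
  induction hs using Algebra.adjoin_induction with
  | mem x hx =>
    rw [Set.mem_singleton_iff] at hx
    subst hx
    rw [ht]
    exact Algebra.subset_adjoin (Set.mem_singleton _)
  | algebraMap r =>
    obtain ⟨a', ha'⟩ := hσ.map_base r
    rw [ha']
    exact Subalgebra.algebraMap_mem _ _
  | add x y _ _ hx hy =>
    rw [map_add]
    exact Subalgebra.add_mem _ hx hy
  | mul x y _ _ hx hy =>
    rw [map_mul]
    exact Subalgebra.mul_mem _ hx hy

/-- A semilinear automorphism of the model preserves integrality over `O[t]` if it fixes `t`. -/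
theorem isIntegral (hσ : IsModelAut O u σ) {t : L} (ht : σ t = t) {x : L}
    (hx : IsIntegral (Algebra.adjoin O ({t} : Set L)) x) :
    IsIntegral (Algebra.adjoin O ({t} : Set L)) (σ x) := by
  let φ : Algebra.adjoin O ({t} : Set L) →+* Algebra.adjoin O ({t} : Set L) :=
    { toFun := fun s => ⟨σ s.1, hσ.map_adjoin ht s.2⟩
      map_one' := Subtype.ext (map_one σ)
      map_mul' := fun a b => Subtype.ext (map_mul σ a.1 b.1)
      map_zero' := Subtype.ext (map_zero σ)
      map_add' := fun a b => Subtype.ext (map_add σ a.1 b.1) }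
  exact hx.map_of_comp_eq φ (σ : L →+* L) (by ext s; rfl)

theorem map_inv (hσ : IsModelAut O u σ) : σ u⁻¹ = u⁻¹ := by
  rw [map_inv₀, hσ.map_u]

end IsModelAut

namespace NodalDatum

variable {π : O} {u : L} (D : NodalDatum π u) {σ : L ≃+* L}

/-- **(T) on the chart `u`.**  If `σ` acts trivially on the residue rings at both components,
then `σ b - b ∈ π B` for every `b` in the chart ring `B` of `u`. -/
theorem trivMod_zero (hσ : IsModelAut O u σ) (h₁ : TrivialMod D.P₁ σ) (h₂ : TrivialMod D.P₂ σ)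
    (b : L) (hb : IsIntegral (Algebra.adjoin O ({u} : Set L)) b) :
    ∃ c : L, IsIntegral (Algebra.adjoin O ({u} : Set L)) c ∧
      σ b - b = algebraMap O L π * c := by
  have hd : IsIntegral (Algebra.adjoin O ({u} : Set L)) (σ b - b) :=
    (hσ.isIntegral hσ.map_u hb).sub hb
  let d : Chart O u := ⟨σ b - b, hd⟩
  let x : Overlap O u := toOverlapZero O u ⟨b, hb⟩
  obtain ⟨y₁, hy₁, e₁⟩ := h₁ x
  obtain ⟨y₂, hy₂, e₂⟩ := h₂ x
  have hd₁ : d ∈ D.P₁.comap (toOverlapZero O u) := by
    rw [Ideal.mem_comap]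
    have : toOverlapZero O u d = y₁ := Subtype.ext (by rw [e₁]; rfl)
    rw [this]; exact hy₁
  have hd₂ : d ∈ D.P₂.comap (toOverlapZero O u) := by
    rw [Ideal.mem_comap]
    have : toOverlapZero O u d = y₂ := Subtype.ext (by rw [e₂]; rfl)
    rw [this]; exact hy₂
  have hmem : d ∈ Ideal.span {piElt (Algebra.adjoin O ({u} : Set L)) π} := by
    rw [← D.chartZero.inf_eq]
    exact ⟨hd₁, hd₂⟩
  obtain ⟨c, hc⟩ := Ideal.mem_span_singleton.mp hmem
  refine ⟨c.1, c.2, ?_⟩
  have := congrArg Subtype.val hc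
  rw [Subalgebra.coe_mul, coe_piElt] at this
  exact this

/-- **(T) on the chart `u⁻¹`.** -/
theorem trivMod_inf (hσ : IsModelAut O u σ) (h₁ : TrivialMod D.P₁ σ) (h₂ : TrivialMod D.P₂ σ)
    (b : L) (hb : IsIntegral (Algebra.adjoin O ({u⁻¹} : Set L)) b) :
    ∃ c : L, IsIntegral (Algebra.adjoin O ({u⁻¹} : Set L)) c ∧
      σ b - b = algebraMap O L π * c := by
  have hd : IsIntegral (Algebra.adjoin O ({u⁻¹} : Set L)) (σ b - b) :=
    (hσ.isIntegral hσ.map_inv hb).sub hb
  let d : Chart O u⁻¹ := ⟨σ b - b, hd⟩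
  let x : Overlap O u := toOverlapInf O u ⟨b, hb⟩
  obtain ⟨y₁, hy₁, e₁⟩ := h₁ x
  obtain ⟨y₂, hy₂, e₂⟩ := h₂ x
  have hd₁ : d ∈ D.P₁.comap (toOverlapInf O u) := by
    rw [Ideal.mem_comap]
    have : toOverlapInf O u d = y₁ := Subtype.ext (by rw [e₁]; rfl)
    rw [this]; exact hy₁
  have hd₂ : d ∈ D.P₂.comap (toOverlapInf O u) := by
    rw [Ideal.mem_comap]
    have : toOverlapInf O u d = y₂ := Subtype.ext (by rw [e₂]; rfl)
    rw [this]; exact hy₂
  have hmem : d ∈ Ideal.span {piElt (Algebra.adjoin O ({u⁻¹} : Set L)) π} := by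
    rw [← D.chartInf.inf_eq]
    exact ⟨hd₁, hd₂⟩
  obtain ⟨c, hc⟩ := Ideal.mem_span_singleton.mp hmem
  refine ⟨c.1, c.2, ?_⟩
  have := congrArg Subtype.val hc
  rw [Subalgebra.coe_mul, coe_piElt] at this
  exact this

end NodalDatum

end Fermat.Agent.S34.Nodal
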