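import Fermat.Agent.S34.Nodal.Aut
import Fermat.Agent.S34.ToricInertiaConv
import Fermat.Agent.S30.Model.ChartProv

/-!
# PROGRAM U: the `K`-level exit of step (ii), from (T) and (S)

`inj_ss_of_cartier` : for a nodal datum `D`, a semilinear automorphism `σ` of the model acting
trivially on the residue rings at both components (`TrivialMod D.P₁ σ`, `TrivialMod D.P₂ σ`),
and `h ≠ 0` with `(1/m) div h` invertible on both charts (`CartierRoot`, the output (S) of the
nodal geometry):  if `θ ^ m = σ h / h` generates a field `M = L(θ)` in which `O` is integrally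
closed, then `σ h / h` is an `m`-th power in `L`.

This is `ToricInertia.mem_range_of_cartierRoot` (helper244) with its hypotheses `TrivMod`,
`hfin`, `hinj`, … discharged from the contract (`Nodal/Aut.lean`, `ChartProv.chart_finite`).
-/

set_option autoImplicit false

open Polynomial
open Fermat.Agent.S30.Model Fermat.Agent.S30.Model.GlueChart

namespace Fermat.Agent.S34.Nodal

section Exit

variable {O E L : Type*} [CommRing O] [IsDomain O] [IsDiscreteValuationRing O]
  [Field E] [CharZero E] [Algebra O E] [IsFractionRing O E]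
  [Field L] [Algebra E L] [Algebra O L] [IsScalarTower O E L]

/-- Finiteness of the chart ring of a finite extension `M` of `L`, in the shape consumed by
`CechP1.connected` / `ToricInertia.mem_range_of_cartierRoot`. -/
theorem hfin_of_adjoin (u : L) (hu : Transcendental E u)
    [FiniteDimensional (IntermediateField.adjoin E {u}) L]
    (M : Type*) [Field M] [Algebra L M] [Algebra O M] [IsScalarTower O L M]
    [FiniteDimensional L M] :
    ∃ s : Finset M, (∀ β ∈ s, IsIntegral (Algebra.adjoin O {algebraMap L M u}) β) ∧
      ∀ x : M, IsIntegral (Algebra.adjoin O {algebraMap L M u}) x →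
        ∃ f : M → O[X], x = ∑ β ∈ s, aeval (algebraMap L M u) (f β) * β := by
  let _ : Algebra E M := ((algebraMap L M).comp (algebraMap E L)).toAlgebra
  have : IsScalarTower E L M := IsScalarTower.of_algebraMap_eq (fun _ => rfl)
  have : IsScalarTower O E M := IsScalarTower.of_algebraMap_eq (fun x => by
    rw [IsScalarTower.algebraMap_apply O L M, IsScalarTower.algebraMap_apply O E L]
    rfl)
  have hu' : Transcendental E (algebraMap L M u) :=
    (transcendental_algebraMap_iff (algebraMap L M).injective).mpr hu
  set K : IntermediateField E L := IntermediateField.adjoin E {u} with hK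
  set φ : L →ₐ[E] M := IsScalarTower.toAlgHom E L M with hφ
  have hKmap : IntermediateField.adjoin E {algebraMap L M u} = K.map φ := by
    rw [hK, IntermediateField.adjoin_map, Set.image_singleton]
    rfl
  have : Module.Finite K M := Module.Finite.trans L M
  have hfd : FiniteDimensional (K.map φ) M :=
    Module.Finite.of_equiv_equiv (K.equivMap φ).toRingEquiv (RingEquiv.refl M)
      (RingHom.ext fun k => rfl)
  have : FiniteDimensional (IntermediateField.adjoin E {algebraMap L M u}) M := by
    rw [hKmap]; exact hfd
  have := ChartProv.chart_finite (O := O) (E := E) (algebraMap L M u) hu'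
  exact CechP1.hfin_of_finite (algebraMap L M u)

/-- **`K`-level exit of step (ii).**  (T) + (S) ⟹ `σ h / h` is an `m`-th power. -/
theorem inj_ss_of_cartier (π : O) (hπ : Irreducible π) (u : L) (hu : Transcendental E u)
    [FiniteDimensional (IntermediateField.adjoin E {u}) L]
    (D : NodalDatum π u)
    (m : ℕ) (hm : IsUnit (m : O)) (ζ : O) (hζ : IsPrimitiveRoot ζ m)
    (σ : L ≃+* L) (hσ : IsModelAut O u σ) (h₁ : TrivialMod D.P₁ σ) (h₂ : TrivialMod D.P₂ σ)
    (h : L) (hh : h ≠ 0)
    (hC0 : ToricInertia.CartierRoot O ({u} : Set L) m h)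
    (hCinf : ToricInertia.CartierRoot O ({u⁻¹} : Set L) m h)
    (M : Type*) [Field M] [Algebra L M] [Algebra O M] [IsScalarTower O L M]
    (θ : M) (hθ : θ ^ m = algebraMap L M (σ h / h)) (hgen : Algebra.adjoin L {θ} = ⊤)
    (hOM : ∀ x : M, IsIntegral O x → ∃ a : O, algebraMap O M a = x) :
    ∃ g : L, σ h / h = g ^ m := by
  have hm0 : 0 < m := by
    rcases Nat.eq_zero_or_pos m with rfl | h0
    · simp at hm
    · exact h0
  have hu0 : u ≠ 0 := fun h0 => hu (h0 ▸ isAlgebraic_zero)
  have hinj : Function.Injective (algebraMap O L) := ChartProv.algebraMap_injective_base O E L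
  have hθint : IsIntegral L θ := by
    refine ⟨X ^ m - C (σ h / h), monic_X_pow_sub_C _ hm0.ne', ?_⟩
    simp [hθ]
  have : FiniteDimensional L M := by
    have hfg : (Algebra.adjoin L {θ}).toSubmodule.FG := hθint.fg_adjoin_singleton
    rw [hgen, Algebra.top_toSubmodule] at hfg
    exact ⟨hfg⟩
  have hgen' : IntermediateField.adjoin L {θ} = ⊤ := by
    rw [eq_top_iff]
    intro x _
    have hx : x ∈ Algebra.adjoin L {θ} := by rw [hgen]; exact Algebra.mem_top
    exact IntermediateField.algebra_adjoin_le_adjoin L _ hx
  have key := ToricInertia.mem_range_of_cartierRoot (O := O) (F := L) (L := M) π hπ hinj u hu0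
    m hm0 hm ζ hζ σ hσ.map_u hσ.map_base
    (fun b hb => D.trivMod_zero hσ h₁ h₂ b hb) (fun b hb => D.trivMod_inf hσ h₁ h₂ b hb)
    h hh hC0 hCinf hOM (hfin_of_adjoin (O := O) (E := E) u hu M) θ hθ hgen'
  obtain ⟨g, hg⟩ := key
  refine ⟨g, ?_⟩
  apply (algebraMap L M).injective
  rw [map_pow, hg, hθ]

end Exit

end Fermat.Agent.S34.Nodal
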