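import Fermat.Agent.S34.Nodal.Exit
import Fermat.Agent.S34.ToricSectionRad

/-!
# The `K`-level exit of the RADICAL toric-section lemma (non-reduced special fibre allowed)

Setting of `S30/Model/Main.lean` (`O` a DVR, `E = Frac O` of characteristic `0`, `L / E(u)` finite).
`exists_pow_eq_of_sections_rad` : for `k : L`, `k ≠ 0`, and "sections" `s0`, `sinf : L` such that
`s0 ^ m / k` is a chart-zero function which is `≡ 1` modulo the RADICAL of `π`
(`(s0 ^ m / k - 1) ^ N ∈ π B₀`), likewise `sinf` on the chart of `u⁻¹`, and `(s0 - sinf) ^ m / k`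
is an overlap function which is nilpotent modulo `π`: if `θ ^ m = k` generates a field
`M = L(θ)` in which `O` is integrally closed, then `k` is an `m`-th power in `L`.

This is `ToricInertia.mem_range_of_sections_rad` with `hfin`, `hinj`, `u ≠ 0`, `0 < m`
discharged exactly as in `Nodal/ExitSection.lean`.  No reducedness of the special fibre is used:
the components may have any multiplicity.
-/

set_option autoImplicit false

open Polynomial
open Fermat.Agent.S30.Model

namespace Fermat.Agent.S34.Nodal

section ExitSectionRad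

variable {O E L : Type*} [CommRing O] [IsDomain O] [IsDiscreteValuationRing O]
  [Field E] [CharZero E] [Algebra O E] [IsFractionRing O E]
  [Field L] [Algebra E L] [Algebra O L] [IsScalarTower O E L]

/-- **`K`-level exit of the radical TORIC-SECTION lemma.** -/
theorem exists_pow_eq_of_sections_rad (π : O) (hπ : Irreducible π) (u : L)
    (hu : Transcendental E u) [FiniteDimensional (IntermediateField.adjoin E {u}) L]
    (m : ℕ) (hm : IsUnit (m : O)) (ζ : O) (hζ : IsPrimitiveRoot ζ m)
    (k : L) (hk : k ≠ 0) (s0 sinf : L)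
    (h0 : ∃ (b0 a0 : L) (N : ℕ), IsIntegral (Algebra.adjoin O ({u} : Set L)) b0 ∧
      IsIntegral (Algebra.adjoin O ({u} : Set L)) a0 ∧ s0 ^ m = k * b0 ∧
      (b0 - 1) ^ N = algebraMap O L π * a0)
    (hinf : ∃ (binf ainf : L) (N : ℕ), IsIntegral (Algebra.adjoin O ({u⁻¹} : Set L)) binf ∧
      IsIntegral (Algebra.adjoin O ({u⁻¹} : Set L)) ainf ∧ sinf ^ m = k * binf ∧
      (binf - 1) ^ N = algebraMap O L π * ainf)
    (h0inf : ∃ (b w : L) (N : ℕ), IsIntegral (Algebra.adjoin O ({u, u⁻¹} : Set L)) b ∧
      IsIntegral (Algebra.adjoin O ({u, u⁻¹} : Set L)) w ∧ (s0 - sinf) ^ m = k * b ∧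
      b ^ N = algebraMap O L π * w)
    (M : Type*) [Field M] [Algebra L M] [Algebra O M] [IsScalarTower O L M]
    (θ : M) (hθ : θ ^ m = algebraMap L M k) (hgen : Algebra.adjoin L {θ} = ⊤)
    (hOM : ∀ x : M, IsIntegral O x → ∃ a : O, algebraMap O M a = x) :
    ∃ g : L, k = g ^ m := by
  have hm0 : 0 < m := by
    rcases Nat.eq_zero_or_pos m with rfl | h0
    · simp at hm
    · exact h0
  have hu0 : u ≠ 0 := fun h0 => hu (h0 ▸ isAlgebraic_zero)
  have hinj : Function.Injective (algebraMap O L) := ChartProv.algebraMap_injective_base O E L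
  have hθint : IsIntegral L θ := by
    refine ⟨X ^ m - C k, monic_X_pow_sub_C _ hm0.ne', ?_⟩
    simp [hθ]
  have : FiniteDimensional L M := by
    have hfg : (Algebra.adjoin L {θ}).toSubmodule.FG := hθint.fg_adjoin_singleton
    rw [hgen, Algebra.top_toSubmodule] at hfg
    exact ⟨hfg⟩
  have hgen' : IntermediateField.adjoin L {θ} = ⊤ := by
    rw [eq_top_iff]
    intro x _
    have hx : x ∈ Algebra.adjoin L {θ} := by rw [hgen]; exact Algebra.mem_top
    exact IntermediateField.algebra_adjoin_le_adjoin L _ hx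
  have key := ToricInertia.mem_range_of_sections_rad (O := O) (F := L) (L := M) π hπ hinj u hu0
    m hm0 hm ζ hζ k hk s0 sinf h0 hinf h0inf hOM (hfin_of_adjoin (O := O) (E := E) u hu M) θ hθ
    hgen'
  obtain ⟨g, hg⟩ := key
  refine ⟨g, ?_⟩
  apply (algebraMap L M).injective
  rw [map_pow, hg, hθ]

end ExitSectionRad

end Fermat.Agent.S34.Nodal
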