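import Fermat.Agent.S34.Nodal.Transfer
import Fermat.Agent.S34.ToricInertiaConv

/-!
# PROGRAM U: INSURANCE / documentation statements (not on the critical path)

* `IsNodalChart.star` : target of the (frozen) discriminant chain: (STAR) at every maximal ideal
  of one chart, with `hsep : GaussUnram π t`.  With `ToricInertia.cartierRoot_of_star` it gives
  the chart-level exit `IsNodalChart.cartierRoot` of `Nodal/Main.lean` under the extra `hsep`.
* `inj_ss_swapping` : S35 documentation of the `(C2')` relation (sub-captain helper94 decides the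
  final shape).
-/

set_option autoImplicit false

open Polynomial
open Fermat.Agent.S30.Model Fermat.Agent.S30.Model.GlueChart

namespace Fermat.Agent.S34.Nodal

section Insurance

variable {O E L : Type*} [CommRing O] [IsDomain O] [IsDiscreteValuationRing O]
  [Field E] [CharZero E] [Algebra O E] [IsFractionRing O E]
  [Field L] [Algebra E L] [Algebra O L] [IsScalarTower O E L]

/-- **(STAR) on one chart** (target of the discriminant chain; insurance).  `B` the chart ring of
`t` with nodal special fibre `V(p₁) ∪ V(p₂)`, `π ∤ disc(B / O[t])`; `h ≡ 1` at `p₁` and `p₂`,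
`m ∣ div h` on the chart (`m ∈ O^×`, `μ_m ⊂ O`).  Then at every maximal ideal `M` of `B`, `h` is
an `m`-th power times a unit of `B_M`. -/
theorem IsNodalChart.star (π : O) (hπ : Irreducible π) (t : L) (ht : Transcendental E t)
    [FiniteDimensional (IntermediateField.adjoin E {t}) L] (halg : AlgClosedIn E L)
    {p₁ p₂ : Ideal (Chart O t)} (hN : IsNodalChart π t p₁ p₂)
    (hsep : GaussUnram (E := E) π t)
    (m : ℕ) (hm : IsUnit (m : O)) (ζ : O) (hζ : IsPrimitiveRoot ζ m)
    (h : L) (h₁ : CongrOneAtChart p₁ h) (h₂ : CongrOneAtChart p₂ h)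
    (hdiv : LocPow (E := E) m t h)
    (M : Ideal (Chart O t)) (hM : M.IsMaximal) :
    ToricInertia.Star O ({t} : Set L) m h M := by
  sorry

/-- **(INJ-ss), component-swapping case** (S35 only; documentation of the `(C2')` relation with
`σ = φ ∘ W`, `a = l`).  `σ` a semilinear automorphism of the nodal model fixing the crossing
points, exchanging the two components, with `σ ζ = ζ ^ a`, `a` prime to `m`; `h` toric with
`m ∣ div h`.  Then `σ h * h ^ a` is a constant times an `m`-th power. -/
theorem inj_ss_swapping (π : O) (hπ : Irreducible π) (u : L) (hu : Transcendental E u)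
    [FiniteDimensional (IntermediateField.adjoin E {u}) L] (halg : AlgClosedIn E L)
    (D : NodalDatum π u)
    (m : ℕ) (hm : IsUnit (m : O)) (ζ : O) (hζ : IsPrimitiveRoot ζ m)
    (σ : L ≃+* L) (hσ : D.IsAut σ) (hswap : D.Swaps σ)
    (a : ℕ) (ha : a.Coprime m) (hσζ : σ (algebraMap O L ζ) = algebraMap O L ζ ^ a)
    (h : L) (hh : D.Toric h)
    (hdiv : LocPow (E := E) m u h) (hdiv' : LocPow (E := E) m u⁻¹ h) :
    ∃ (c : E) (g : L), σ h * h ^ a = algebraMap E L c * g ^ m := by
  sorry

end Insurance

end Fermat.Agent.S34.Nodal
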