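import Fermat.Agent.S30.Model.Main

/-!
# PROGRAM U: `LocPow` is multiplicative

`Model.LocPow m t g` ("`m ∣ ord_P g` at every closed point of the `t`-line") is closed under
products, powers and inverses, for `t` transcendental over `E`.  This is the bridge between the
two landed shapes of the `K`-level swap exit of S35:

* `S34/Nodal/SwapExit.inj_ss_swap` asks for `LocPow m u (σ h * h ^ c)` (on `u` and `u⁻¹`);
* `S35/RootGlueFrob.SwapExit` supplies `LocPow m u h` and `LocPow m u (σ h)` (on `u` and `u⁻¹`).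

Contents:

* `isIntegralAt_mul`, `isIntegralAt_pow`, `isIntegralAt_one` : `Model.IsIntegralAt` at the prime
  `f(t)` of `E[t]` is closed under products (`f` irreducible, `t` transcendental);
* `locPow_mul`, `locPow_pow`, `locPow_one`, `locPow_inv` : the closure properties of `LocPow`;
* `locPow_mul_pow` : `LocPow m t g₁ → LocPow m t g₂ → LocPow m t (g₁ * g₂ ^ c)`.
-/

set_option autoImplicit false

open Polynomial

namespace Fermat.Agent.S34.Nodal.LocPowAlg

open Fermat.Agent.S30.Model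

variable {E L : Type*} [Field E] [Field L] [Algebra E L]

/-- For `t` transcendental and `f` irreducible, `f(t)` is a prime element of `E[t]`: a product of
two elements of `E[t]` not divisible by `f(t)` is not divisible by `f(t)`. -/
theorem not_dvd_mul {t : L} (ht : Transcendental E t) {f : E[X]} (hf : Irreducible f)
    {s₁ s₂ : L} (h₁ : s₁ ∈ Algebra.adjoin E ({t} : Set L))
    (h₂ : s₂ ∈ Algebra.adjoin E ({t} : Set L))
    (n₁ : ∀ c : L, c ∈ Algebra.adjoin E ({t} : Set L) → s₁ ≠ aeval t f * c)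
    (n₂ : ∀ c : L, c ∈ Algebra.adjoin E ({t} : Set L) → s₂ ≠ aeval t f * c) :
    ∀ c : L, c ∈ Algebra.adjoin E ({t} : Set L) → s₁ * s₂ ≠ aeval t f * c := by
  intro c hc e
  rw [Algebra.adjoin_singleton_eq_range_aeval] at h₁ h₂ hc
  obtain ⟨a₁, rfl⟩ := h₁
  obtain ⟨a₂, rfl⟩ := h₂
  obtain ⟨b, rfl⟩ := hc
  have hinj : Function.Injective (aeval (R := E) t) := transcendental_iff_injective.mp ht
  have e' : a₁ * a₂ = f * b := by
    apply hinj
    rw [map_mul, map_mul]
    exact e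
  have hdvd : f ∣ a₁ * a₂ := ⟨b, e'⟩
  rcases hf.prime.dvd_or_dvd hdvd with ⟨d, rfl⟩ | ⟨d, rfl⟩
  · exact n₁ (aeval t d) (by rw [Algebra.adjoin_singleton_eq_range_aeval]; exact ⟨d, rfl⟩)
      (map_mul _ _ _)
  · exact n₂ (aeval t d) (by rw [Algebra.adjoin_singleton_eq_range_aeval]; exact ⟨d, rfl⟩)
      (map_mul _ _ _)

/-- `1` is integral at `f(t)`. -/
theorem isIntegralAt_one {t : L} (ht : Transcendental E t) {f : E[X]} (hf : Irreducible f) :
    IsIntegralAt (Algebra.adjoin E ({t} : Set L)) (aeval t f) (1 : L) := by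
  refine ⟨1, one_mem _, ?_, ?_⟩
  · intro c hc e
    rw [Algebra.adjoin_singleton_eq_range_aeval] at hc
    obtain ⟨b, rfl⟩ := hc
    have hinj : Function.Injective (aeval (R := E) t) := transcendental_iff_injective.mp ht
    have e' : (1 : E[X]) = f * b := by
      apply hinj
      rw [map_mul, map_one]
      exact e
    exact hf.not_isUnit (IsUnit.of_mul_eq_one b e'.symm)
  · rw [one_mul]
    exact isIntegral_one

/-- Integrality at `f(t)` is closed under products. -/
theorem isIntegralAt_mul {t : L} (ht : Transcendental E t) {f : E[X]} (hf : Irreducible f)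
    {z₁ z₂ : L} (h₁ : IsIntegralAt (Algebra.adjoin E ({t} : Set L)) (aeval t f) z₁)
    (h₂ : IsIntegralAt (Algebra.adjoin E ({t} : Set L)) (aeval t f) z₂) :
    IsIntegralAt (Algebra.adjoin E ({t} : Set L)) (aeval t f) (z₁ * z₂) := by
  obtain ⟨s₁, hs₁, n₁, i₁⟩ := h₁
  obtain ⟨s₂, hs₂, n₂, i₂⟩ := h₂
  refine ⟨s₁ * s₂, mul_mem hs₁ hs₂, not_dvd_mul ht hf hs₁ hs₂ n₁ n₂, ?_⟩
  have e : s₁ * s₂ * (z₁ * z₂) = (s₁ * z₁) * (s₂ * z₂) := by ring
  rw [e]
  exact i₁.mul i₂

/-- Integrality at `f(t)` is closed under powers. -/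
theorem isIntegralAt_pow {t : L} (ht : Transcendental E t) {f : E[X]} (hf : Irreducible f)
    {z : L} (h : IsIntegralAt (Algebra.adjoin E ({t} : Set L)) (aeval t f) z) (c : ℕ) :
    IsIntegralAt (Algebra.adjoin E ({t} : Set L)) (aeval t f) (z ^ c) := by
  induction c with
  | zero => rw [pow_zero]; exact isIntegralAt_one ht hf
  | succ n ih => rw [pow_succ]; exact isIntegralAt_mul ht hf ih h

/-- `LocPow m t 1`. -/
theorem locPow_one {t : L} (ht : Transcendental E t) (m : ℕ) : LocPow (E := E) m t (1 : L) := by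
  intro f hf
  refine ⟨1, one_ne_zero, ?_, ?_⟩
  · rw [one_pow, div_one]; exact isIntegralAt_one ht hf
  · rw [one_pow, div_one]; exact isIntegralAt_one ht hf

/-- **`LocPow` is closed under products.** -/
theorem locPow_mul {t : L} (ht : Transcendental E t) {m : ℕ} {g₁ g₂ : L}
    (h₁ : LocPow (E := E) m t g₁) (h₂ : LocPow (E := E) m t g₂) :
    LocPow (E := E) m t (g₁ * g₂) := by
  intro f hf
  obtain ⟨τ₁, hτ₁, a₁, b₁⟩ := h₁ f hf
  obtain ⟨τ₂, hτ₂, a₂, b₂⟩ := h₂ f hf
  refine ⟨τ₁ * τ₂, mul_ne_zero hτ₁ hτ₂, ?_, ?_⟩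
  · have e : g₁ * g₂ / (τ₁ * τ₂) ^ m = (g₁ / τ₁ ^ m) * (g₂ / τ₂ ^ m) := by
      rw [mul_pow, mul_div_mul_comm]
    rw [e]
    exact isIntegralAt_mul ht hf a₁ a₂
  · have e : (τ₁ * τ₂) ^ m / (g₁ * g₂) = (τ₁ ^ m / g₁) * (τ₂ ^ m / g₂) := by
      rw [mul_pow, mul_div_mul_comm]
    rw [e]
    exact isIntegralAt_mul ht hf b₁ b₂

/-- **`LocPow` is closed under powers.** -/
theorem locPow_pow {t : L} (ht : Transcendental E t) {m : ℕ} {g : L}
    (h : LocPow (E := E) m t g) (c : ℕ) : LocPow (E := E) m t (g ^ c) := by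
  induction c with
  | zero => rw [pow_zero]; exact locPow_one ht m
  | succ n ih => rw [pow_succ]; exact locPow_mul ht ih h

/-- **`LocPow` is closed under inverses.** -/
theorem locPow_inv {t : L} {m : ℕ} {g : L} (h : LocPow (E := E) m t g) :
    LocPow (E := E) m t g⁻¹ := by
  intro f hf
  obtain ⟨τ, hτ, a, b⟩ := h f hf
  refine ⟨τ⁻¹, inv_ne_zero hτ, ?_, ?_⟩
  · have e : g⁻¹ / τ⁻¹ ^ m = τ ^ m / g := by
      rw [inv_pow, div_inv_eq_mul, mul_comm, div_eq_mul_inv]
    rw [e]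
    exact b
  · have e : τ⁻¹ ^ m / g⁻¹ = g / τ ^ m := by
      rw [inv_pow, div_inv_eq_mul, mul_comm, div_eq_mul_inv]
    rw [e]
    exact a

/-- **The shape of the relation `(C2')`**: `LocPow` of `g₁ * g₂ ^ c` from `LocPow` of `g₁` and
of `g₂` (`g₁ = σ h`, `g₂ = h`). -/
theorem locPow_mul_pow {t : L} (ht : Transcendental E t) {m : ℕ} {g₁ g₂ : L}
    (h₁ : LocPow (E := E) m t g₁) (h₂ : LocPow (E := E) m t g₂) (c : ℕ) :
    LocPow (E := E) m t (g₁ * g₂ ^ c) :=
  locPow_mul ht h₁ (locPow_pow ht h₂ c)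

end Fermat.Agent.S34.Nodal.LocPowAlg
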