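import Fermat.Agent.S34.Nodal.Transfer
import Fermat.Agent.S34.Nodal.Exit
import Fermat.Agent.S34.CartPair.Final

/-!
# PROGRAM U (S34 / S35): the `K`-level NODAL CONTRACT — exit statements (v5, SORRY-FREE)

v4 = captain's RULING #5: step (S) is proved by CartPair, so `hsep : GaussUnram π u` is DROPPED
from every exit.  The abstract coordinate `u` is any parameter with a `NodalDatum`.

Setting of `S30/Model/Main.lean` plus a `NodalDatum` (`Nodal/Defs.lean`).

* `IsNodalChart.cartierRoot` : **the chart-level exit of CartPair** (`CartPair/Final.lean`,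
  PROVED): on ONE chart `t` with nodal special fibre, `h ≡ 1` at `p₁` and
  at `p₂` and `m ∣ div h` on the chart imply that `(1/m) div h` is an invertible divisor on the
  chart (`ToricInertia.CartierRoot`).
* `cartier_of_toric` : **(S), toric ⇒ CARTIER** on both charts of a nodal datum
  (= the chart-level exit on `u` and on `u⁻¹` + `Nodal/Transfer.lean`).
* `inj_ss_inertia` : **the `K`-level (INJ-ss)** consumed by the bridge to `Q̄` (S34)
  (= `Nodal/Exit.lean`'s `inj_ss_of_cartier` ∘ `cartier_of_toric`).

THE TRAP: "`h` toric and `m ∣ div h` ⇒ `h` is an `m`-th power" is FALSE.  Toric ⇒ Cartier is the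
true statement; the `m`-th power is only for `σ h / h`.
-/

set_option autoImplicit false

open Polynomial
open Fermat.Agent.S30.Model Fermat.Agent.S30.Model.GlueChart

namespace Fermat.Agent.S34.Nodal

section Main

variable {O E L : Type*} [CommRing O] [IsDomain O] [IsDiscreteValuationRing O]
  [Field E] [CharZero E] [Algebra O E] [IsFractionRing O E]
  [Field L] [Algebra E L] [Algebra O L] [IsScalarTower O E L]

/-- **Chart-level exit of CartPair.**  `B` the chart ring of `t` with nodal special fibre
`V(p₁) ∪ V(p₂)`; `h ≡ 1` at `p₁` and at `p₂`, `m ∣ div h` on the chart.  Then `(1/m) div h` is an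
invertible divisor on the chart: there is a partition of unity `∑ cᵢ c'ᵢ = 1` with
`cᵢ ^ m / h`, `c'ᵢ ^ m * h` integral over `O[t]`. -/
theorem IsNodalChart.cartierRoot (π : O) (hπ : Irreducible π) (t : L) (ht : Transcendental E t)
    [FiniteDimensional (IntermediateField.adjoin E {t}) L]
    {p₁ p₂ : Ideal (Chart O t)} (hN : IsNodalChart π t p₁ p₂)
    (m : ℕ) (hm : IsUnit (m : O))
    (h : L) (h₁ : CongrOneAtChart p₁ h) (h₂ : CongrOneAtChart p₂ h)
    (hdiv : LocPow (E := E) m t h) :
    ToricInertia.CartierRoot O ({t} : Set L) m h :=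
  CartPair.cartierRoot (E := E) π hπ t ht hN m hm h h₁ h₂ hdiv

/-- **(S): toric ⇒ Cartier.**  For a nodal datum, `h` toric with `m ∣ div h` on both charts:
`(1/m) div h` is an invertible divisor on both charts. -/
theorem cartier_of_toric (π : O) (hπ : Irreducible π) (u : L) (hu : Transcendental E u)
    [FiniteDimensional (IntermediateField.adjoin E {u}) L]
    (D : NodalDatum π u)
    (m : ℕ) (hm : IsUnit (m : O))
    (h : L) (hh : D.Toric h)
    (hdiv : LocPow (E := E) m u h) (hdiv' : LocPow (E := E) m u⁻¹ h) :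
    ToricInertia.CartierRoot O ({u} : Set L) m h ∧
      ToricInertia.CartierRoot O ({u⁻¹} : Set L) m h := by
  have hu0 : u ≠ 0 := fun h0 => hu (h0 ▸ isAlgebraic_zero)
  have hz := D.toric_zero hu0 hh
  have hi := D.toric_inf hu0 hh
  have : FiniteDimensional (IntermediateField.adjoin E {u⁻¹}) L := finiteDimensional_adjoin_inv u
  exact ⟨IsNodalChart.cartierRoot π hπ u hu D.chartZero m hm h hz.1 hz.2 hdiv,
    IsNodalChart.cartierRoot π hπ u⁻¹ (transcendental_inv hu) D.chartInf m hm h hi.1 hi.2 hdiv'⟩

/-- **`K`-level (INJ-ss)** (S34).  `σ` a semilinear automorphism of the nodal model acting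
trivially on the residue rings at both components (inertia), `h` toric with `m ∣ div h` on both
charts, `θ ^ m = σ h / h` generating a field `M = L(θ)` in which `O` is integrally closed
("no new constants": supplied by the bridge).  Then `σ h / h` is an `m`-th power in `L`. -/
theorem inj_ss_inertia (π : O) (hπ : Irreducible π) (u : L) (hu : Transcendental E u)
    [FiniteDimensional (IntermediateField.adjoin E {u}) L]
    (D : NodalDatum π u)
    (m : ℕ) (hm : IsUnit (m : O)) (ζ : O) (hζ : IsPrimitiveRoot ζ m)
    (σ : L ≃+* L) (hσ : IsModelAut O u σ) (h₁ : TrivialMod D.P₁ σ) (h₂ : TrivialMod D.P₂ σ)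
    (h : L) (hh : D.Toric h)
    (hdiv : LocPow (E := E) m u h) (hdiv' : LocPow (E := E) m u⁻¹ h)
    (M : Type*) [Field M] [Algebra L M] [Algebra O M] [IsScalarTower O L M]
    (θ : M) (hθ : θ ^ m = algebraMap L M (σ h / h)) (hgen : Algebra.adjoin L {θ} = ⊤)
    (hOM : ∀ x : M, IsIntegral O x → ∃ a : O, algebraMap O M a = x) :
    ∃ g : L, σ h / h = g ^ m := by
  obtain ⟨hC0, hCinf⟩ := cartier_of_toric (E := E) π hπ u hu D m hm h hh hdiv hdiv'
  exact inj_ss_of_cartier (E := E) π hπ u hu D m hm ζ hζ σ hσ h₁ h₂ h hh.ne_zero hC0 hCinf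
    M θ hθ hgen hOM

end Main

end Fermat.Agent.S34.Nodal
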