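import Fermat.Agent.S34.Nodal.Defs

/-!
# PROGRAM U (S35): no crossing point on `u = ∞` from a "cusp shape" relation

`Nodal.inj_ss_swap` (the `K`-level exit of S35) has the hypothesis `hNC`: no maximal ideal of the
chart of `u⁻¹` contains `u⁻¹` and both component primes.  This file proves it from a relation of
*cusp shape* between `x = u⁻¹` and a second chart element `y` (on the modular side `y = W x`):

  `x ^ (ℓ + 1) + y ^ (ℓ + 1) = x * y * c`,   `x ^ ℓ - y ∈ p₁`, `y ∉ p₁`,   `y ^ ℓ - x ∈ p₂`, `x ∉ p₂`.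

(For the Hauptmoduln `x = 1 / h_r` this is the modular equation itself; the congruences are the
Kronecker congruence on the two components.)

Proof: `θ₁ = x ^ ℓ / y` and `θ₂ = y ^ ℓ / x` are roots of `T² - c T + (x y) ^ (ℓ - 1)`, hence lie in
the (integrally closed) chart ring; `θ₁ ≡ 1` mod `p₁`, `θ₂ ≡ 1` mod `p₂`, and
`θ₁ θ₂ = (x y) ^ (ℓ - 1) ∈ (x)`; so `1 ∈ p₁ + p₂ + (x)`.
-/

set_option autoImplicit false

open Polynomial
open Fermat.Agent.S30.Model Fermat.Agent.S30.Model.GlueChart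

namespace Fermat.Agent.S34.Nodal

section NoCuspNode

variable {O L : Type*} [CommRing O] [Field L] [Algebra O L]

/-- An element of `L` which is integral over the chart ring lies in the chart ring. -/
theorem exists_chart_eq_of_isIntegral (t : L) (z : L) (hz : IsIntegral (Chart O t) z) :
    ∃ T : Chart O t, (T : L) = z :=
  ⟨⟨z, isIntegral_trans z hz⟩, rfl⟩

/-- The quotient `x ^ ℓ / y` of a cusp-shape relation lies in the chart ring. -/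
theorem exists_mul_eq_pow_of_cusp_shape (t : L) (ℓ : ℕ) (hℓ : 1 ≤ ℓ) (x y c : Chart O t)
    (hy : y ≠ 0) (hrel : x ^ (ℓ + 1) + y ^ (ℓ + 1) = x * y * c) :
    ∃ T : Chart O t, T * y = x ^ ℓ := by
  obtain ⟨n, rfl⟩ : ∃ n, ℓ = n + 1 := ⟨ℓ - 1, by omega⟩
  have hyL : (y : L) ≠ 0 := fun h => hy (Subtype.ext h)
  have hrelL : (x : L) ^ (n + 1 + 1) + (y : L) ^ (n + 1 + 1) = (x : L) * (y : L) * (c : L) := by
    have := congrArg (fun z : Chart O t => (z : L)) hrel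
    simpa using this
  have hint : IsIntegral (Chart O t) ((x : L) ^ (n + 1) / (y : L)) := by
    refine ⟨X ^ 2 - C c * X + C ((x * y) ^ n), ?_, ?_⟩
    · have h1 : (X ^ 2 - C c * X + C ((x * y) ^ n) : (Chart O t)[X]) =
          X ^ 2 - (C c * X - C ((x * y) ^ n)) := by ring
      rw [h1]
      apply monic_X_pow_sub
      refine lt_of_le_of_lt (degree_sub_le _ _) ?_
      refine max_lt ?_ ?_
      · refine lt_of_le_of_lt (degree_C_mul_X_le _) ?_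
        norm_num
      · refine lt_of_le_of_lt degree_C_le ?_
        norm_num
    · rw [eval₂_add, eval₂_sub, eval₂_mul, eval₂_pow, eval₂_X, eval₂_C, eval₂_C]
      have e1 : algebraMap (Chart O t) L c = (c : L) := rfl
      have e2 : algebraMap (Chart O t) L ((x * y) ^ n) = ((x : L) * (y : L)) ^ n := by
        show (((x * y) ^ n : Chart O t) : L) = _
        simp
      rw [e1, e2]
      field_simp
      linear_combination (x : L) ^ n * hrelL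
  obtain ⟨T, hT⟩ := exists_chart_eq_of_isIntegral t _ hint
  refine ⟨T, Subtype.ext ?_⟩
  show (T : L) * (y : L) = ((x ^ (n + 1) : Chart O t) : L)
  rw [hT]
  simp [div_mul_cancel₀ _ hyL]

/-- **No crossing point on `x = 0`** (chart form).  If `x ^ (ℓ+1) + y ^ (ℓ+1) = x * y * c` in the
chart ring, `x ^ ℓ ≡ y` on the component `p₁`, `y ^ ℓ ≡ x` on the component `p₂`, `y ∉ p₁`,
`x ∉ p₂`, then every ideal containing `x`, `p₁` and `p₂` is the unit ideal. -/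
theorem eq_top_of_cusp_shape (t : L) (p₁ p₂ : Ideal (Chart O t)) (hp₁ : p₁.IsPrime)
    (hp₂ : p₂.IsPrime) (ℓ : ℕ) (hℓ : 2 ≤ ℓ) (x y c : Chart O t)
    (hrel : x ^ (ℓ + 1) + y ^ (ℓ + 1) = x * y * c)
    (h₁ : x ^ ℓ - y ∈ p₁) (hy₁ : y ∉ p₁) (h₂ : y ^ ℓ - x ∈ p₂) (hx₂ : x ∉ p₂)
    (M : Ideal (Chart O t)) (hxM : x ∈ M) (h1M : p₁ ≤ M) (h2M : p₂ ≤ M) : M = ⊤ := by
  have hx0 : x ≠ 0 := fun h => hx₂ (h ▸ p₂.zero_mem)
  have hy0 : y ≠ 0 := fun h => hy₁ (h ▸ p₁.zero_mem)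
  obtain ⟨T₁, hT₁⟩ := exists_mul_eq_pow_of_cusp_shape t ℓ (by omega) x y c hy0 hrel
  obtain ⟨T₂, hT₂⟩ := exists_mul_eq_pow_of_cusp_shape t ℓ (by omega) y x c hx0
    (by rw [add_comm, hrel]; ring)
  -- `T₁ ≡ 1` mod `p₁`
  have hT₁p : T₁ - 1 ∈ p₁ := by
    have : (T₁ - 1) * y ∈ p₁ := by
      have e : (T₁ - 1) * y = x ^ ℓ - y := by rw [sub_mul, hT₁, one_mul]
      rw [e]; exact h₁
    exact (hp₁.mem_or_mem this).resolve_right hy₁
  have hT₂p : T₂ - 1 ∈ p₂ := by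
    have : (T₂ - 1) * x ∈ p₂ := by
      have e : (T₂ - 1) * x = y ^ ℓ - x := by rw [sub_mul, hT₂, one_mul]
      rw [e]; exact h₂
    exact (hp₂.mem_or_mem this).resolve_right hx₂
  -- `T₁ T₂ = (x y) ^ (ℓ - 1) ∈ (x)`
  obtain ⟨n, rfl⟩ : ∃ n, ℓ = n + 2 := ⟨ℓ - 2, by omega⟩
  have hprod : T₁ * T₂ = x * (x ^ n * y ^ (n + 1)) := by
    have hxy : x * y ≠ 0 := mul_ne_zero hx0 hy0
    apply mul_right_cancel₀ hxy
    calc T₁ * T₂ * (x * y) = (T₁ * y) * (T₂ * x) := by ring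
      _ = x ^ (n + 2) * y ^ (n + 2) := by rw [hT₁, hT₂]
      _ = x * (x ^ n * y ^ (n + 1)) * (x * y) := by ring
  have hone : (1 : Chart O t) = T₁ * T₂ - (T₁ - 1) * T₂ - (T₂ - 1) := by ring
  rw [Ideal.eq_top_iff_one, hone]
  refine M.sub_mem (M.sub_mem ?_ (M.mul_mem_right _ (h1M hT₁p))) (h2M hT₂p)
  rw [hprod]
  exact M.mul_mem_right _ hxM

/-- **`hNC` of `Nodal.inj_ss_swap` from a cusp-shape relation** (chart-element form).
`x` is the coordinate `u⁻¹` of the chart at infinity, `y`, `c` are elements of that chart with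
`x ^ (ℓ+1) + y ^ (ℓ+1) = x * y * c`, `x ^ ℓ ≡ y` on `P₁`, `y ^ ℓ ≡ x` on `P₂`, `y ∉ P₁`,
`x ∉ P₂`.  Then no crossing point of the two components lies on `u = ∞`. -/
theorem NodalDatum.noCuspNode {π : O} {u : L} (D : NodalDatum π u) (ℓ : ℕ) (hℓ : 2 ≤ ℓ)
    (x y c : Chart O u⁻¹) (hx : (x : L) = u⁻¹)
    (hrel : x ^ (ℓ + 1) + y ^ (ℓ + 1) = x * y * c)
    (h₁ : x ^ ℓ - y ∈ D.P₁.comap (toOverlapInf O u)) (hy₁ : y ∉ D.P₁.comap (toOverlapInf O u))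
    (h₂ : y ^ ℓ - x ∈ D.P₂.comap (toOverlapInf O u)) (hx₂ : x ∉ D.P₂.comap (toOverlapInf O u)) :
    ∀ (M : Ideal (Chart O u⁻¹)) (g : Chart O u⁻¹), (g : L) = u⁻¹ → M.IsMaximal → g ∈ M →
      D.P₁.comap (toOverlapInf O u) ≤ M → D.P₂.comap (toOverlapInf O u) ≤ M → False := by
  intro M g hg hM hgM h1M h2M
  have hgx : g = x := Subtype.ext (hg.trans hx.symm)
  exact hM.ne_top (eq_top_of_cusp_shape u⁻¹ _ _ D.chartInf.isPrime₁ D.chartInf.isPrime₂ ℓ hℓ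
    x y c hrel h₁ hy₁ h₂ hx₂ M (hgx ▸ hgM) h1M h2M)

/-- **`hNC` of `Nodal.inj_ss_swap` from a cusp-shape relation** (`L`-element form: `y`, `c`
elements of `L` integral over `O[u⁻¹]`, the congruences stated on the overlap chart). -/
theorem NodalDatum.noCuspNode' {π : O} {u : L} (D : NodalDatum π u) (ℓ : ℕ) (hℓ : 2 ≤ ℓ)
    (y c : L) (hy : IsIntegral (Algebra.adjoin O ({u⁻¹} : Set L)) y)
    (hc : IsIntegral (Algebra.adjoin O ({u⁻¹} : Set L)) c)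
    (hrel : u⁻¹ ^ (ℓ + 1) + y ^ (ℓ + 1) = u⁻¹ * y * c)
    (h₁ : ∀ z : Overlap O u, (z : L) = u⁻¹ ^ ℓ - y → z ∈ D.P₁)
    (hy₁ : ∀ z : Overlap O u, (z : L) = y → z ∉ D.P₁)
    (h₂ : ∀ z : Overlap O u, (z : L) = y ^ ℓ - u⁻¹ → z ∈ D.P₂)
    (hx₂ : ∀ z : Overlap O u, (z : L) = u⁻¹ → z ∉ D.P₂) :
    ∀ (M : Ideal (Chart O u⁻¹)) (g : Chart O u⁻¹), (g : L) = u⁻¹ → M.IsMaximal → g ∈ M →
      D.P₁.comap (toOverlapInf O u) ≤ M → D.P₂.comap (toOverlapInf O u) ≤ M → False := by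
  have hxi : IsIntegral (Algebra.adjoin O ({u⁻¹} : Set L)) (u⁻¹ : L) :=
    isIntegral_algebraMap (x := (⟨u⁻¹, Algebra.subset_adjoin (Set.mem_singleton _)⟩ :
      Algebra.adjoin O ({u⁻¹} : Set L)))
  refine D.noCuspNode ℓ hℓ ⟨u⁻¹, hxi⟩ ⟨y, hy⟩ ⟨c, hc⟩ rfl (Subtype.ext ?_) ?_ ?_ ?_ ?_
  · show ((⟨u⁻¹, hxi⟩ ^ (ℓ + 1) + ⟨y, hy⟩ ^ (ℓ + 1) : Chart O u⁻¹) : L) =
      ((⟨u⁻¹, hxi⟩ * ⟨y, hy⟩ * ⟨c, hc⟩ : Chart O u⁻¹) : L)
    simpa using hrel
  · rw [Ideal.mem_comap]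
    refine h₁ _ ?_
    rw [coe_inclHom]
    simp
  · rw [Ideal.mem_comap]
    refine hy₁ _ ?_
    rw [coe_inclHom]
  · rw [Ideal.mem_comap]
    refine h₂ _ ?_
    rw [coe_inclHom]
    simp
  · rw [Ideal.mem_comap]
    refine hx₂ _ ?_
    rw [coe_inclHom]

end NoCuspNode

end Fermat.Agent.S34.Nodal
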