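import Fermat.Agent.S34.Nodal.NoCuspNode
import Fermat.Agent.S34.ToricOfRed

/-!
# PROGRAM U (S35): `hNC` from Gauss data and a cusp-shape relation

The hypothesis `hNC` of `Nodal.inj_ss_swap` / `S35.RootGlueFrob.frobSSRootE_of_nodal_gauss`
(no crossing point on `u = ∞`) in the vocabulary of `S34/ToricOfRed.lean` and
`S34/RootDatum.HasRootDatum`: the two primes of the nodal datum are `P₁ = {red = 0}` and
`P₂ = {red ∘ W = 0}`, with `W` an involution on `u`; `x = u⁻¹`, `y = (W u)⁻¹`.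

Inputs beyond the `HasRootDatum` conjuncts:
* `hfrob : red y = (red x) ^ ℓ`      (Kronecker congruence: `y = x(q^ℓ)`),
* `hne : red x ≠ 0`,
* `hint : y` integral over `O[x]`, `c` integral over `O[x]`,
* `hrel : x ^ (ℓ + 1) + y ^ (ℓ + 1) = x * y * c`   (the modular equation in cusp shape).
-/

set_option autoImplicit false

open ModularCurve
open Fermat.Agent.S30 Fermat.Agent.S30.Model Fermat.Agent.S30.Model.GlueChart

namespace Fermat.Agent.S34.Nodal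

section Gauss

variable {O E : Type*} [CommRing O] [IsDomain O] [IsDiscreteValuationRing O] [Field E]
  [Algebra O E] [FaithfulSMul O E]
  (L : IntermediateField E (LaurentSeries E)) [Algebra O L]

/-- **`hNC` from Gauss data** (generic `q`-expansion field `L ⊆ E((q))`). -/
theorem hNC_of_red (π : O) (u : L)
    (hu' : ((u⁻¹ : L) : LaurentSeries E) ∈ GaussDVR.V O E)
    (W : L ≃+* L) (hWW : W (W u) = u)
    (hWu' : (((W u)⁻¹ : L) : LaurentSeries E) ∈ GaussDVR.V O E)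
    (D : NodalDatum π u)
    (hP₁ : ∀ (x : Overlap O u)
      (hx : (((x : L) : L) : LaurentSeries E) ∈ GaussDVR.V O E),
      x ∈ D.P₁ ↔ GaussDVR.red O E ⟨_, hx⟩ = 0)
    (hP₂ : ∀ (x : Overlap O u)
      (hWx : ((W (x : L) : L) : LaurentSeries E) ∈ GaussDVR.V O E),
      x ∈ D.P₂ ↔ GaussDVR.red O E ⟨_, hWx⟩ = 0)
    (ℓ : ℕ) (hℓ : 2 ≤ ℓ)
    (hfrob : GaussDVR.red O E ⟨_, hWu'⟩ = GaussDVR.red O E ⟨_, hu'⟩ ^ ℓ)
    (hne : GaussDVR.red O E ⟨_, hu'⟩ ≠ 0)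
    (hint : IsIntegral (Algebra.adjoin O ({u⁻¹} : Set L)) (W u)⁻¹)
    (c : L) (hc : IsIntegral (Algebra.adjoin O ({u⁻¹} : Set L)) c)
    (hrel : u⁻¹ ^ (ℓ + 1) + (W u)⁻¹ ^ (ℓ + 1) = u⁻¹ * (W u)⁻¹ * c) :
    ∀ (M : Ideal (Chart O u⁻¹)) (g : Chart O u⁻¹), (g : L) = u⁻¹ → M.IsMaximal → g ∈ M →
      D.P₁.comap (toOverlapInf O u) ≤ M → D.P₂.comap (toOverlapInf O u) ≤ M → False := by
  have hWy : W (W u)⁻¹ = u⁻¹ := by rw [map_inv₀, hWW]
  have hWx : W u⁻¹ = (W u)⁻¹ := map_inv₀ W u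
  have hne' : GaussDVR.red O E ⟨_, hWu'⟩ ≠ 0 := by
    rw [hfrob]; exact pow_ne_zero _ hne
  refine D.noCuspNode' ℓ hℓ (W u)⁻¹ c hint hc hrel ?_ ?_ ?_ ?_
  · intro z hz
    have hzL : (((z : L) : L) : LaurentSeries E) =
        ((u⁻¹ : L) : LaurentSeries E) ^ ℓ - (((W u)⁻¹ : L) : LaurentSeries E) := by
      rw [hz]; push_cast; rfl
    have hzV : (((z : L) : L) : LaurentSeries E) ∈ GaussDVR.V O E := by
      rw [hzL]; exact Subring.sub_mem _ (Subring.pow_mem _ hu' _) hWu'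
    rw [hP₁ z hzV]
    have e : (⟨_, hzV⟩ : GaussDVR.V O E) = ⟨_, hu'⟩ ^ ℓ - ⟨_, hWu'⟩ := Subtype.ext hzL
    rw [e, map_sub, map_pow, hfrob, sub_self]
  · intro z hz
    have hzL : (((z : L) : L) : LaurentSeries E) = (((W u)⁻¹ : L) : LaurentSeries E) := by
      rw [hz]
    have hzV : (((z : L) : L) : LaurentSeries E) ∈ GaussDVR.V O E := by
      rw [hzL]; exact hWu'
    rw [hP₁ z hzV]
    have e : (⟨_, hzV⟩ : GaussDVR.V O E) = ⟨_, hWu'⟩ := Subtype.ext hzL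
    rw [e]
    exact hne'
  · intro z hz
    have hzL : ((W (z : L) : L) : LaurentSeries E) =
        ((u⁻¹ : L) : LaurentSeries E) ^ ℓ - (((W u)⁻¹ : L) : LaurentSeries E) := by
      rw [hz, map_sub, map_pow, hWy, hWx]; push_cast; rfl
    have hzV : ((W (z : L) : L) : LaurentSeries E) ∈ GaussDVR.V O E := by
      rw [hzL]; exact Subring.sub_mem _ (Subring.pow_mem _ hu' _) hWu'
    rw [hP₂ z hzV]
    have e : (⟨_, hzV⟩ : GaussDVR.V O E) = ⟨_, hu'⟩ ^ ℓ - ⟨_, hWu'⟩ := Subtype.ext hzL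
    rw [e, map_sub, map_pow, hfrob, sub_self]
  · intro z hz
    have hzL : ((W (z : L) : L) : LaurentSeries E) = (((W u)⁻¹ : L) : LaurentSeries E) := by
      rw [hz, hWx]
    have hzV : ((W (z : L) : L) : LaurentSeries E) ∈ GaussDVR.V O E := by
      rw [hzL]; exact hWu'
    rw [hP₂ z hzV]
    have e : (⟨_, hzV⟩ : GaussDVR.V O E) = ⟨_, hWu'⟩ := Subtype.ext hzL
    rw [e]
    exact hne'

end Gauss

/-! ### Modular form: `L = LE N E`, `O = A ∩ E` -/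

section Modular

open Fermat.Agent.S18.K1Defs Fermat.Agent.S18.K1Top

local notation "Qb" => AlgebraicClosure ℚ

variable (A : ValuationSubring Qb) (E : IntermediateField ℚ Qb)
  [IsDiscreteValuationRing (OE A E)] (N : ℕ)
  [Algebra (OE A E) (LE N E)]

/-- **`hNC` from Gauss data, modular function field** — literally the `hNC` binder of
`S35.RootGlueFrob.frobSSRootE_of_nodal_gauss` (with `W = wE`). -/
theorem hNC_LE (π : OE A E) (u : LE N E)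
    (hu' : ((u⁻¹ : LE N E) : LaurentSeries E) ∈ GaussDVR.V (OE A E) E)
    (W : LE N E ≃+* LE N E) (hWW : W (W u) = u)
    (hWu' : (((W u)⁻¹ : LE N E) : LaurentSeries E) ∈ GaussDVR.V (OE A E) E)
    (D : NodalDatum π u)
    (hP₁ : ∀ (x : Overlap (OE A E) u)
      (hx : (((x : LE N E) : LE N E) : LaurentSeries E) ∈ GaussDVR.V (OE A E) E),
      x ∈ D.P₁ ↔ GaussDVR.red (OE A E) E ⟨_, hx⟩ = 0)
    (hP₂ : ∀ (x : Overlap (OE A E) u)
      (hWx : ((W (x : LE N E) : LE N E) : LaurentSeries E) ∈ GaussDVR.V (OE A E) E),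
      x ∈ D.P₂ ↔ GaussDVR.red (OE A E) E ⟨_, hWx⟩ = 0)
    (ℓ : ℕ) (hℓ : 2 ≤ ℓ)
    (hfrob : GaussDVR.red (OE A E) E ⟨_, hWu'⟩ = GaussDVR.red (OE A E) E ⟨_, hu'⟩ ^ ℓ)
    (hne : GaussDVR.red (OE A E) E ⟨_, hu'⟩ ≠ 0)
    (hint : IsIntegral (Algebra.adjoin (OE A E) ({u⁻¹} : Set (LE N E))) (W u)⁻¹)
    (c : LE N E) (hc : IsIntegral (Algebra.adjoin (OE A E) ({u⁻¹} : Set (LE N E))) c)
    (hrel : u⁻¹ ^ (ℓ + 1) + (W u)⁻¹ ^ (ℓ + 1) = u⁻¹ * (W u)⁻¹ * c) :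
    ∀ (M : Ideal (Chart (OE A E) u⁻¹)) (g : Chart (OE A E) u⁻¹), (g : LE N E) = u⁻¹ →
      M.IsMaximal → g ∈ M →
      D.P₁.comap (toOverlapInf (OE A E) u) ≤ M → D.P₂.comap (toOverlapInf (OE A E) u) ≤ M →
      False :=
  hNC_of_red (LE N E) π u hu' W hWW hWu' D hP₁ hP₂ ℓ hℓ hfrob hne hint c hc hrel

end Modular

end Fermat.Agent.S34.Nodal
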