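import Fermat.Agent.S34.Nodal.Transfer
import Fermat.Agent.S34.Nodal.Aut

/-!
# PROGRAM U (S35): chart-level vocabulary for automorphisms that do NOT fix the parameter

For S35 the semilinear automorphism is `σ = φ ∘ W` (Frobenius on coefficients composed with the
Atkin–Lehner involution).  With the coordinate `u = j` it does NOT fix `u` (`σ j = W j`), so
`IsModelAut O u σ` is unsatisfiable, and `σ` does not preserve the overlap chart nor the chart of
`u⁻¹`.  It DOES preserve the chart ring of `u` (`W j` is integral over `O[j]`), and all crossing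
points lie on that chart.  Hence the S35 vocabulary lives on the chart of `u` only:

* `IsBaseAut O σ` : `σ` preserves `O` (semilinear over `O`).
* `StabilizesChart O t σ` : `σ` maps the chart ring of `t` onto itself; `StabilizesChart.equiv`
  is the induced automorphism of the chart ring.
* `MapsIntoChart p q σ` : `σ p ⊆ q` for ideals of the chart ring of `t`.

Proved here (sorry-free):

* `IsModelAut.isBaseAut`, `IsModelAut.stabilizesChart` : the S34 notion implies the S35 one.
* `IsBaseAut.exists_map_pi` : `σ π = π · d` for a uniformiser `π` of the DVR `O`.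
* `comap_equiv_eq` : if `σ p₁ ⊆ p₂` and `σ p₂ ⊆ p₁` on a nodal chart, then
  `p₂.comap σ = p₁` and `p₁.comap σ = p₂`.
* `fixesNodes_comap_eq` : `FixesNodes` gives `y.comap σ = y` at every crossing point `y`.
* `CongrOneAtChart.map`, `congrOneAt_of_chart_zero`, `NodalDatum.toric_map_of_swap` : if `σ`
  exchanges the two primes of the chart of `u`, then `σ h` is toric whenever `h` is.
-/

set_option autoImplicit false

open Fermat.Agent.S30.Model Fermat.Agent.S30.Model.GlueChart

namespace Fermat.Agent.S34.Nodal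

/-- `σ` is semilinear over `O`: it maps `O` onto itself. -/
structure IsBaseAut (O : Type*) {L : Type*} [CommRing O] [Field L] [Algebra O L]
    (σ : L ≃+* L) : Prop where
  map_base : ∀ a : O, ∃ a' : O, σ (algebraMap O L a) = algebraMap O L a'
  symm_map_base : ∀ a : O, ∃ a' : O, σ.symm (algebraMap O L a) = algebraMap O L a'

/-- `σ` maps the chart ring of `t` (the integral closure of `O[t]` in `L`) onto itself. -/
structure StabilizesChart (O : Type*) {L : Type*} [CommRing O] [Field L] [Algebra O L] (t : L)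
    (σ : L ≃+* L) : Prop where
  map_isIntegral : ∀ x : L, IsIntegral (Algebra.adjoin O ({t} : Set L)) x →
    IsIntegral (Algebra.adjoin O ({t} : Set L)) (σ x)
  symm_map_isIntegral : ∀ x : L, IsIntegral (Algebra.adjoin O ({t} : Set L)) x →
    IsIntegral (Algebra.adjoin O ({t} : Set L)) (σ.symm x)

section SwapDefs

variable {O L : Type*} [CommRing O] [Field L] [Algebra O L]

/-- `σ` maps the ideal `p` of the chart ring of `t` into `q` (elementwise in `L`). -/
def MapsIntoChart {t : L} (p q : Ideal (Chart O t)) (σ : L ≃+* L) : Prop :=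
  ∀ x : Chart O t, x ∈ p → ∃ y : Chart O t, y ∈ q ∧ (y : L) = σ (x : L)

namespace IsBaseAut

variable {σ : L ≃+* L}

theorem symm (hσ : IsBaseAut O σ) : IsBaseAut O σ.symm :=
  ⟨hσ.symm_map_base, fun a => by simpa using hσ.map_base a⟩

/-- A semilinear automorphism maps a uniformiser of the DVR `O` to a multiple of itself. -/
theorem exists_map_pi [IsDomain O] [IsDiscreteValuationRing O]
    (hinj : Function.Injective (algebraMap O L)) (hσ : IsBaseAut O σ) {π : O}
    (hπ : Irreducible π) : ∃ d : O, σ (algebraMap O L π) = algebraMap O L (π * d) := by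
  obtain ⟨π', h'⟩ := hσ.map_base π
  by_cases hu : IsUnit π'
  · exfalso
    obtain ⟨v, hv⟩ := hu.exists_right_inv
    obtain ⟨c, hc⟩ := hσ.symm_map_base v
    have h1 : σ.symm (algebraMap O L π') = algebraMap O L π := by
      rw [← h', RingEquiv.symm_apply_apply]
    have h2 : algebraMap O L (π * c) = algebraMap O L 1 := by
      rw [map_mul, ← h1, ← hc, ← map_mul, ← map_mul, hv]
      simp
    exact hπ.not_isUnit (IsUnit.of_mul_eq_one _ (hinj h2))
  · have hmem : π' ∈ IsLocalRing.maximalIdeal O := (IsLocalRing.mem_maximalIdeal _).mpr hu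
    rw [(IsDiscreteValuationRing.irreducible_iff_uniformizer π).mp hπ,
      Ideal.mem_span_singleton] at hmem
    obtain ⟨d, rfl⟩ := hmem
    exact ⟨d, h'⟩

end IsBaseAut

namespace StabilizesChart

variable {t : L} {σ : L ≃+* L}

theorem symm (h : StabilizesChart O t σ) : StabilizesChart O t σ.symm :=
  ⟨h.symm_map_isIntegral, fun x hx => by simpa using h.map_isIntegral x hx⟩

/-- The automorphism of the chart ring induced by `σ`. -/
noncomputable def equiv (h : StabilizesChart O t σ) : Chart O t ≃+* Chart O t where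
  toFun x := ⟨σ (x : L), h.map_isIntegral _ x.2⟩
  invFun x := ⟨σ.symm (x : L), h.symm_map_isIntegral _ x.2⟩
  left_inv _ := Subtype.ext (σ.symm_apply_apply _)
  right_inv _ := Subtype.ext (σ.apply_symm_apply _)
  map_mul' _ _ := Subtype.ext (map_mul σ _ _)
  map_add' _ _ := Subtype.ext (map_add σ _ _)

@[simp]
theorem coe_equiv (h : StabilizesChart O t σ) (x : Chart O t) :
    ((h.equiv x : Chart O t) : L) = σ (x : L) := rfl

@[simp]
theorem coe_equiv_symm (h : StabilizesChart O t σ) (x : Chart O t) :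
    ((h.equiv.symm x : Chart O t) : L) = σ.symm (x : L) := rfl

theorem mapsIntoChart_iff (h : StabilizesChart O t σ) (p q : Ideal (Chart O t)) :
    MapsIntoChart p q σ ↔ p ≤ q.comap h.equiv := by
  constructor
  · intro hpq x hx
    obtain ⟨y, hy, e⟩ := hpq x hx
    have : h.equiv x = y := Subtype.ext e.symm
    rw [Ideal.mem_comap, this]
    exact hy
  · intro hpq x hx
    exact ⟨h.equiv x, hpq hx, rfl⟩

end StabilizesChart

namespace IsModelAut

variable {u : L} {σ : L ≃+* L}

theorem isBaseAut (hσ : IsModelAut O u σ) : IsBaseAut O σ :=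
  ⟨hσ.map_base, hσ.symm_map_base⟩

theorem symm (hσ : IsModelAut O u σ) : IsModelAut O u σ.symm :=
  ⟨hσ.symm_map_base, fun a => by simpa using hσ.map_base a, by
    rw [RingEquiv.symm_apply_eq, hσ.map_u]⟩

/-- A semilinear automorphism fixing `t` stabilises the chart ring of `t`. -/
theorem stabilizesChart (hσ : IsModelAut O u σ) {t : L} (ht : σ t = t) :
    StabilizesChart O t σ :=
  ⟨fun _ hx => hσ.isIntegral ht hx, fun _ hx =>
    hσ.symm.isIntegral (by rw [RingEquiv.symm_apply_eq, ht]) hx⟩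

end IsModelAut

/-- On a nodal chart, if `σ p₁ ⊆ p₂` and `σ p₂ ⊆ p₁` then `σ` exchanges the two primes:
`p₂.comap σ = p₁` and `p₁.comap σ = p₂`. -/
theorem comap_equiv_eq [IsDomain O] [IsDiscreteValuationRing O]
    (hinj : Function.Injective (algebraMap O L)) {π : O} (hπ : Irreducible π) {t : L}
    {p₁ p₂ : Ideal (Chart O t)} (hN : IsNodalChart π t p₁ p₂) {σ : L ≃+* L}
    (hσO : IsBaseAut O σ) (hσB : StabilizesChart O t σ)
    (h₁₂ : MapsIntoChart p₁ p₂ σ) (h₂₁ : MapsIntoChart p₂ p₁ σ) :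
    p₂.comap hσB.equiv = p₁ ∧ p₁.comap hσB.equiv = p₂ := by
  have le1 : p₁ ≤ p₂.comap hσB.equiv := (hσB.mapsIntoChart_iff p₁ p₂).mp h₁₂
  have le2 : p₂ ≤ p₁.comap hσB.equiv := (hσB.mapsIntoChart_iff p₂ p₁).mp h₂₁
  have key : ∀ x : Chart O t, hσB.equiv x ∈ p₁ → hσB.equiv x ∈ p₂ → x ∈ p₁ ⊓ p₂ := by
    intro x hx1 hx2
    have hx : hσB.equiv x ∈ p₁ ⊓ p₂ := ⟨hx1, hx2⟩
    rw [hN.inf_eq, Ideal.mem_span_singleton] at hx ⊢
    obtain ⟨w, hw⟩ := hx
    obtain ⟨d, hd⟩ := hσO.symm.exists_map_pi hinj hπ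
    refine ⟨algebraMap O (Chart O t) d * hσB.equiv.symm w, ?_⟩
    have hx' : x = hσB.equiv.symm (piElt (Algebra.adjoin O ({t} : Set L)) π * w) := by
      rw [← hw, RingEquiv.symm_apply_apply]
    rw [hx']
    apply Subtype.ext
    rw [StabilizesChart.coe_equiv_symm, Subalgebra.coe_mul, Subalgebra.coe_mul, Subalgebra.coe_mul,
      StabilizesChart.coe_equiv_symm, map_mul, coe_piElt, hd, map_mul]
    rw [mul_assoc]
    rfl
  constructor
  · apply le_antisymm _ le1
    intro x hx
    obtain ⟨c, hc2, hc1⟩ := SetLike.not_le_iff_exists.mp hN.not_le₂₁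
    have h1 : x * c ∈ p₁ ⊓ p₂ := by
      apply key
      · rw [map_mul]
        exact p₁.mul_mem_left _ (le2 hc2)
      · rw [map_mul]
        exact p₂.mul_mem_right _ hx
    rcases hN.isPrime₁.mem_or_mem h1.1 with h | h
    · exact h
    · exact absurd h hc1
  · apply le_antisymm _ le2
    intro x hx
    obtain ⟨c, hc1, hc2⟩ := SetLike.not_le_iff_exists.mp hN.not_le₁₂
    have h1 : x * c ∈ p₁ ⊓ p₂ := by
      apply key
      · rw [map_mul]
        exact p₁.mul_mem_right _ hx
      · rw [map_mul]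
        exact p₂.mul_mem_left _ (le1 hc1)
    rcases hN.isPrime₂.mem_or_mem h1.2 with h | h
    · exact h
    · exact absurd h hc2

/-- `FixesNodes` in ideal form: `y.comap σ = y` at every crossing point `y`. -/
theorem fixesNodes_comap_eq {t : L} {p₁ p₂ : Ideal (Chart O t)} {σ : L ≃+* L}
    (hσB : StabilizesChart O t σ) (hfix : FixesNodes t p₁ p₂ σ)
    (y : Ideal (Chart O t)) (hy : y.IsMaximal) (h1 : p₁ ≤ y) (h2 : p₂ ≤ y) :
    y.comap hσB.equiv = y := by
  have hle : y ≤ y.comap hσB.equiv := by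
    intro x hx
    obtain ⟨z, hz, e⟩ := hfix y hy h1 h2 x hx
    have : hσB.equiv x = z := Subtype.ext e.symm
    rw [Ideal.mem_comap, this]
    exact hz
  have hne : y.comap hσB.equiv ≠ ⊤ := by
    have := hy.isPrime
    exact (Ideal.comap_isPrime hσB.equiv y).ne_top
  exact (hy.eq_of_le hne hle).symm

/-- Transport of `h ≡ 1 at p` along an automorphism of the chart ring. -/
theorem CongrOneAtChart.map {t : L} {p q : Ideal (Chart O t)} {σ : L ≃+* L}
    (hσB : StabilizesChart O t σ) (hpq : q.comap hσB.equiv = p) {h : L}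
    (hc : CongrOneAtChart p h) : CongrOneAtChart q (σ h) := by
  obtain ⟨a, b, ha, hb, hab⟩ := hc
  refine ⟨hσB.equiv a, hσB.equiv b, ?_, ?_, ?_⟩
  · rw [← hpq] at ha
    exact ha
  · rw [← hpq] at hb
    exact hb
  · rw [StabilizesChart.coe_equiv, StabilizesChart.coe_equiv, ← map_mul, hab, map_add]

/-- `h ≡ 1` at the contraction of `P` to the chart of `u` ⟹ `h ≡ 1` at `P` (overlap). -/
theorem congrOneAt_of_chart_zero {u : L} (P : Ideal (Overlap O u)) {h : L}
    (hc : CongrOneAtChart (P.comap (toOverlapZero O u)) h) : CongrOneAt P h := by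
  obtain ⟨a, b, ha, hb, hab⟩ := hc
  refine ⟨toOverlapZero O u a, toOverlapZero O u b, Ideal.mem_comap.mp ha,
    fun hmem => hb (Ideal.mem_comap.mpr hmem), ?_⟩
  rw [coe_inclHom, coe_inclHom]
  exact hab

/-- If `σ` exchanges the two primes of the chart of `u`, then `σ h` is toric whenever `h` is.
(`σ` need not preserve the overlap chart.) -/
theorem NodalDatum.toric_map_of_swap [IsDomain O] [IsDiscreteValuationRing O]
    (hinj : Function.Injective (algebraMap O L)) {π : O} (hπ : Irreducible π) {u : L}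
    (hu : u ≠ 0) (D : NodalDatum π u) {σ : L ≃+* L}
    (hσO : IsBaseAut O σ) (hσB : StabilizesChart O u σ)
    (h₁₂ : MapsIntoChart (D.P₁.comap (toOverlapZero O u)) (D.P₂.comap (toOverlapZero O u)) σ)
    (h₂₁ : MapsIntoChart (D.P₂.comap (toOverlapZero O u)) (D.P₁.comap (toOverlapZero O u)) σ)
    {h : L} (hh : D.Toric h) : D.Toric (σ h) := by
  obtain ⟨e1, e2⟩ := comap_equiv_eq hinj hπ D.chartZero hσO hσB h₁₂ h₂₁
  obtain ⟨c1, c2⟩ := D.toric_zero hu hh
  exact ⟨congrOneAt_of_chart_zero D.P₁ (c2.map hσB e2),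
    congrOneAt_of_chart_zero D.P₂ (c1.map hσB e1)⟩

/-- Elementwise form of `q.comap σ = p` (the shape consumed by `S35/NodalSigma.lean`). -/
theorem mem_iff_of_comap_eq {t : L} {p q : Ideal (Chart O t)} {σ : L ≃+* L}
    (hσB : StabilizesChart O t σ) (hpq : q.comap hσB.equiv = p) (x y : Chart O t)
    (hxy : (y : L) = σ (x : L)) : x ∈ p ↔ y ∈ q := by
  have hy : hσB.equiv x = y := Subtype.ext hxy.symm
  rw [← hpq, Ideal.mem_comap, hy]

/-- `StabilizesChart` in the `iff` form consumed by `S35/NodalSigma.lean`. -/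
theorem StabilizesChart.isIntegral_iff {t : L} {σ : L ≃+* L} (hσB : StabilizesChart O t σ)
    (x : L) : IsIntegral (Algebra.adjoin O ({t} : Set L)) x ↔
      IsIntegral (Algebra.adjoin O ({t} : Set L)) (σ x) :=
  ⟨hσB.map_isIntegral x, fun hx => by
    have := hσB.symm_map_isIntegral _ hx
    rwa [RingEquiv.symm_apply_apply] at this⟩

/-! ### Products and powers of toric elements -/

theorem congrOneAt_one {u : L} (P : Ideal (Overlap O u)) [hP : P.IsPrime] : CongrOneAt P (1 : L) :=
  ⟨0, 1, P.zero_mem, fun h => hP.ne_top ((Ideal.eq_top_iff_one P).mpr h), by simp⟩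

theorem CongrOneAt.mul {u : L} {P : Ideal (Overlap O u)} [hP : P.IsPrime] {h₁ h₂ : L}
    (c₁ : CongrOneAt P h₁) (c₂ : CongrOneAt P h₂) : CongrOneAt P (h₁ * h₂) := by
  obtain ⟨a₁, b₁, ha₁, hb₁, e₁⟩ := c₁
  obtain ⟨a₂, b₂, ha₂, hb₂, e₂⟩ := c₂
  refine ⟨a₁ * b₂ + a₂ * b₁ + a₁ * a₂, b₁ * b₂, ?_, ?_, ?_⟩
  · exact P.add_mem (P.add_mem (P.mul_mem_right _ ha₁) (P.mul_mem_right _ ha₂))
      (P.mul_mem_right _ ha₁)
  · intro h
    rcases hP.mem_or_mem h with h | h
    · exact hb₁ h
    · exact hb₂ h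
  · simp only [Subalgebra.coe_mul, Subalgebra.coe_add]
    linear_combination (h₂ * (b₂ : L)) * e₁ + ((b₁ : L) + (a₁ : L)) * e₂

theorem CongrOneAt.pow {u : L} {P : Ideal (Overlap O u)} [hP : P.IsPrime] {h : L}
    (c : CongrOneAt P h) (n : ℕ) : CongrOneAt P (h ^ n) := by
  induction n with
  | zero => rw [pow_zero]; exact congrOneAt_one P
  | succ n ih => rw [pow_succ]; exact ih.mul c

theorem NodalDatum.Toric.mul {π : O} {u : L} {D : NodalDatum π u} {h₁ h₂ : L}
    (c₁ : D.Toric h₁) (c₂ : D.Toric h₂) : D.Toric (h₁ * h₂) :=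
  ⟨@CongrOneAt.mul _ _ _ _ _ _ _ D.isPrime₁ _ _ c₁.1 c₂.1,
    @CongrOneAt.mul _ _ _ _ _ _ _ D.isPrime₂ _ _ c₁.2 c₂.2⟩

theorem NodalDatum.Toric.pow {π : O} {u : L} {D : NodalDatum π u} {h : L}
    (c : D.Toric h) (n : ℕ) : D.Toric (h ^ n) :=
  ⟨@CongrOneAt.pow _ _ _ _ _ _ _ D.isPrime₁ _ c.1 n, @CongrOneAt.pow _ _ _ _ _ _ _ D.isPrime₂ _ c.2 n⟩

end SwapDefs

end Fermat.Agent.S34.Nodal
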