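import Fermat.Agent.S34.Nodal.Swap
import Fermat.Agent.S34.Nodal.Main
import Fermat.Agent.S35.NodalSigma
import Fermat.Agent.S35.TwoChart211

/-!
# PROGRAM U (S35): the `K`-level exit for the component-swapping automorphism (SORRY-FREE)

`inj_ss_swap` : the `K`-level form of the relation `(C2')`, `σ = φ ∘ W`, stated WITHOUT
`IsModelAut` (`σ` does not fix the parameter `u = j`): `σ` preserves `O` and the chart ring of
`u`, exchanges the two primes of that chart, fixes the crossing points, and there is no crossing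
point at `u = ∞`.  Vocabulary: `Nodal/Swap.lean`.  (`σ h` toric is NOT a hypothesis: it is
`NodalDatum.toric_map_of_swap`.)

Proof: `k := σ h * h ^ c` is toric (`toric_map_of_swap`, `Toric.mul`, `Toric.pow`);
`cartier_of_toric` applied to `k` ITSELF on both charts and `IsNodalChart.cartierRoot` applied to
`h` on the chart `u`; local roots at the points of the chart `u` by
`S35.NodalSigma.hloc_chart_swap_of_cartierRoot` (with `comap_equiv_eq`, `mem_iff_of_comap_eq`);
then helper211's two-chart exit `S35.TwoChart211.pow_of_hloc`.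
-/

set_option autoImplicit false

open Polynomial
open Fermat.Agent.S30.Model Fermat.Agent.S30.Model.GlueChart

namespace Fermat.Agent.S34.Nodal

section SwapExit

variable {O E L : Type*} [CommRing O] [IsDomain O] [IsDiscreteValuationRing O]
  [Field E] [CharZero E] [Algebra O E] [IsFractionRing O E]
  [Field L] [Algebra E L] [Algebra O L] [IsScalarTower O E L]

/-- **`K`-level (INJ-ss), component-swapping case** (S35, relation `(C2')`).  `σ` a semilinear
automorphism of `L` preserving `O` and the chart ring of `u`, exchanging the two primes of that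
chart and fixing its crossing points, with `σ ζ = ζ ^ c`; no crossing point at `u = ∞`; `h` toric
with `m ∣ div h` on the chart `u` and `m ∣ div (σ h * h ^ c)` on both charts;
`θ ^ m = σ h * h ^ c` generating a field
`M = L(θ)` in which `O` is integrally closed.  Then `σ h * h ^ c` is an `m`-th power in `L`. -/
theorem inj_ss_swap (π : O) (hπ : Irreducible π) (u : L) (hu : Transcendental E u)
    [FiniteDimensional (IntermediateField.adjoin E {u}) L]
    (D : NodalDatum π u)
    (m : ℕ) (hm : IsUnit (m : O)) (ζ : O) (hζ : IsPrimitiveRoot ζ m)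
    (σ : L ≃+* L) (hσO : IsBaseAut O σ) (hσB : StabilizesChart O u σ)
    (h₁₂ : MapsIntoChart (D.P₁.comap (toOverlapZero O u)) (D.P₂.comap (toOverlapZero O u)) σ)
    (h₂₁ : MapsIntoChart (D.P₂.comap (toOverlapZero O u)) (D.P₁.comap (toOverlapZero O u)) σ)
    (hnode : FixesNodes u (D.P₁.comap (toOverlapZero O u)) (D.P₂.comap (toOverlapZero O u)) σ)
    (hNC : ∀ (y : Ideal (Chart O u⁻¹)) (g : Chart O u⁻¹), (g : L) = u⁻¹ → y.IsMaximal → g ∈ y →
      D.P₁.comap (toOverlapInf O u) ≤ y → D.P₂.comap (toOverlapInf O u) ≤ y → False)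
    (c : ℕ) (hσζ : σ (algebraMap O L ζ) = algebraMap O L ζ ^ c)
    (h : L) (hh : D.Toric h)
    (hdiv : LocPow (E := E) m u h)
    (hdivk : LocPow (E := E) m u (σ h * h ^ c)) (hdivk' : LocPow (E := E) m u⁻¹ (σ h * h ^ c))
    (M : Type*) [Field M] [Algebra L M] [Algebra O M] [IsScalarTower O L M]
    (θ : M) (hθ : θ ^ m = algebraMap L M (σ h * h ^ c)) (hgen : Algebra.adjoin L {θ} = ⊤)
    (hOM : ∀ x : M, IsIntegral O x → ∃ a : O, algebraMap O M a = x) :
    ∃ g : L, σ h * h ^ c = g ^ m := by
  have hu0 : u ≠ 0 := fun h0 => hu (h0 ▸ isAlgebraic_zero)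
  have hinj : Function.Injective (algebraMap O L) := ChartProv.algebraMap_injective_base O E L
  have hm0 : 0 < m := by
    rcases Nat.eq_zero_or_pos m with rfl | h0
    · simp at hm
    · exact h0
  have hkT : D.Toric (σ h * h ^ c) :=
    (D.toric_map_of_swap hinj hπ hu0 hσO hσB h₁₂ h₂₁ hh).mul (hh.pow c)
  obtain ⟨_, hCinf⟩ := cartier_of_toric (E := E) π hπ u hu D m hm _ hkT hdivk hdivk'
  have hz := D.toric_zero hu0 hh
  have hCh : ToricInertia.CartierRoot O ({u} : Set L) m h :=
    IsNodalChart.cartierRoot (E := E) π hπ u hu D.chartZero m hm h hz.1 hz.2 hdiv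
  have hfr := Fermat.Agent.S35.NodalSigma.isFractionRing_chart (O := O) (E := E) u
  obtain ⟨e1, e2⟩ := comap_equiv_eq hinj hπ D.chartZero hσO hσB h₁₂ h₂₁
  have hloc0 := Fermat.Agent.S35.NodalSigma.hloc_chart_swap_of_cartierRoot π u D.chartZero σ
    hσB.isIntegral_iff (mem_iff_of_comap_eq hσB e2) (mem_iff_of_comap_eq hσB e1)
    hnode m hm0 ζ (hζ.map_of_injective hinj) c hσζ h hh.ne_zero hz.1 hz.2 hCh
  exact Fermat.Agent.S35.TwoChart211.pow_of_hloc (E := E) π hπ u hu D m hm ζ hζ (σ h * h ^ c) hkT
    hloc0 hCinf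
    (fun y hy hg hboth => hNC y (Fermat.Agent.S34.Bridge2.gen u⁻¹) rfl hy hg hboth.1 hboth.2)
    M θ hθ hgen hOM

end SwapExit

end Fermat.Agent.S34.Nodal
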